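import Fermat.Agent.MLT.Patch.Bridge

/-!
Area MLT, parcel LIMIT: from the levels of all auxiliary sets to the value of a killer at the curve.
-/

set_option autoImplicit false
set_option linter.style.haveILetI false
set_option linter.unusedSectionVars false

noncomputable section

namespace FLTAgent.MLT

open IsLocalRing

variable {O : Type} [CommRing O] [IsDomain O] [IsDiscreteValuationRing O]
  [IsAdicComplete (maximalIdeal O) O] [Finite (ResidueField O)] [CharZero O]
  {k : ℕ} {P : Fin k → FPlace O} {g : ℕ}

/-- a killer of the top level vanishes at the curve -/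
theorem eq_zero_of_levelTowers (M : CompModel P g) {d : Fin (k + 1) → ℕ} (hd : ∀ j, 0 < d j)
    {v : O} (hlev : ∀ n, ∃ n', n ≤ n' ∧ Nonempty (LevelTower P g d v n')) : v = 0 := by
  choose lv hlv L using hlev
  obtain ⟨ev, hev, -, hF, hker, -, -⟩ :=
    exists_chain_limit M hd hlv fun n => (L n).some.toLevelChain
  exact eq_zero_of_pointKillers M hlv hev hF hker fun n => (L n).some.pt

/-- a killer of the strict level vanishes at the curve -/
theorem eq_zero_of_bridgeLevels (M : CompModel P g) {d : Fin (k + 1) → ℕ} (hd : ∀ j, 0 < d j)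
    {dY dS : ℕ} {t0 : Fin g} {e : O} (he : IsUnit e)
    {v : O}
    (hlev : ∀ n, ∃ n', n ≤ n' ∧ Nonempty (BridgeLevel P g d dY dS t0 e v n')) : v = 0 := by
  choose lv hlv B using hlev
  exact eq_zero_of_bridge M hd he hlv fun n => (B n).some

end FLTAgent.MLT

end
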