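import Fermat.Agent.MLT.Patch.LocModel

/-!
Area MLT, parcel LOC: the components of the product of the local models.
-/

set_option autoImplicit false
set_option linter.style.haveILetI false
set_option linter.unusedSectionVars false

noncomputable section

namespace FLTAgent.MLT

open IsLocalRing Matrix FLTAgent.LL

/-- the local models exist -/
theorem exists_compModel {O : Type} [CommRing O] [IsDomain O] [IsDiscreteValuationRing O]
    [IsAdicComplete (maximalIdeal O) O] [Finite (ResidueField O)] [CharZero O] {k : ℕ}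
    (P : Fin k → FPlace O) (g : ℕ) : Nonempty (CompModel P g) := by
  classical
  let ev : Fin (3 * k + g) ≃ (Fin k × Fin 3) ⊕ Fin g :=
    (Fintype.equivFinOfCardEq (by simp [Nat.mul_comm])).symm
  let J := {τ : Fin k → FKind // ∀ i, (P i).Valid (τ i)}
  let K : J → Ideal (MvPowerSeries (WVar k g) O) := fun j => chartK P j.1 j.2
  let cp : Finset (Fin k) → J := fun s => ⟨compKind s, valid_compKind P s⟩
  have hcp : ∀ (s : Finset (Fin k)) i, (cp s).1 i = if i ∈ s then .st else .unr := fun s i => rfl
  have hsub : ∀ (j : J) (Z : Set (LocVar (Fin k) (Fin g))) (τ' : Fin k → FKind)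
      (hτ' : ∀ i, (P i).Valid (τ' i)), K j ≤ RingHom.ker (killChart P τ' hτ' Z) →
      ∀ i, τ' i ≠ .unr → Sum.inl (i, 2) ∉ Z → j.1 i ≠ .unr := by
    intro j Z τ' hτ' hle i hne hZ hu
    obtain ⟨f, hf, hf'⟩ := exists_fpUnr_ne P τ' hτ' Z hne hZ
    exact hf' (hle ((fpUnr_subset_iff P j.1 j.2 i).2 hu hf))
  refine ⟨{
    J := J
    fintype := Fintype.ofFinite J
    K := K
    prime := fun j => isPrime_chartK P j.1 j.2
    points := fun C _ _ _ _ hinj π hπ hrel => by
      choose τ hτ hc using fun i => exists_fkind P hinj π hπ hrel i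
      exact ⟨⟨τ, hτ⟩, chartK_le_ker P hinj π hπ hrel τ hτ hc⟩
    sv := fun a => Sum.elim (fun p => fpParam P p.1 p.2)
      (fun t => MvPowerSeries.X (Sum.inr t)) (ev a)
    sv_mem := fun a => ?_
    params := fun j Q hQ hK hC hsv => ?_
    gen_notMem := fun j t h => ?_
    comp := cp
    start := fun j h => ?_
    sep := fun j i hu hq => ?_
    step := fun s i hi => ?_
    top := fun t => ?_
    point := fun x hx hrel hst => ?_ }⟩
  · rcases ev a with ⟨i, r⟩ | t
    · rw [Sum.elim_inl, fpParam_constantCoeff]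
      exact zero_mem _
    · rw [Sum.elim_inr, MvPowerSeries.constantCoeff_X]
      exact zero_mem _
  · refine X_mem_of_fpParam P Q hQ (fun f hf => hK ?_) hC (fun i r => ?_) (fun t => ?_)
    · exact RingHom.mem_ker.2 (chartHom_rel P j.1 j.2 f hf)
    · simpa using hsv (ev.symm (Sum.inl (i, r)))
    · simpa using hsv (ev.symm (Sum.inr t))
  · simp only [K, chartK, RingHom.mem_ker, chartHom_X, chartValue] at h
    have h' := congrArg (MvPowerSeries.coeff
      (Finsupp.single (Sum.inr t : LocVar (Fin k) (Fin g)) 1)) h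
    simp [MvPowerSeries.coeff_X] at h'
  · refine Subtype.ext (funext fun i => ?_)
    rw [(fpUnr_subset_iff P j.1 j.2 i).1 (h i), hcp, if_neg (Finset.notMem_empty i)]
  · have hj := (fpUnr_subset_iff P j.1 j.2 i).1 hu
    refine quart_ne_of_unr (S := Fin g) P j.1 j.2 ∅ hj (Set.notMem_empty _) ?_
    rw [← chartHom_eq_killChart]
    exact RingHom.mem_ker.1 hq
  · set τ1 := cp (insert i s)
    set Z : Set (LocVar (Fin k) (Fin g)) := {Sum.inl (i, 2)}
    have h1 : τ1.1 i = .st := by rw [hcp, if_pos (Finset.mem_insert_self i s)]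
    refine ⟨RingHom.ker (killChart P τ1.1 τ1.2 Z), RingHom.ker_isPrime _, ?_, ?_,
      fun a ha => fun h => killChart_C_ne P τ1.1 τ1.2 Z ha (RingHom.mem_ker.1 h), fun j hjq hjH => ?_⟩
    · refine chartK_le_ker_of_unr P (cp s).1 (cp s).2 τ1.1 τ1.2 i (by rw [hcp, if_neg hi])
        fun m hm => ?_
      rw [hcp, hcp]
      exact if_congr (by simp [hm]) rfl rfl
    · exact RingHom.mem_ker.2 (killChart_quart_eq P τ1.1 τ1.2 Z (by rw [h1]; decide))
    · have hji : ∀ m, j.1 m = .opp → τ1.1 m ≠ .st := fun m hm h =>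
        (killChart_sign_ne P τ1.1 τ1.2 Z m).1 h
          (RingHom.mem_ker.1 (hjH (fpOpp_mem P j.1 j.2 hm)))
      refine Subtype.ext (funext fun m => ?_)
      by_cases hm : m = i
      · subst hm
        rw [h1]
        rcases hk : j.1 m with _ | _ | _
        · refine absurd ?_ (quart_ne_of_unr (S := Fin g) P j.1 j.2 ∅ hk (Set.notMem_empty _))
          rw [← chartHom_eq_killChart]
          exact RingHom.mem_ker.1 hjq
        · rfl
        · exact absurd h1 (hji m hk)
      · have hZ2 : (Sum.inl (m, 2) : LocVar (Fin k) (Fin g)) ∉ Z := by simp [Z, hm]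
        have hZ0 : (Sum.inl (m, 0) : LocVar (Fin k) (Fin g)) ∉ Z := by simp [Z]
        by_cases hu : τ1.1 m = .unr
        · rw [hu]
          by_contra hne
          refine quart_ne_of_unr P τ1.1 τ1.2 Z hu hZ0 (RingHom.mem_ker.1 (hjH ?_))
          rw [fpQuart_eq]
          rcases hk : j.1 m with _ | _ | _
          · exact absurd hk hne
          · exact Ideal.mul_mem_right _ _ (fpSt_mem P j.1 j.2 hk)
          · exact Ideal.mul_mem_left _ _ (fpOpp_mem P j.1 j.2 hk)
        · have hst : τ1.1 m = .st := by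
            by_cases hms : m ∈ insert i s
            · rw [hcp, if_pos hms]
            · exact absurd (by rw [hcp, if_neg hms]) hu
          rw [hst]
          rcases hk : j.1 m with _ | _ | _
          · exact absurd hk (hsub j Z τ1.1 τ1.2 hjH m hu hZ2)
          · rfl
          · exact absurd hst (hji m hk)
  · set τ1 := cp Finset.univ
    set Z : Set (LocVar (Fin k) (Fin g)) := {Sum.inr t}
    have h1 : ∀ i, τ1.1 i = .st := fun i => by rw [hcp, if_pos (Finset.mem_univ i)]
    have hsup : K τ1 ⊔ Ideal.span {MvPowerSeries.X (Sum.inr t)} =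
        RingHom.ker (killChart P τ1.1 τ1.2 Z) := (ker_killChart_inr P τ1.1 τ1.2 t).symm
    rw [hsup]
    refine ⟨RingHom.ker_isPrime _, fun h => ?_,
      fun a ha h => killChart_C_ne P τ1.1 τ1.2 Z ha (RingHom.mem_ker.1 h), fun j hu ho => ?_⟩
    · simp only [K, chartK, RingHom.mem_ker, chartHom_X, chartValue] at h
      have h' := congrArg (MvPowerSeries.coeff
        (Finsupp.single (Sum.inr t : LocVar (Fin k) (Fin g)) 1)) h
      simp [MvPowerSeries.coeff_X] at h'
    · refine Subtype.ext (funext fun i => ?_)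
      rw [h1]
      rcases hk : j.1 i with _ | _ | _
      · obtain ⟨f, hf, hf'⟩ := exists_fpUnr_ne P τ1.1 τ1.2 Z (i := i) (by rw [h1]; decide)
          (by simp [Z])
        exact absurd (RingHom.mem_ker.1 (hu i ((fpUnr_subset_iff P j.1 j.2 i).2 hk) hf)) hf'
      · rfl
      · exact absurd (RingHom.mem_ker.1 (ho i (fpOpp_mem P j.1 j.2 hk)))
          ((killChart_sign_ne P τ1.1 τ1.2 Z i).1 (h1 i))
  · refine chartK_le_ker P (C := O) (fun a b h => h) x (fun a => (hx a).trans rfl) hrel _ _ fun i => ?_
    rw [show (cp Finset.univ).1 i = FKind.st from (hcp _ i).trans (if_pos (Finset.mem_univ i))]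
    exact hst i

end FLTAgent.MLT

end
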