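import Fermat.Agent.MLT.Patch.Ultra

/-!
Area MLT, LIMIT: evaluation of series at commuting matrices, and its behaviour under limits.
-/

set_option autoImplicit false
set_option linter.style.haveILetI false
set_option linter.unusedSectionVars false
set_option maxHeartbeats 1000000

noncomputable section

namespace FLTAgent.MLT

open IsLocalRing Filter FLTAgent.LL Matrix
open scoped Kronecker

variable {O : Type} [CommRing O] [IsDomain O] [IsDiscreteValuationRing O]
  [IsAdicComplete (maximalIdeal O) O] [Finite (ResidueField O)]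
variable {σ : Type} [Finite σ] {m d : ℕ}

theorem sub_trunc_mem (f : MvPowerSeries σ O) (D : ℕ) :
    f - ((MvPowerSeries.truncTotal D f : MvPolynomial σ O) : MvPowerSeries σ O) ∈
      maximalIdeal (MvPowerSeries σ O) ^ D := by
  have hX : Ideal.span (Set.range (MvPowerSeries.X : σ → MvPowerSeries σ O)) ≤
      maximalIdeal (MvPowerSeries σ O) := by
    rw [Ideal.span_le]
    rintro _ ⟨a, rfl⟩
    exact X_mem_maximalIdeal a
  refine Ideal.pow_right_mono hX D (mem_span_X_pow fun v hv => ?_)
  rw [map_sub, MvPolynomial.coeff_coe, MvPowerSeries.coeff_truncTotal _ hv, sub_self]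

/-- a continuous homomorphism into matrices over the parameter ring -/
structure SmallHom {ι : Type} [Fintype ι] [DecidableEq ι]
    (ev : MvPowerSeries σ O →+* Matrix ι ι (SR O m)) : Prop where
  map_C : ∀ c : O, ev (MvPowerSeries.C c) = algebraMap O (Matrix ι ι (SR O m)) c
  small : ∀ n, ∃ K, ∀ f ∈ maximalIdeal (MvPowerSeries σ O) ^ K, ∀ i j,
    ev f i j ∈ maximalIdeal (SR O m) ^ n

/-- two copies, as a homomorphism -/
def dblHom (R : Type) [CommRing R] (d : ℕ) :
    Matrix (Fin d) (Fin d) R →+* Matrix (Fin 2 × Fin d) (Fin 2 × Fin d) R where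
  toFun A := dbl A
  map_one' := Matrix.one_kronecker_one
  map_mul' A B := by rw [dbl, dbl, dbl, ← Matrix.mul_kronecker_mul, one_mul]
  map_zero' := Matrix.kronecker_zero _
  map_add' A B := Matrix.kronecker_add _ _ _

theorem dblHom_apply {R : Type} [CommRing R] (A : Matrix (Fin d) (Fin d) R) :
    dblHom R d A = dbl A := rfl

theorem dbl_algebraMap {R : Type} [CommRing R] [Algebra O R] (c : O) :
    dbl (algebraMap O (Matrix (Fin d) (Fin d) R) c) = algebraMap O _ c := by
  rw [dbl, Matrix.algebraMap_eq_diagonal, Matrix.algebraMap_eq_diagonal, ← Matrix.diagonal_one,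
    Matrix.diagonal_kronecker_diagonal]
  simp

theorem SmallHom.dbl {ev : MvPowerSeries σ O →+* Matrix (Fin d) (Fin d) (SR O m)} (h : SmallHom ev) :
    SmallHom ((dblHom (SR O m) d).comp ev) where
  map_C c := by rw [RingHom.comp_apply, h.map_C, dblHom_apply, dbl_algebraMap]
  small n := by
    obtain ⟨K, hK⟩ := h.small n
    refine ⟨K, fun f hf i j => ?_⟩
    show (1 : Matrix (Fin 2) (Fin 2) (SR O m)) i.1 j.1 * ev f i.2 j.2 ∈ _
    exact Ideal.mul_mem_left _ _ (hK f hf _ _)

/-- intertwining is checked on the variables -/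
theorem SmallHom.intertwine {a b : Type} [Fintype a] [DecidableEq a] [Fintype b] [DecidableEq b]
    {ev : MvPowerSeries σ O →+* Matrix a a (SR O m)} {ev' : MvPowerSeries σ O →+* Matrix b b (SR O m)}
    (h : SmallHom ev) (h' : SmallHom ev') (T : Matrix b a (SR O m))
    (hX : ∀ l, ev' (MvPowerSeries.X l) * T = T * ev (MvPowerSeries.X l))
    (f : MvPowerSeries σ O) : ev' f * T = T * ev f := by
  have hp : ∀ q : MvPolynomial σ O, ev' (q : MvPowerSeries σ O) * T = T * ev q := by
    intro q
    induction q using MvPolynomial.induction_on with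
    | C c =>
      rw [MvPolynomial.coe_C, h.map_C, h'.map_C, Algebra.algebraMap_eq_smul_one,
        Algebra.algebraMap_eq_smul_one, Matrix.smul_mul, Matrix.mul_smul, Matrix.one_mul,
        Matrix.mul_one]
    | add q r hq hr =>
      rw [MvPolynomial.coe_add, map_add, map_add, Matrix.add_mul, Matrix.mul_add, hq, hr]
    | mul_X q l hq =>
      rw [MvPolynomial.coe_mul, map_mul, map_mul, MvPolynomial.coe_X, Matrix.mul_assoc, hX,
        ← Matrix.mul_assoc, hq, Matrix.mul_assoc]
  refine Matrix.ext fun i j => sub_eq_zero.1 ?_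
  refine IsHausdorff.haus (I := maximalIdeal (SR O m)) (M := SR O m) inferInstance _ fun n => ?_
  rw [SModEq.zero, smul_eq_mul, Ideal.mul_top]
  obtain ⟨K, hK⟩ := h.small n
  obtain ⟨K', hK'⟩ := h'.small n
  set q := MvPowerSeries.truncTotal (max K K') f
  have h1 := sub_trunc_mem f (max K K')
  have e : ev' f * T - T * ev f = ev' (f - q) * T - T * ev (f - q) := by
    rw [map_sub, map_sub, Matrix.sub_mul, Matrix.mul_sub, hp]
    abel
  rw [← Matrix.sub_apply, e, Matrix.sub_apply, Matrix.mul_apply, Matrix.mul_apply]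
  refine sub_mem (sum_mem fun l _ => Ideal.mul_mem_right _ _ ?_)
    (sum_mem fun l _ => Ideal.mul_mem_left _ _ ?_)
  · exact hK' _ (Ideal.pow_le_pow_right (le_max_right K K') h1) _ _
  · exact hK _ (Ideal.pow_le_pow_right (le_max_left K K') h1) _ _

/-- evaluation at commuting matrices, nilpotent modulo the maximal ideal -/
theorem exists_evalMat (y : σ → Matrix (Fin d) (Fin d) (SR O m))
    (hcomm : ∀ a b, y a * y b = y b * y a)
    (hnil : ∀ a i j, (y a ^ d) i j ∈ maximalIdeal (SR O m)) :
    ∃ (φ : MvPolynomial σ O →ₐ[O] Matrix (Fin d) (Fin d) (SR O m))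
      (ev : MvPowerSeries σ O →+* Matrix (Fin d) (Fin d) (SR O m)),
      (∀ a, φ (MvPolynomial.X a) = y a) ∧ SmallHom ev ∧
      (∀ q : MvPolynomial σ O, ev q = φ q) ∧
      ∀ n f i j, (ev f - φ (MvPowerSeries.truncTotal (cutDeg σ d n) f)) i j ∈
        maximalIdeal (SR O m) ^ n := by
  classical
  let A := Algebra.adjoin (SR O m) (Set.range y)
  haveI hA : IsMulCommutative A := Algebra.isMulCommutative_adjoin (SR O m) (by
    rintro _ ⟨a, rfl⟩ _ ⟨b, rfl⟩
    exact hcomm a b)
  letI : CommRing A := open scoped IsMulCommutative in inferInstance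
  let x : σ → A := fun a => ⟨y a, Algebra.subset_adjoin ⟨a, rfl⟩⟩
  haveI : Module.Finite (SR O m) A := Module.Finite.of_injective A.val.toLinearMap
    Subtype.val_injective
  set I : Ideal A := (maximalIdeal (SR O m)).map (algebraMap (SR O m) A) with hI
  haveI : IsAdicComplete I A := by
    have h := IsAdicComplete.of_module_finite (maximalIdeal (SR O m)) A
    exact (IsAdicComplete.map_algebraMap_iff (maximalIdeal (SR O m)) A).2 h
  have hnilI : ∀ a, x a ^ d ∈ I := by
    intro a
    let q := Ideal.Quotient.mk (maximalIdeal (SR O m))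
    have hnilp : IsNilpotent ((y a).map q) := by
      refine ⟨d, ?_⟩
      rw [← RingHom.mapMatrix_apply, ← map_pow]
      ext i j
      rw [RingHom.mapMatrix_apply, Matrix.map_apply, Matrix.zero_apply]
      exact Ideal.Quotient.eq_zero_iff_mem.2 (hnil a i j)
    have hcp : ((y a).charpoly).map q = Polynomial.X ^ d := by
      rw [← Matrix.charpoly_map]
      haveI : IsDomain (SR O m ⧸ maximalIdeal (SR O m)) := Ideal.Quotient.isDomain _
      have := Matrix.isNilpotent_charpoly_sub_pow_of_isNilpotent hnilp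
      rw [isNilpotent_iff_eq_zero, sub_eq_zero, Fintype.card_fin] at this
      exact this
    have h0 : Polynomial.aeval (x a) ((y a).charpoly) = 0 := by
      apply Subtype.val_injective
      rw [show ((Polynomial.aeval (x a) ((y a).charpoly) : A) : Matrix _ _ _) =
        A.val (Polynomial.aeval (x a) ((y a).charpoly)) from rfl, ← Polynomial.aeval_algHom_apply]
      exact Matrix.aeval_self_charpoly (y a)
    have hsum : Polynomial.aeval (x a) ((y a).charpoly - Polynomial.X ^ d) ∈ I := by
      rw [Polynomial.aeval_eq_sum_range]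
      refine sum_mem fun i _ => ?_
      rw [Algebra.smul_def]
      refine Ideal.mul_mem_right _ _ (Ideal.mem_map_of_mem _ ?_)
      rw [← Ideal.Quotient.eq_zero_iff_mem]
      have := congrArg (fun P => Polynomial.coeff P i) hcp
      simp only [Polynomial.coeff_map, Polynomial.coeff_X_pow] at this
      rw [Polynomial.coeff_sub, map_sub, this, Polynomial.coeff_X_pow]
      split <;> simp
    rw [map_sub, h0, zero_sub, neg_mem_iff, map_pow, Polynomial.aeval_X] at hsum
    exact hsum
  have hent : ∀ (n : ℕ) (z : A), z ∈ I ^ n → ∀ i j,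
      (z : Matrix (Fin d) (Fin d) (SR O m)) i j ∈ maximalIdeal (SR O m) ^ n := by
    intro n z hz i j
    rw [← Ideal.map_pow, ← Submodule.restrictScalars_mem (SR O m), ← Ideal.smul_top_eq_map] at hz
    refine Submodule.smul_induction_on hz (fun r hr w _ => ?_) fun u v hu hv => ?_
    · rw [Subalgebra.coe_smul, Matrix.smul_apply, smul_eq_mul]
      exact Ideal.mul_mem_right _ _ hr
    · rw [Subalgebra.coe_add, Matrix.add_apply]
      exact add_mem hu hv
  let φ : MvPolynomial σ O →ₐ[O] Matrix (Fin d) (Fin d) (SR O m) :=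
    (A.val.restrictScalars O).comp (MvPolynomial.aeval x)
  let e : MvPowerSeries σ O →+* A := evalHom I x d hnilI
  have hOI : ∀ c ∈ maximalIdeal O, algebraMap O A c ∈ I := fun c hc => by
    rw [IsScalarTower.algebraMap_apply O (SR O m) A]
    refine Ideal.mem_map_of_mem _ (mem_maximalIdeal_of_constantCoeff ?_)
    simpa [MvPowerSeries.algebraMap_apply] using hc
  refine ⟨φ, (A.val : A →+* _).comp e, fun a => ?_, ⟨fun c => ?_, fun n => ⟨_, fun f hf i j =>
    hent n _ (evalHom_mem_pow I hnilI hOI hf) i j⟩⟩, fun q => ?_, fun n f i j => ?_⟩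
  · simp [φ, x]
  · rw [RingHom.comp_apply, show e (MvPowerSeries.C c) = algebraMap O A c from evalHom_C I hnilI c]
    rfl
  · rw [RingHom.comp_apply, show e (q : MvPowerSeries σ O) = MvPolynomial.aeval x q from
      evalHom_coe I hnilI q]
    rfl
  · exact hent n _ (evalHom_sub_mem I hnilI n f) i j

variable {lv : ℕ → ℕ}

/-- homomorphisms that are close on the variables are close on all polynomials -/
theorem eventually_near_poly {φ : MvPolynomial σ O →ₐ[O] Matrix (Fin d) (Fin d) (SR O m)}
    {ψ : ∀ k, MvPolynomial σ O →ₐ[O] Matrix (Fin d) (Fin d) (SQ O m (lv k))}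
    (h : ∀ a, Near (φ (MvPolynomial.X a)) fun k => ψ k (MvPolynomial.X a)) (n : ℕ) :
    ∀ᶠ k in patchFilter, ∀ q : MvPolynomial σ O, ∀ i j, ∃ s : SR O m,
      Ideal.Quotient.mk _ s = ψ k q i j ∧ φ q i j - s ∈ maximalIdeal (SR O m) ^ n := by
  classical
  have he : ∀ᶠ k in patchFilter, ∀ a : σ, ∀ i j, ∃ s : SR O m,
      Ideal.Quotient.mk _ s = ψ k (MvPolynomial.X a) i j ∧
        φ (MvPolynomial.X a) i j - s ∈ maximalIdeal (SR O m) ^ n :=
    eventually_all.2 fun a => eventually_all.2 fun i => eventually_all.2 fun j => h a n i j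
  refine he.mono fun k hk q => ?_
  induction q using MvPolynomial.induction_on with
  | C c =>
    intro i j
    refine ⟨algebraMap O (Matrix (Fin d) (Fin d) (SR O m)) c i j, ?_, ?_⟩
    · rw [← MvPolynomial.algebraMap_eq, AlgHom.commutes, Matrix.algebraMap_matrix_apply,
        Matrix.algebraMap_matrix_apply]
      split <;> simp
    · rw [← MvPolynomial.algebraMap_eq, AlgHom.commutes, sub_self]
      exact zero_mem _
  | add q r hq hr =>
    intro i j
    obtain ⟨s, hs, hs'⟩ := hq i j
    obtain ⟨t, ht, ht'⟩ := hr i j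
    refine ⟨s + t, by rw [map_add, hs, ht, map_add, Matrix.add_apply], ?_⟩
    rw [map_add, Matrix.add_apply, add_sub_add_comm]
    exact add_mem hs' ht'
  | mul_X q a hq =>
    intro i j
    choose s hs hs' using fun l => hq i l
    choose t ht ht' using fun l => hk a l j
    refine ⟨∑ l, s l * t l, by simp [map_sum, Matrix.mul_apply, hs, ht, map_mul], ?_⟩
    rw [map_mul, Matrix.mul_apply, ← Finset.sum_sub_distrib]
    refine sum_mem fun l _ => ?_
    rw [show φ q i l * φ (MvPolynomial.X a) l j - s l * t l =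
      (φ q i l - s l) * φ (MvPolynomial.X a) l j + s l * (φ (MvPolynomial.X a) l j - t l) by ring]
    exact add_mem (Ideal.mul_mem_right _ _ (hs' l)) (Ideal.mul_mem_left _ _ (ht' l))

/-- the limit of evaluations -/
theorem exists_eval_limit (hlv : ∀ k, k ≤ lv k)
    (ψ : ∀ k, MvPolynomial σ O →ₐ[O] Matrix (Fin d) (Fin d) (SQ O m (lv k)))
    (hnil : ∀ k a i j, (ψ k (MvPolynomial.X a) ^ d) i j ∈
      (maximalIdeal (SR O m)).map (Ideal.Quotient.mk (maximalIdeal (SR O m) ^ (lv k + 1)))) :
    ∃ ev : MvPowerSeries σ O →+* Matrix (Fin d) (Fin d) (SR O m), SmallHom ev ∧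
      (∀ a, Near (ev (MvPowerSeries.X a)) fun k => ψ k (MvPolynomial.X a)) ∧
      (∀ f, Near (ev f) fun k => evT (ψ k) f) ∧
      ∀ (F : ℕ → MvPowerSeries σ O) f,
        (∀ n, ∀ᶠ k in patchFilter, f - F k ∈ maximalIdeal (MvPowerSeries σ O) ^ n) →
          Near (ev f) fun k => evT (ψ k) (F k) := by
  classical
  choose y hy using fun a => exists_near fun k => ψ k (MvPolynomial.X a)
  have hcomm : ∀ a b, y a * y b = y b * y a := fun a b =>
    Near.unique hlv (((hy a).mul (hy b)).congr fun k => by
      rw [← map_mul, mul_comm, map_mul]) ((hy b).mul (hy a))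
  have hpow : ∀ a (e : ℕ), Near (y a ^ e) fun k => ψ k (MvPolynomial.X a) ^ e := by
    intro a e
    induction e with
    | zero => simpa using near_one
    | succ e ih => simpa [pow_succ] using ih.mul (hy a)
  obtain ⟨φ, ev, hφ, hev, hpoly, happ⟩ := exists_evalMat y hcomm fun a i j =>
    (hpow a d).mem_ideal hlv _ (fun k i j => hnil k a i j) i j
  have hnear : ∀ a, Near (φ (MvPolynomial.X a)) fun k => ψ k (MvPolynomial.X a) := fun a => by
    rw [hφ]; exact hy a
  refine ⟨ev, hev, fun a => ?_, ?_⟩
  · rw [← MvPolynomial.coe_X, hpoly]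
    exact hnear a
  have key : ∀ (F : ℕ → MvPowerSeries σ O) f,
      (∀ n, ∀ᶠ k in patchFilter, f - F k ∈ maximalIdeal (MvPowerSeries σ O) ^ n) →
        Near (ev f) fun k => evT (ψ k) (F k) := by
    intro F f hF n i j
    obtain ⟨K, hK⟩ := hev.small n
    refine (((eventually_near_poly hnear n).and (hF K)).and (eventually_ge n)).mono ?_
    rintro k ⟨⟨hk, hFk⟩, hnk⟩
    set q := MvPowerSeries.truncTotal (cutDeg σ d (lv k + 1)) (F k)
    obtain ⟨s, hs, hs'⟩ := hk q i j
    refine ⟨s, hs, ?_⟩
    have h1 : (ev f - ev (F k)) i j ∈ maximalIdeal (SR O m) ^ n := by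
      rw [← map_sub]; exact hK _ hFk i j
    have h2 : (ev (F k) - φ q) i j ∈ maximalIdeal (SR O m) ^ n :=
      Ideal.pow_le_pow_right (by have := hlv k; omega) (happ (lv k + 1) (F k) i j)
    rw [Matrix.sub_apply] at h1 h2
    have := add_mem (add_mem h1 h2) hs'
    simpa using this
  exact ⟨fun f => key (fun _ => f) f fun n => Eventually.of_forall fun k => by simp, key⟩

end FLTAgent.MLT

end
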