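import Mathlib

/-!
Area MLT, LIMIT: a prime `(K, x)` is in the image of the zero locus of an element of an integral
extension, as soon as that zero locus lies over the zero locus of `x`. No normality is used.
-/

set_option autoImplicit false
set_option linter.style.haveILetI false
set_option linter.unusedSectionVars false

noncomputable section

namespace FLTAgent.MLT

open IsLocalRing

/-- Krull: a prime over a prime and one further element covers it -/
theorem eq_of_mem_minimalPrimes_sup_span {R : Type} [CommRing R] [IsNoetherianRing R]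
    {K H q : Ideal R} [K.IsPrime] [H.IsPrime] {x : R} (hq : q ∈ (K ⊔ Ideal.span {x}).minimalPrimes)
    (hKH : K < H) (hHq : H ≤ q) : H = q := by
  haveI : q.IsPrime := hq.1.1
  by_contra hne
  let f := Ideal.Quotient.mk K
  have hKq : K ≤ q := hKH.le.trans hHq
  have hsurj : Function.Surjective f := Ideal.Quotient.mk_surjective
  haveI : (H.map f).IsPrime := Ideal.map_isPrime_of_surjective hsurj (by rw [Ideal.mk_ker]; exact hKH.le)
  haveI : (q.map f).IsPrime := Ideal.map_isPrime_of_surjective hsurj (by rw [Ideal.mk_ker]; exact hKq)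
  have hback : ∀ I : Ideal R, K ≤ I → (I.map f).comap f = I := fun I hI => by
    rw [Ideal.comap_map_of_surjective f hsurj, ← RingHom.ker_eq_comap_bot, Ideal.mk_ker,
      sup_eq_left.2 hI]
  have h1 : (⊥ : Ideal (R ⧸ K)) < H.map f := by
    refine lt_of_le_of_ne bot_le fun h => hKH.ne ?_
    rw [← hback H hKH.le, ← h, ← RingHom.ker_eq_comap_bot, Ideal.mk_ker]
  have h2 : H.map f < q.map f := by
    refine lt_of_le_of_ne (Ideal.map_mono hHq) fun h => hne ?_
    rw [← hback H hKH.le, h, hback q hKq]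
  have h3 : (q.map f).height ≤ 1 := Ideal.map_height_le_one_of_mem_minimalPrimes hq
  haveI : (⊥ : Ideal (R ⧸ K)).IsPrime := Ideal.isPrime_bot
  have h4 := Ideal.height_strict_mono_of_isPrime_of_isPrime h1
  have h5 := Ideal.height_strict_mono_of_isPrime_of_isPrime h2
  have h6 : (H.map f).height < 1 := lt_of_lt_of_le h5 h3
  rw [Order.lt_one_iff] at h6
  rw [h6] at h4
  exact not_lt_zero h4

variable {R : Type} [CommRing R] [IsNoetherianRing R] [IsLocalRing R]

/-- a prime of coheight two above `K` whose only bigger prime containing `x` and `f` is maximal -/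
theorem exists_prime_coheight {K : Ideal R} [K.IsPrime] {x f : R}
    (hH : (K ⊔ Ideal.span {x}).IsPrime) (hx : x ∉ K) (hf : f ∉ K ⊔ Ideal.span {x})
    (hfm : f ∈ maximalIdeal R) :
    ∃ P0 P1 : Ideal R, P0.IsPrime ∧ P1.IsPrime ∧ K ≤ P0 ∧ P0 < P1 ∧ P1 < maximalIdeal R ∧
      ∀ Q : Ideal R, Q.IsPrime → P0 ≤ Q → x ∈ Q → f ∈ Q → Q = maximalIdeal R := by
  classical
  haveI := hH
  set H := K ⊔ Ideal.span {x} with hHdef
  set I := H ⊔ Ideal.span {f}
  have hIm : I ≤ maximalIdeal R :=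
    sup_le (IsLocalRing.le_maximalIdeal hH.ne_top) ((Ideal.span_singleton_le_iff_mem _).2 hfm)
  have hI : I ≠ ⊤ := fun h => (maximalIdeal.isMaximal R).ne_top (top_le_iff.1 (h ▸ hIm))
  haveI : Nontrivial (R ⧸ I) := Ideal.Quotient.nontrivial_iff.2 hI
  haveI : IsLocalRing (R ⧸ I) :=
    IsLocalRing.of_surjective' (Ideal.Quotient.mk I) Ideal.Quotient.mk_surjective
  haveI : IsLocalHom (Ideal.Quotient.mk I) :=
    IsLocalHom.of_surjective _ Ideal.Quotient.mk_surjective
  -- two drops of dimension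
  have d1 : ringKrullDim (R ⧸ I) + 1 ≤ ringKrullDim (R ⧸ H) :=
    ringKrullDim_succ_le_of_surjective (Ideal.Quotient.factor le_sup_left)
      (Ideal.Quotient.factor_surjective le_sup_left) (r := Ideal.Quotient.mk H f)
      (mem_nonZeroDivisors_iff_ne_zero.2 (mt Ideal.Quotient.eq_zero_iff_mem.1 hf))
      (by rw [Ideal.Quotient.factor_mk]
          exact Ideal.Quotient.eq_zero_iff_mem.2 (Ideal.mem_sup_right (Ideal.mem_span_singleton_self f)))
  have d2 : ringKrullDim (R ⧸ H) + 1 ≤ ringKrullDim (R ⧸ K) :=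
    ringKrullDim_succ_le_of_surjective (Ideal.Quotient.factor le_sup_left)
      (Ideal.Quotient.factor_surjective le_sup_left) (r := Ideal.Quotient.mk K x)
      (mem_nonZeroDivisors_iff_ne_zero.2 (mt Ideal.Quotient.eq_zero_iff_mem.1 hx))
      (by rw [Ideal.Quotient.factor_mk]
          exact Ideal.Quotient.eq_zero_iff_mem.2 (Ideal.mem_sup_right (Ideal.mem_span_singleton_self x)))
  -- parameters of `R / I`
  obtain ⟨s, hs, hcard⟩ :=
    Ideal.exists_finset_card_eq_height_of_isNoetherianRing (maximalIdeal (R ⧸ I))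
  have hdim : ringKrullDim (R ⧸ I) = ((s.card : ℕ∞) : WithBot ℕ∞) := by
    rw [← IsLocalRing.maximalIdeal_height_eq_ringKrullDim, hcard]
  choose sec hsec using Ideal.Quotient.mk_surjective (I := I)
  let Y : Finset R := s.image sec
  have hYm : ∀ y ∈ Y, y ∈ maximalIdeal R := by
    intro y hy
    obtain ⟨c, hc, rfl⟩ := Finset.mem_image.1 hy
    have hcm : c ∈ maximalIdeal (R ⧸ I) := hs.1.2 (Ideal.subset_span hc)
    rw [← hsec c] at hcm
    exact (mem_maximalIdeal _).2 fun hu => (mem_maximalIdeal _).1 hcm (hu.map _)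
  set J := K ⊔ Ideal.span (Y : Set R)
  haveI : IsLocalRing (R ⧸ K) :=
    IsLocalRing.of_surjective' (Ideal.Quotient.mk K) Ideal.Quotient.mk_surjective
  haveI : IsLocalHom (Ideal.Quotient.mk K) :=
    IsLocalHom.of_surjective _ Ideal.Quotient.mk_surjective
  let YK : Finset (R ⧸ K) := Y.image (Ideal.Quotient.mk K)
  have hYK : (YK : Set (R ⧸ K)) ⊆ (Ring.jacobson (R ⧸ K) : Set (R ⧸ K)) := by
    intro c hc
    obtain ⟨y, hy, rfl⟩ := Finset.mem_image.1 (Finset.mem_coe.1 hc)
    rw [SetLike.mem_coe, IsLocalRing.ringJacobson_eq_maximalIdeal]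
    exact map_nonunit (Ideal.Quotient.mk K) y (hYm y hy)
  have d3 := ringKrullDim_le_ringKrullDim_quotient_add_card YK hYK
  have d4 : ringKrullDim ((R ⧸ K) ⧸ Ideal.span (YK : Set (R ⧸ K))) ≤ ringKrullDim (R ⧸ J) := by
    refine ringKrullDim_le_of_surjective (Ideal.Quotient.lift J
      ((Ideal.Quotient.mk (Ideal.span (YK : Set (R ⧸ K)))).comp (Ideal.Quotient.mk K)) ?_)
      (Ideal.Quotient.lift_surjective_of_surjective _ _
        (Ideal.Quotient.mk_surjective.comp Ideal.Quotient.mk_surjective))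
    intro a ha
    refine RingHom.mem_ker.1 ((sup_le (fun b hb => ?_) (Ideal.span_le.2 fun b hb => ?_) :
      J ≤ RingHom.ker _) ha)
    · rw [RingHom.mem_ker, RingHom.comp_apply, Ideal.Quotient.eq_zero_iff_mem.2 hb, map_zero]
    · rw [SetLike.mem_coe, RingHom.mem_ker, RingHom.comp_apply, Ideal.Quotient.eq_zero_iff_mem]
      exact Ideal.subset_span (Finset.mem_coe.2 (Finset.mem_image.2 ⟨b, hb, rfl⟩))
  have hcY : YK.card ≤ s.card := Finset.card_image_le.trans Finset.card_image_le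
  have hlow : ((s.card + 2 : ℕ) : WithBot ℕ∞) ≤ ringKrullDim (R ⧸ K) := by
    refine le_trans ?_ d2
    have h := le_trans (add_le_add d1 le_rfl) (le_refl (ringKrullDim (R ⧸ H) + 1))
    refine le_trans ?_ h
    rw [hdim]
    norm_cast
  have hJ : ((2 : ℕ) : WithBot ℕ∞) ≤ ringKrullDim (R ⧸ J) := by
    have h := hlow.trans (d3.trans (add_le_add d4 (show ((YK.card : ℕ) : WithBot ℕ∞) ≤ (s.card : ℕ) from
      by exact_mod_cast hcY)))
    generalize ringKrullDim (R ⧸ J) = D at h ⊢
    induction D using WithBot.recBotCoe with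
    | bot => simp at h
    | coe D =>
      induction D using ENat.recTopCoe with
      | top => exact le_top
      | coe D =>
        have h' : s.card + 2 ≤ D + s.card := by
          rw [← WithBot.coe_natCast, ← WithBot.coe_natCast, ← WithBot.coe_add] at h
          rw [WithBot.coe_le_coe] at h
          exact_mod_cast h
        rw [← WithBot.coe_natCast, WithBot.coe_le_coe, Nat.cast_le]
        omega
  obtain ⟨l, hl⟩ := Order.le_krullDim_iff.1 hJ
  let c : Fin (l.length + 1) → Ideal R := fun i => (l i).asIdeal.comap (Ideal.Quotient.mk J)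
  have hc : ∀ i, J ≤ c i := fun i b hb => by
    show Ideal.Quotient.mk J b ∈ (l i).asIdeal
    rw [Ideal.Quotient.eq_zero_iff_mem.2 hb]
    exact zero_mem _
  have hlt : ∀ i j, i < j → c i < c j := fun i j h => by
    refine lt_of_le_of_ne (Ideal.comap_mono (l.strictMono h).le) fun e => (l.strictMono h).ne ?_
    exact PrimeSpectrum.ext (Ideal.comap_injective_of_surjective _ Ideal.Quotient.mk_surjective e)
  refine ⟨c ⟨0, by omega⟩, c ⟨1, by omega⟩, Ideal.comap_isPrime _ _, Ideal.comap_isPrime _ _,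
    le_sup_left.trans (hc _), hlt _ _ (by simp [Fin.lt_def]), ?_, fun Q hQ hPQ hxQ hfQ => ?_⟩
  · exact lt_of_lt_of_le (hlt ⟨1, by omega⟩ ⟨2, by omega⟩ (by simp [Fin.lt_def]))
      (IsLocalRing.le_maximalIdeal (Ideal.comap_isPrime _ _).ne_top)
  · have hJQ : J ≤ Q := (hc _).trans hPQ
    have hIQ : I ≤ Q := sup_le (sup_le (le_sup_left.trans hJQ)
      ((Ideal.span_singleton_le_iff_mem _).2 hxQ)) ((Ideal.span_singleton_le_iff_mem _).2 hfQ)
    haveI : (Q.map (Ideal.Quotient.mk I)).IsPrime :=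
      Ideal.isPrime_map_quotientMk_of_isPrime hIQ
    have hsQ : Ideal.span (s : Set (R ⧸ I)) ≤ Q.map (Ideal.Quotient.mk I) := by
      rw [Ideal.span_le]
      intro d hd
      rw [SetLike.mem_coe, ← hsec d]
      exact Ideal.mem_map_of_mem _ (hJQ (Ideal.mem_sup_right (Ideal.subset_span
        (Finset.mem_coe.2 (Finset.mem_image.2 ⟨d, hd, rfl⟩)))))
    have hmax : maximalIdeal (R ⧸ I) ≤ Q.map (Ideal.Quotient.mk I) :=
      hs.2 ⟨inferInstance, hsQ⟩ (IsLocalRing.le_maximalIdeal (Ideal.IsPrime.ne_top inferInstance))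
    refine le_antisymm (IsLocalRing.le_maximalIdeal hQ.ne_top) fun a ha => ?_
    obtain ⟨b, hb, e⟩ := (Ideal.mem_map_iff_of_surjective _ Ideal.Quotient.mk_surjective).1
      (hmax (map_nonunit (Ideal.Quotient.mk I) a ha))
    rw [← sub_sub_cancel b a]
    exact sub_mem hb (hIQ (Ideal.Quotient.eq.1 e))

/-- the prime `(K, x)` is below a prime containing `z` -/
theorem exists_prime_over_span {R' : Type} [CommRing R'] [IsNoetherianRing R'] [IsLocalRing R']
    (inc : R →+* R') (I' : Ideal R') (hint : ((Ideal.Quotient.mk I').comp inc).IsIntegral)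
    {K : Ideal R} [K.IsPrime] (hK : I'.comap inc ≤ K) {x : R}
    (hH : (K ⊔ Ideal.span {x}).IsPrime) (hx : x ∉ K) {z : R'} (hz : z ∈ maximalIdeal R')
    (hstep : ∀ Q : Ideal R', Q.IsPrime → I' ≤ Q → z ∈ Q → inc x ∈ Q) :
    ∃ Q : Ideal R', Q.IsPrime ∧ I' ≤ Q ∧ z ∈ Q ∧ Q.comap inc = K ⊔ Ideal.span {x} := by
  classical
  haveI := hH
  have hI' : I' ≠ ⊤ := fun h => ‹K.IsPrime›.ne_top (top_le_iff.1 (by rwa [h, Ideal.comap_top] at hK))
  haveI : Nontrivial (R' ⧸ I') := Ideal.Quotient.nontrivial_iff.2 hI'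
  haveI : IsLocalRing (R' ⧸ I') :=
    IsLocalRing.of_surjective' (Ideal.Quotient.mk I') Ideal.Quotient.mk_surjective
  haveI : IsLocalHom (Ideal.Quotient.mk I') :=
    IsLocalHom.of_surjective _ Ideal.Quotient.mk_surjective
  letI : Algebra R (R' ⧸ I') := ((Ideal.Quotient.mk I').comp inc).toAlgebra
  haveI : Algebra.IsIntegral R (R' ⧸ I') := ⟨hint⟩
  set z' := Ideal.Quotient.mk I' z
  have hz' : z' ∈ maximalIdeal (R' ⧸ I') := map_nonunit (Ideal.Quotient.mk I') z hz
  have hcK : (⊥ : Ideal (R' ⧸ I')).comap (algebraMap R (R' ⧸ I')) ≤ K := fun a ha =>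
    hK (show inc a ∈ I' from Ideal.Quotient.eq_zero_iff_mem.1 ha)
  have hxq : ∀ q : Ideal (R' ⧸ I'), q.IsPrime → z' ∈ q → x ∈ q.comap (algebraMap R _) :=
    fun q hq hzq => hstep (q.comap (Ideal.Quotient.mk I')) (Ideal.comap_isPrime _ _)
      (fun a ha => by
        show Ideal.Quotient.mk I' a ∈ q
        rw [Ideal.Quotient.eq_zero_iff_mem.2 ha]
        exact zero_mem _) hzq
  suffices hle : (Ideal.span {z'}).comap (algebraMap R (R' ⧸ I')) ≤ K ⊔ Ideal.span {x} by
    obtain ⟨q, hq, hqp, hqc⟩ := Ideal.exists_ideal_over_prime_of_isIntegral _ _ hle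
    refine ⟨q.comap (Ideal.Quotient.mk I'), Ideal.comap_isPrime _ _, fun a ha => ?_,
      hq (Ideal.mem_span_singleton_self _), ?_⟩
    · show Ideal.Quotient.mk I' a ∈ q
      rw [Ideal.Quotient.eq_zero_iff_mem.2 ha]
      exact zero_mem _
    · rw [Ideal.comap_comap]
      exact hqc
  intro f hf
  by_contra hfH
  have hfm : f ∈ maximalIdeal R := by
    by_contra hu
    have hu' : IsUnit f := by simpa [mem_maximalIdeal, mem_nonunits_iff] using hu
    exact (mem_maximalIdeal _).1 hz'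
      (isUnit_of_dvd_unit (Ideal.mem_span_singleton.1 hf) (hu'.map _))
  obtain ⟨P0, P1, hP0, hP1, hKP0, h01, h1m, hmax⟩ := exists_prime_coheight hH hx hfH hfm
  haveI := hP0
  haveI := hP1
  obtain ⟨Q0, -, hQ0, hQ0c⟩ :=
    Ideal.exists_ideal_over_prime_of_isIntegral P0 (⊥ : Ideal (R' ⧸ I')) (hcK.trans hKP0)
  haveI := hQ0
  obtain ⟨Q1, h01', hQ1, hQ1c⟩ := Ideal.exists_ideal_over_prime_of_isIntegral_of_isPrime P1 Q0
    (hQ0c.le.trans h01.le)
  haveI := hQ1
  obtain ⟨q, hq, -⟩ := Ideal.exists_minimalPrimes_le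
    (sup_le (IsLocalRing.le_maximalIdeal hQ0.ne_top) ((Ideal.span_singleton_le_iff_mem _).2 hz') :
      Q0 ⊔ Ideal.span {z'} ≤ maximalIdeal (R' ⧸ I'))
  haveI := hq.1.1
  have hzq : z' ∈ q := hq.1.2 (Ideal.mem_sup_right (Ideal.mem_span_singleton_self _))
  have hqm : q.comap (algebraMap R (R' ⧸ I')) = maximalIdeal R :=
    hmax _ (Ideal.comap_isPrime _ _) (hQ0c.ge.trans (Ideal.comap_mono (le_sup_left.trans hq.1.2)))
      (hxq q inferInstance hzq) (Ideal.comap_mono ((Ideal.span_singleton_le_iff_mem _).2 hzq) hf)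
  haveI : q.IsMaximal := Ideal.isMaximal_of_isIntegral_of_isMaximal_comap q
    (hqm ▸ maximalIdeal.isMaximal R)
  have hQ1q : Q1 ≤ q := by
    rw [IsLocalRing.eq_maximalIdeal ‹q.IsMaximal›]
    exact IsLocalRing.le_maximalIdeal hQ1.ne_top
  have e := eq_of_mem_minimalPrimes_sup_span hq
    (lt_of_le_of_ne h01' fun e => h01.ne (by rw [← hQ0c, ← hQ1c, e])) hQ1q
  exact h1m.ne (by rw [← hQ1c, e, hqm])

end FLTAgent.MLT

end
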