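import Fermat.Agent.MLT.Patch.PointEnd
import Fermat.Agent.MLT.Patch.Height

/-!
Area MLT, LIMIT: the limit of the step at `p`, from the flat world to the strict world.
-/

set_option autoImplicit false
set_option linter.style.haveILetI false
set_option linter.unusedSectionVars false
set_option maxHeartbeats 1000000

noncomputable section

namespace FLTAgent.MLT

open IsLocalRing Filter Matrix FLTAgent.LL

variable {O : Type} [CommRing O] [IsDomain O] [IsDiscreteValuationRing O]
  [IsAdicComplete (maximalIdeal O) O] [Finite (ResidueField O)]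

theorem ulim_constantCoeff_mem {σ : Type} [Finite σ] {F : ℕ → MvPowerSeries σ O}
    {f : MvPowerSeries σ O}
    (hF : ∀ n, ∀ᶠ i in patchFilter, f - F i ∈ maximalIdeal (MvPowerSeries σ O) ^ n)
    (hmem : ∀ i, MvPowerSeries.constantCoeff (F i) ∈ maximalIdeal O) :
    MvPowerSeries.constantCoeff f ∈ maximalIdeal O := by
  obtain ⟨i, hi⟩ := (hF 1).exists
  rw [pow_one, maximal_iff_constantCoeff, map_sub] at hi
  simpa using add_mem hi (hmem i)

theorem Near.pow {m : ℕ} {a : Type} [Fintype a] [DecidableEq a] {lv : ℕ → ℕ}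
    {A : Matrix a a (SR O m)} {z : ∀ n, Matrix a a (SQ O m (lv n))} (h : Near A z) :
    ∀ e : ℕ, Near (A ^ e) fun n => z n ^ e
  | 0 => by simpa using near_one
  | e + 1 => by simpa [pow_succ] using (Near.pow h e).mul h

variable [CharZero O] {k : ℕ} {P : Fin k → FPlace O} {g : ℕ}

/-- the limit of the step at `p` -/
theorem eq_zero_of_bridge (M : CompModel P g) {d : Fin (k + 1) → ℕ} (hd : ∀ j, 0 < d j)
    {dY dS : ℕ} {t0 : Fin g} {e : O} (he : IsUnit e) {v : O} {lv : ℕ → ℕ} (hlv : ∀ n, n ≤ lv n)
    (B : ∀ n, BridgeLevel P g d dY dS t0 e v (lv n)) : v = 0 := by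
  classical
  obtain ⟨evT', hevT, hXT, hFT, hkerT, hrelT, π, hπC, hπ⟩ :=
    exists_chain_limit M hd hlv fun n => (B n).toLevelChain
  obtain ⟨evY, hevY, hXY, -, -⟩ := exists_eval_limit hlv (fun n => (B n).ψY) fun n a i i' =>
    (B n).nilpY a i i'
  obtain ⟨evS, hevS, hXS, hfS, hFS⟩ := exists_eval_limit hlv (fun n => (B n).ψS) fun n a i i' =>
    (B n).nilpS a i i'
  choose sub hsub using fun t => exists_ulim fun n => (B n).sub t
  have hsub0 : ∀ t, MvPowerSeries.constantCoeff (sub t) ∈ maximalIdeal O := fun t =>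
    ulim_constantCoeff_mem (hsub t) fun n => (B n).sub_mem t
  obtain ⟨hL, hhL⟩ := exists_near fun n => (B n).hM
  -- changes of coordinates
  let zF : BVar k g → MvPowerSeries (WVar k g) O := Sum.elim (fun a => MvPowerSeries.X (Sum.inl a))
    (Sum.elim (fun t => MvPowerSeries.X (Sum.inr t)) sub)
  have hzF : ∀ l, MvPowerSeries.constantCoeff (zF l) ∈ maximalIdeal O := by
    rintro (a | t | t)
    · simp [zF]
    · simp [zF]
    · exact hsub0 t
  let subF := substHom zF hzF
  let zs : WVar k g → MvPowerSeries (BVar k g) O := Sum.elim (fun a => MvPowerSeries.X (Sum.inl a))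
    (fun t => MvPowerSeries.X (Sum.inr (Sum.inr t)))
  have hzs : ∀ l, MvPowerSeries.constantCoeff (zs l) ∈ maximalIdeal O := by rintro (a | t) <;> simp [zs]
  let jS := substHom zs hzs
  -- the flat chain kills the congruence module at `t0`
  obtain ⟨D, hpull, hpush, hsect, hadj⟩ := exists_degen_limit hlv (fun n => (B n).degP)
    hhL e fun n => (B n).adjP
  obtain ⟨E, hE⟩ := exists_near fun n => (B n).cong.choose
  have hcong : dbl (evT' (MvPowerSeries.X (Sum.inr t0))) = D.push * D.pull * E :=
    Near.unique hlv ((hXT (Sum.inr t0)).dbl.congr fun n => (B n).cong.choose_spec)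
      ((hpush.mul hpull).mul hE)
  -- the operator at `p` as one more coordinate
  let evX0 := evT'
  have hcommT : ∀ f, evX0 f * hL = hL * evX0 f :=
    SmallHom.intertwine hevT hevT hL fun l =>
      Near.unique hlv (((hXT l).mul hhL).congr fun n => (B n).hM_comm l) (hhL.mul (hXT l))
  let y : WVar k g ⊕ Unit → _ := Sum.elim (fun a => evX0 (MvPowerSeries.X a)) fun _ => hL
  have hycomm : ∀ a b, y a * y b = y b * y a := by
    rintro (a | a) (b | b)
    · simp only [y, Sum.elim_inl, ← map_mul, mul_comm]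
    · exact hcommT _
    · exact (hcommT _).symm
    · rfl
  have hynil : ∀ a i i', (y a ^ d (Fin.last k)) i i' ∈ maximalIdeal (SR O (3 * k + g)) := by
    rintro (a | a) i i'
    · exact ((hXT a).pow _).mem_ideal hlv _ (fun n u v' => (B n).nilp (Fin.last k) a u v') i i'
    · exact (hhL.pow _).mem_ideal hlv _ (fun n u v' => (B n).hM_nilp u v') i i'
  obtain ⟨φP, evP, hφP, hevP, hpolyP, -⟩ := exists_evalMat y hycomm hynil
  have hXP : ∀ c, evP (MvPowerSeries.X c) = y c := fun c => by
    rw [← MvPolynomial.coe_X, hpolyP, hφP]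
  let zi : WVar k g → MvPowerSeries (WVar k g ⊕ Unit) O := fun a => MvPowerSeries.X (Sum.inl a)
  have hzi : ∀ l, MvPowerSeries.constantCoeff (zi l) ∈ maximalIdeal O := fun l => by simp [zi]
  let inc := substHom zi hzi
  set Z : MvPowerSeries (WVar k g ⊕ Unit) O := MvPowerSeries.X (Sum.inr ()) with hZ
  have hPT : ∀ f, evP (inc f) = evT' f := fun f => by
    have := SmallHom.intertwine hevT (hevP.comp_subst hzi) 1 (fun l => by
      rw [RingHom.comp_apply, substHom_X, hXP, Matrix.mul_one, Matrix.one_mul]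
      rfl) f
    simpa [inc] using this
  have hPZ : evP Z = hL := hXP _
  have hσ : ∀ s, evP (inc (π s)) = algebraMap (SR O (3 * k + g)) _ s := fun s => by
    rw [hPT, hπ]
  have hadjP : D.IsAdj (evP Z) (algebraMap O (SR O (3 * k + g)) e) := hPZ.symm ▸ hadj
  have hCe : ∀ Q : Ideal (MvPowerSeries (WVar k g ⊕ Unit) O), Q.IsPrime →
      inc (π (algebraMap O (SR O (3 * k + g)) e)) ∉ Q := by
    intro Q hQ hmem
    rw [MvPowerSeries.algebraMap_apply] at hmem
    rw [show π (MvPowerSeries.C (algebraMap O O e)) = MvPowerSeries.C e from hπC _,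
      substHom_C] at hmem
    exact hQ.ne_top (Ideal.eq_top_of_isUnit_mem _ hmem (he.map MvPowerSeries.C))
  have hstep : ∀ Q : Ideal (MvPowerSeries (WVar k g ⊕ Unit) O), Q.IsPrime → RingHom.ker evP ≤ Q →
      Z ∈ Q → inc (MvPowerSeries.X (Sum.inr t0)) ∈ Q := fun Q hQ hker hZQ => by
    haveI := hQ
    exact mem_of_dbl_eq evP (inc.comp π) hσ D hadjP (by rw [hPT]; exact hcong) hker hZQ (hCe Q hQ)
  have hint : ∀ I : Ideal (MvPowerSeries (WVar k g ⊕ Unit) O), RingHom.ker evP ≤ I →
      ((Ideal.Quotient.mk I).comp inc).IsIntegral := fun I hI =>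
    (RingHom.Finite.of_comp_finite (f := π) (by
      rw [RingHom.comp_assoc]
      exact finite_mk_of_ker_le_ring (inc.comp π) hσ I hI)).to_isIntegral
  have hdet : (evP Z).det ≠ 0 := by
    intro h0
    obtain ⟨w, hw0, hw⟩ := Matrix.exists_mulVec_eq_zero_iff.2 h0
    let JP : Ideal (MvPowerSeries (WVar k g ⊕ Unit) O) :=
      { carrier := {r | evP r *ᵥ w = 0}
        add_mem' := fun {a b} ha hb => by
          show evP (a + b) *ᵥ w = 0
          rw [map_add, Matrix.add_mulVec, show evP a *ᵥ w = 0 from ha, show evP b *ᵥ w = 0 from hb,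
            add_zero]
        zero_mem' := by
          show evP 0 *ᵥ w = 0
          rw [map_zero, Matrix.zero_mulVec]
        smul_mem' := fun c a ha => by
          show evP (c * a) *ᵥ w = 0
          rw [map_mul, ← Matrix.mulVec_mulVec, show evP a *ᵥ w = 0 from ha, Matrix.mulVec_zero] }
    have hkerJP : RingHom.ker evP ≤ JP := fun r hr => by
      show evP r *ᵥ w = 0
      rw [RingHom.mem_ker.1 hr, Matrix.zero_mulVec]
    set J := JP.comap inc with hJ
    have hkerJ : RingHom.ker evT' ≤ J := fun r hr => hkerJP (by rwa [RingHom.mem_ker, hPT])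
    have hJm : J ≤ maximalIdeal (MvPowerSeries (WVar k g) O) := IsLocalRing.le_maximalIdeal fun h1 =>
      hw0 (by
        have h2 : evP (inc 1) *ᵥ w = 0 := (Ideal.eq_top_iff_one J).1 h1
        rwa [map_one, map_one, Matrix.one_mulVec] at h2)
    obtain ⟨j, hj, -⟩ := M.exists_comp π hπC J (fun r hr => hkerJ (hrelT r hr))
      (finite_mk_of_ker_le π hπ J hkerJ)
      (fun s r hs => by
        have hs' : evP (inc (π s * r)) *ᵥ w = 0 := hs
        rw [hPT, map_mul, hπ, ← Algebra.smul_def, Matrix.smul_mulVec, ← hPT] at hs'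
        exact smul_eq_zero.1 hs') _ hJm
    haveI := M.prime j
    letI := ((Ideal.Quotient.mk JP).comp inc).toAlgebra
    haveI : Algebra.IsIntegral (MvPowerSeries (WVar k g) O) (MvPowerSeries (WVar k g ⊕ Unit) O ⧸ JP) :=
      ⟨hint JP hkerJP⟩
    obtain ⟨q, -, hq, hqc⟩ := Ideal.exists_ideal_over_prime_of_isIntegral (M.K j)
      (⊥ : Ideal (MvPowerSeries (WVar k g ⊕ Unit) O ⧸ JP))
      (fun a ha => hj (show inc a ∈ JP from Ideal.Quotient.eq_zero_iff_mem.1 ha))
    have hJPQ : JP ≤ q.comap (Ideal.Quotient.mk JP) := fun a ha => by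
      rw [Ideal.mem_comap, Ideal.Quotient.eq_zero_iff_mem.2 ha]
      exact zero_mem _
    refine M.gen_notMem j t0 ?_
    rw [← hqc]
    exact hstep (q.comap (Ideal.Quotient.mk JP)) (Ideal.comap_isPrime _ _)
      (hkerJP.trans hJPQ) (hJPQ hw)
  obtain ⟨htop, htK, -, htj⟩ := M.top t0
  set K := M.K (M.comp Finset.univ) with hK
  set H := K ⊔ Ideal.span {MvPowerSeries.X (Sum.inr t0)} with hH
  haveI := htop
  haveI : K.IsPrime := M.prime _
  obtain ⟨QP, hQP, hkerQ, hZQ, hQH⟩ := exists_prime_over_span inc (RingHom.ker evP) (hint _ le_rfl)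
    (K := K) (fun r hr => hkerT (by
      rw [RingHom.mem_ker, ← hPT]
      exact hr)) htop htK (z := Z) (maximal_iff_constantCoeff.2 (by simp [hZ])) hstep
  haveI := hQP
  -- what kills the strict module
  set evX := evT'.comp subF with hevX
  have hnearF : ∀ a, Near (evT' (zF a)) fun n => Sum.elim
      (fun a => (B n).ψ (Fin.last k) (MvPolynomial.X (Sum.inl a)))
      (Sum.elim (fun t => (B n).ψ (Fin.last k) (MvPolynomial.X (Sum.inr t)))
        fun t => evT ((B n).ψ (Fin.last k)) ((B n).sub t)) a := by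
    rintro (a | t | t)
    · exact hXT (Sum.inl a)
    · exact hXT (Sum.inr t)
    · exact hFT _ _ (hsub t)
  have hcpull : ∀ f, evY f * D.pull = D.pull * dbl (evX f) :=
    SmallHom.intertwine (hevT.comp_subst hzF).dbl hevY D.pull fun l => by
      rw [RingHom.comp_apply, dblHom_apply, RingHom.comp_apply, substHom_X]
      refine Near.unique hlv (((hXY l).mul hpull).congr fun n => ?_) (hpull.mul (hnearF l).dbl)
      rcases l with a | t | t
      · exact (B n).pullY_place a
      · exact (B n).pullY_flat t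
      · exact (B n).pullY_strict t
  have hcpush : ∀ f, dbl (evX f) * D.push = D.push * evY f :=
    SmallHom.intertwine hevY (hevT.comp_subst hzF).dbl D.push fun l => by
      rw [RingHom.comp_apply, dblHom_apply, RingHom.comp_apply, substHom_X]
      refine Near.unique hlv (((hnearF l).dbl.mul hpush).congr fun n => ?_) (hpush.mul (hXY l))
      rcases l with a | t | t
      · exact (B n).pushY_place a
      · exact (B n).pushY_flat t
      · exact (B n).pushY_strict t
  obtain ⟨incl, hincl⟩ := exists_near fun n => (B n).incl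
  obtain ⟨proj, hproj⟩ := exists_near fun n => (B n).proj
  have hip : incl * proj = 1 - D.sect * D.push :=
    Near.unique hlv ((hincl.mul hproj).congr fun n => (B n).incl_proj)
      (near_one.sub (hsect.mul hpush))
  have hcincl : ∀ f, evY (jS f) * incl = incl * evS f :=
    SmallHom.intertwine hevS (hevY.comp_subst hzs) incl fun l => by
      show evY (jS (MvPowerSeries.X l)) * incl = _
      rw [substHom_X]
      rcases l with a | t
      · exact Near.unique hlv (((hXY (Sum.inl a)).mul hincl).congr fun n => (B n).inclY_place a)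
          (hincl.mul (hXS (Sum.inl a)))
      · exact Near.unique hlv (((hXY (Sum.inr (Sum.inr t))).mul hincl).congr fun n =>
          (B n).inclY_strict t) (hincl.mul (hXS (Sum.inr t)))
  have hkill : RingHom.ker evS ≤ H.comap (subF.comp jS) := fun f hf => by
    show subF (jS f) ∈ H
    rw [hH, ← hQH]
    refine mem_of_kill evP (inc.comp π) hσ D hadjP (g := inc (subF (jS f))) (evY (jS f))
      ?_ ?_ hdet ?_ hkerQ hZQ (hCe QP hQP)
    · rw [hPT]; exact hcpull (jS f)
    · rw [hPT]; exact hcpush (jS f)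
    · rw [← hip, ← Matrix.mul_assoc, hcincl, RingHom.mem_ker.1 hf, Matrix.mul_zero, Matrix.zero_mul]
  haveI : (H.comap (subF.comp jS)).IsPrime := Ideal.comap_isPrime _ _
  have hdS : 0 < dS := by
    by_contra h0
    have : (1 : MvPowerSeries (WVar k g) O) ∈ RingHom.ker evS := by
      rw [RingHom.mem_ker]
      exact Matrix.ext fun i => absurd i.isLt (by omega)
    exact (inferInstance : (H.comap (subF.comp jS)).IsPrime).ne_top
      ((Ideal.eq_top_iff_one _).2 (hkill this))
  haveI : Nonempty (Fin dS) := ⟨⟨0, hdS⟩⟩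
  choose G hG0 hG using fun i => exists_gen_limit hlv hFS i fun n =>
    ((B n).ptS.u_gen i).imp fun f hf => hf.1
  have hrelS : ∀ f ∈ fpRel P, evS f = 0 := fun f hf =>
    Near.unique hlv ((hfS f).congr fun n => (B n).relS f hf) near_zero
  obtain ⟨j, hj, hjH⟩ := exists_comp_ker M (substHom G hG0) (substHom_C G hG0)
    (exists_param hevS hG0 hG) hrelS hkill
  -- the coordinates at the places are the same on both sides
  have hinl : ∀ a, subF (jS (MvPowerSeries.X (Sum.inl a))) = MvPowerSeries.X (Sum.inl a) := fun a => by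
    simp [subF, jS, zs, zF, substHom_X]
  have hdev : ∀ i r, (devP i r).map (fun f => subF (jS f)) =
      (devP i r : Matrix (Fin 2) (Fin 2) (MvPowerSeries (WVar k g) O)) := fun i r =>
    Matrix.ext fun a b => hinl _
  have hopp : ∀ i, subF (jS (fpOpp P i)) = fpOpp P i := fun i => by
    simp only [fpOpp, fpFrob, Matrix.trace, Matrix.diag, Matrix.add_apply, Matrix.map_apply, map_add,
      map_sum, subF, jS, substHom_C]
    simp only [devP, substHom_X, zs, Sum.elim_inl, zF]
  rw [htj j (fun i hi f hf => ?_) fun i hi => hopp i ▸ (hjH hi : subF (jS (fpOpp P i)) ∈ H)] at hj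
  · exact eq_zero_of_pointKillers M hlv hevS hFS hj fun n => (B n).ptS
  · obtain ⟨⟨a, b⟩, rfl⟩ := hf
    have := hjH (hi ⟨(a, b), rfl⟩)
    show devP i 1 a b ∈ H
    rw [← hdev i 1]
    exact this

end FLTAgent.MLT

end
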