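import Fermat.Agent.MLT.Patch.Support

/-!
Area MLT, LIMIT: the support of the limit moves along the chain of levels to the Steinberg component.
-/

set_option autoImplicit false
set_option linter.style.haveILetI false
set_option linter.unusedSectionVars false
set_option maxHeartbeats 1000000

noncomputable section

namespace FLTAgent.MLT

open IsLocalRing Filter Matrix FLTAgent.LL

variable {O : Type} [CommRing O] [IsDomain O] [IsDiscreteValuationRing O]
  [IsAdicComplete (maximalIdeal O) O] [Finite (ResidueField O)]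

/-- the limit of a degeneracy pair -/
theorem exists_degen_limit {m dX dY : ℕ} {lv : ℕ → ℕ} (hlv : ∀ n, n ≤ lv n)
    (z : ∀ n, Degen (SQ O m (lv n)) dX dY) {A : Matrix (Fin dX) (Fin dX) (SR O m)}
    {a : ∀ n, Matrix (Fin dX) (Fin dX) (SQ O m (lv n))} (hA : Near A a) (c : O)
    (hadj : ∀ n, (z n).IsAdj (a n) (algebraMap O (SQ O m (lv n)) c)) :
    ∃ D : Degen (SR O m) dX dY, Near D.pull (fun n => (z n).pull) ∧
      Near D.push (fun n => (z n).push) ∧ Near D.sect (fun n => (z n).sect) ∧
      D.IsAdj A (algebraMap O (SR O m) c) := by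
  obtain ⟨pull, hpull⟩ := exists_near fun n => (z n).pull
  obtain ⟨push, hpush⟩ := exists_near fun n => (z n).push
  obtain ⟨retr, hretr⟩ := exists_near fun n => (z n).retr
  obtain ⟨sect, hsect⟩ := exists_near fun n => (z n).sect
  obtain ⟨adj, hadjn⟩ := exists_near fun n => (z n).adj
  refine ⟨⟨pull, push, retr, sect, adj,
    Near.unique hlv ((hretr.mul hpull).congr fun n => (z n).retr_pull) near_one,
    Near.unique hlv ((hpush.mul hsect).congr fun n => (z n).push_sect) near_one⟩,
    hpull, hpush, hsect, ?_, ?_, ?_⟩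
  · exact Near.unique hlv ((hadjn.mul (hpush.mul hpull)).congr fun n => (hadj n).1) hA.dbl
  · exact Near.unique hlv (((hpush.mul hpull).mul hadjn).congr fun n => (hadj n).2.1) hA.dbl
  · intro i j
    let f : Fin dX → Fin 2 × Fin dX := fun i => (0, i)
    have h : adj.submatrix f f = algebraMap O (Matrix (Fin dX) (Fin dX) (SR O m)) c := by
      refine Near.unique hlv ((hadjn.submatrix f f).congr fun n => ?_) (near_map _)
      ext i j
      rw [Matrix.submatrix_apply, (hadj n).2.2 i j, Matrix.map_apply, Matrix.algebraMap_matrix_apply]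
      split_ifs <;> simp
    have := congrFun (congrFun h i) j
    rw [Matrix.submatrix_apply, Matrix.algebraMap_matrix_apply] at this
    exact this

/-- a kernel containing no unit -/
theorem ker_le_maximalIdeal {σ : Type} {m d : ℕ} (hd : 0 < d)
    (ev : MvPowerSeries σ O →+* Matrix (Fin d) (Fin d) (SR O m)) :
    RingHom.ker ev ≤ maximalIdeal (MvPowerSeries σ O) := by
  haveI : Nonempty (Fin d) := ⟨⟨0, hd⟩⟩
  exact IsLocalRing.le_maximalIdeal fun h => one_ne_zero
    ((map_one ev).symm.trans (RingHom.mem_ker.1 ((Ideal.eq_top_iff_one _).1 h)))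

theorem C_one_add_notMem [CharZero O] {σ : Type} {H : Ideal (MvPowerSeries σ O)}
    (hH : ∀ a : O, a ≠ 0 → MvPowerSeries.C a ∉ H) (q : ℕ) :
    MvPowerSeries.C (-(1 + (q : O))) ∉ H :=
  hH _ (by
    rw [ne_eq, neg_eq_zero]
    exact_mod_cast (Nat.succ_ne_zero q ∘ fun h : 1 + q = 0 => by omega))

variable [CharZero O] {k : ℕ} {P : Fin k → FPlace O} {g : ℕ}

/-- the limit of the top of a chain is supported on the Steinberg component -/
theorem exists_chain_limit (M : CompModel P g) {d : Fin (k + 1) → ℕ} (hd : ∀ j, 0 < d j)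
    {lv : ℕ → ℕ} (hlv : ∀ n, n ≤ lv n) (L : ∀ n, LevelChain P g d (lv n)) :
    ∃ ev : MvPowerSeries (WVar k g) O →+*
        Matrix (Fin (d (Fin.last k))) (Fin (d (Fin.last k))) (SR O (3 * k + g)),
      SmallHom ev ∧
      (∀ a, Near (ev (MvPowerSeries.X a)) fun n => (L n).ψ (Fin.last k) (MvPolynomial.X a)) ∧
      (∀ (F : ℕ → MvPowerSeries (WVar k g) O) f,
        (∀ n, ∀ᶠ i in patchFilter, f - F i ∈ maximalIdeal (MvPowerSeries (WVar k g) O) ^ n) →
          Near (ev f) fun i => evT ((L i).ψ (Fin.last k)) (F i)) ∧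
      RingHom.ker ev ≤ M.K (M.comp Finset.univ) ∧
      (∀ f ∈ fpRel P, ev f = 0) ∧
      ∃ π : SR O (3 * k + g) →+* MvPowerSeries (WVar k g) O,
        (∀ a, π (MvPowerSeries.C a) = MvPowerSeries.C a) ∧
        ∀ s, ev (π s) = algebraMap (SR O (3 * k + g)) _ s := by
  classical
  choose ev hev hX hf hF using fun j =>
    exists_eval_limit hlv (fun n => (L n).ψ j) fun n a i i' => (L n).nilp j a i i'
  have hπ : ∀ j, ∃ π : SR O (3 * k + g) →+* MvPowerSeries (WVar k g) O,
      (∀ a, π (MvPowerSeries.C a) = MvPowerSeries.C a) ∧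
        ∀ s, ev j (π s) = algebraMap (SR O (3 * k + g)) _ s := by
    intro j
    haveI : Nonempty (Fin (d j)) := ⟨⟨0, hd j⟩⟩
    choose G hG0 hG using fun i => exists_gen_limit hlv (hF j) i fun n => (L n).gen j i
    exact ⟨substHom G hG0, substHom_C G hG0, exists_param (hev j) hG0 hG⟩
  choose π hπC hπ using hπ
  have hrel : ∀ j, ∀ f ∈ fpRel P, ev j f = 0 := fun j f hm =>
    Near.unique hlv ((hf j f).congr fun n => (L n).rel j f hm) near_zero
  have hunr : ∀ (j : Fin (k + 1)) (i : Fin k), (j : ℕ) ≤ i → ∀ f ∈ fpUnr i, ev j f = 0 :=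
    fun j i hij f hm => Near.unique hlv ((hf j f).congr fun n => (L n).unr j i hij f hm) near_zero
  have key : ∀ j : Fin (k + 1),
      RingHom.ker (ev j) ≤ M.K (M.comp (Finset.univ.filter fun i : Fin k => (i : ℕ) < j)) := by
    intro j
    induction j using Fin.induction with
    | zero =>
      have he : (Finset.univ.filter fun i : Fin k => (i : ℕ) < ((0 : Fin (k + 1)) : ℕ)) = ∅ := by
        simp
      obtain ⟨c, hc, -⟩ := exists_comp_ker M (π 0) (hπC 0) (hπ 0) (hrel 0)
        (ker_le_maximalIdeal (hd 0) (ev 0))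
      rw [he, ← M.start c fun i f hm => hc (hunr 0 i (by simp) f hm)]
      exact hc
    | succ i ih =>
      set s := Finset.univ.filter fun l : Fin k => (l : ℕ) < (i.castSucc : ℕ) with hs
      have hins : (Finset.univ.filter fun l : Fin k => (l : ℕ) < (i.succ : ℕ)) = insert i s := by
        ext l
        simp only [hs, Finset.mem_filter, Finset.mem_univ, true_and, Finset.mem_insert, Fin.val_succ,
          Fin.val_castSucc, Fin.ext_iff]
        omega
      rw [hins]
      obtain ⟨H, hH, hKH, hqH, hCH, hstep⟩ := M.step s i (by simp [hs])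
      haveI := hH
      obtain ⟨D, hpull, hpush, hsect, hadj⟩ := exists_degen_limit hlv (fun n => (L n).degen i)
        (hf i.castSucc (fpQuart P i)) (-(1 + ((P i).q : O))) fun n => (L n).adj i
      have hcpull : ∀ f, ev i.succ f * D.pull = D.pull * dbl (ev i.castSucc f) :=
        SmallHom.intertwine (hev i.castSucc).dbl (hev i.succ) D.pull fun l =>
          Near.unique hlv (((hX i.succ l).mul hpull).congr fun n => (L n).pull_comm i _)
            (hpull.mul (hX i.castSucc l).dbl)
      have hcpush : ∀ f, dbl (ev i.castSucc f) * D.push = D.push * ev i.succ f :=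
        SmallHom.intertwine (hev i.succ) (hev i.castSucc).dbl D.push fun l =>
          Near.unique hlv (((hX i.castSucc l).dbl.mul hpush).congr fun n => (L n).push_comm i _)
            (hpush.mul (hX i.succ l))
      have hdet : (ev i.castSucc (fpQuart P i)).det ≠ 0 :=
        det_ne_zero_of_notMem M (π i.castSucc) (hπC _) (hπ _) (hrel _) fun c hc =>
          M.sep c i fun f hm => hc (hunr i.castSucc i le_rfl f hm)
      have heH : π i.castSucc (algebraMap O (SR O (3 * k + g)) (-(1 + ((P i).q : O)))) ∉ H := by
        rw [MvPowerSeries.algebraMap_apply]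
        simpa [hπC] using C_one_add_notMem hCH (P i).q
      set Q := 1 - D.sect * D.push with hQ
      let J : Ideal (MvPowerSeries (WVar k g) O) :=
        { carrier := {r | ev i.succ r * Q = 0}
          add_mem' := fun {a b} ha hb => by
            show ev i.succ (a + b) * Q = 0
            rw [map_add, Matrix.add_mul, show ev i.succ a * Q = 0 from ha,
              show ev i.succ b * Q = 0 from hb, add_zero]
          zero_mem' := by
            show ev i.succ 0 * Q = 0
            rw [map_zero, Matrix.zero_mul]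
          smul_mem' := fun c a ha => by
            show ev i.succ (c * a) * Q = 0
            rw [map_mul, Matrix.mul_assoc, show ev i.succ a * Q = 0 from ha, Matrix.mul_zero] }
      have hkerJ : RingHom.ker (ev i.succ) ≤ J := fun r hr => by
        show ev i.succ r * Q = 0
        rw [RingHom.mem_ker.1 hr, Matrix.zero_mul]
      have hJH : J ≤ H := fun r hr =>
        mem_of_kill (ev i.castSucc) (π i.castSucc) (hπ i.castSucc) D hadj (ev i.succ r) (hcpull r) (hcpush r)
          hdet hr (ih.trans hKH) hqH heH
      have hqJ : fpQuart P i ∈ J :=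
        Near.unique hlv (((hf i.succ (fpQuart P i)).mul (near_one.sub (hsect.mul hpush))).congr
          fun n => (L n).new i) near_zero
      obtain ⟨c, hc, hcH⟩ := M.exists_comp (π i.succ) (hπC _) J
        (fun f hm => hkerJ (hrel _ f hm)) (finite_mk_of_ker_le _ (hπ _) J hkerJ)
        (fun u r hr => by
          have hr' : ev i.succ (π i.succ u * r) * Q = 0 := hr
          rw [map_mul, hπ, ← Algebra.smul_def, Matrix.smul_mul] at hr'
          exact smul_eq_zero.1 hr') H hJH
      rw [← hstep c (hc hqJ) hcH]
      exact hkerJ.trans hc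
  refine ⟨ev (Fin.last k), hev _, hX _, hF _, ?_, hrel _, π _, hπC _, hπ _⟩
  have hu : (Finset.univ.filter fun i : Fin k => (i : ℕ) < (Fin.last k : ℕ)) = Finset.univ :=
    Finset.filter_true_of_mem fun i _ => by simp
  simpa [hu] using key (Fin.last k)

end FLTAgent.MLT

end
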