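import Fermat.Agent.LL.PatchFinal
import Fermat.Agent.MLT.Patch.EvalMat

/-!
Area MLT, LIMIT: the minimal primes of a torsion free quotient of the ring of coordinates which is
finite over the parameters are components of the local model.
-/

set_option autoImplicit false
set_option linter.style.haveILetI false
set_option linter.unusedSectionVars false
set_option maxHeartbeats 1000000

noncomputable section

namespace FLTAgent.MLT

open IsLocalRing FLTAgent.LL

variable {O : Type} [CommRing O] [IsDomain O] [IsDiscreteValuationRing O]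
  [IsAdicComplete (maximalIdeal O) O] [Finite (ResidueField O)]
  {k : ℕ} {P : Fin k → FPlace O} {g : ℕ}

/-- a component has at most the dimension of the parameters -/
theorem CompModel.dim_le (M : CompModel P g) (j : M.J) :
    ringKrullDim (MvPowerSeries (WVar k g) O ⧸ M.K j) ≤ ringKrullDim (SR O (3 * k + g)) := by
  haveI := M.prime j
  let R := MvPowerSeries (WVar k g) O
  let Q₀ := R ⧸ M.K j
  haveI : IsLocalRing Q₀ :=
    IsLocalRing.of_surjective' (Ideal.Quotient.mk (M.K j)) Ideal.Quotient.mk_surjective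
  haveI : IsAdicComplete (maximalIdeal Q₀) Q₀ := by
    have hm : maximalIdeal Q₀ = (maximalIdeal R).map (algebraMap R Q₀) :=
      (IsLocalRing.map_maximalIdeal_of_surjective _ Ideal.Quotient.mk_surjective).symm
    rw [hm]
    exact (IsAdicComplete.map_algebraMap_iff (maximalIdeal R) Q₀).2
      (IsAdicComplete.of_module_finite (maximalIdeal R) Q₀)
  haveI : Finite (Q₀ ⧸ maximalIdeal Q₀) := by
    haveI : IsLocalHom (Ideal.Quotient.mk (M.K j)) :=
      IsLocalHom.of_surjective (Ideal.Quotient.mk (M.K j)) Ideal.Quotient.mk_surjective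
    exact Finite.of_surjective (ResidueField.map (Ideal.Quotient.mk (M.K j))) fun y => by
      obtain ⟨z, rfl⟩ := IsLocalRing.residue_surjective y
      obtain ⟨z', rfl⟩ := Ideal.Quotient.mk_surjective z
      exact ⟨IsLocalRing.residue _ z', ResidueField.map_residue _ _⟩
  have hsP : ∀ i, Ideal.Quotient.mk (M.K j) (M.sv i) ^ 1 ∈ maximalIdeal Q₀ := fun i => by
    rw [pow_one, ← IsLocalRing.map_maximalIdeal_of_surjective (Ideal.Quotient.mk (M.K j))
      Ideal.Quotient.mk_surjective]
    exact Ideal.mem_map_of_mem _ (mem_maximalIdeal_of_constantCoeff (M.sv_mem i))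
  let gS : SR O (3 * k + g) →+* Q₀ :=
    evalHom (maximalIdeal Q₀) (fun i => Ideal.Quotient.mk (M.K j) (M.sv i)) 1 hsP
  have hgC : ∀ a, gS (MvPowerSeries.C a) = Ideal.Quotient.mk (M.K j) (MvPowerSeries.C a) := fun a =>
    (evalHom_C _ hsP a).trans rfl
  have hCm : ∀ c ∈ maximalIdeal O, (MvPowerSeries.C c : R) ∈ maximalIdeal R := fun c hc =>
    mem_maximalIdeal_of_constantCoeff (by simpa using hc)
  obtain ⟨ϖ, hϖ⟩ := IsDiscreteValuationRing.exists_irreducible O
  have hgfin : gS.Finite := by
    refine finite_of_radical (maximalIdeal Q₀) gS ?_ fun Q hQ hQl => ?_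
    · refine le_trans ?_ Ideal.le_radical
      rw [Ideal.map_le_iff_le_comap]
      refine maximalIdeal_le_of_mem hϖ ?_ fun i => ?_
      · rw [Ideal.mem_comap, hgC,
          ← IsLocalRing.map_maximalIdeal_of_surjective (Ideal.Quotient.mk (M.K j))
            Ideal.Quotient.mk_surjective]
        exact Ideal.mem_map_of_mem _ (C_mem_maximalIdeal hϖ)
      · rw [Ideal.mem_comap, show gS (MvPowerSeries.X i) = _ from evalHom_X _ hsP i, ← pow_one
          (Ideal.Quotient.mk (M.K j) (M.sv i))]
        exact hsP i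
    · have hle : maximalIdeal R ≤ Q.comap (Ideal.Quotient.mk (M.K j)) := by
        have hc : ∀ c ∈ maximalIdeal O, Ideal.Quotient.mk (M.K j) (MvPowerSeries.C c) ∈ Q :=
          fun c hc => by
            rw [← hgC]
            exact hQl (Ideal.mem_map_of_mem _ (mem_maximalIdeal_of_constantCoeff (by simpa using hc)))
        haveI := hQ
        refine maximalIdeal_le_of_mem hϖ (hc ϖ ((IsLocalRing.mem_maximalIdeal _).2 hϖ.not_isUnit))
          (M.params j _ inferInstance ?_ hc fun i => ?_)
        · intro f hf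
          rw [Ideal.mem_comap, Ideal.Quotient.eq_zero_iff_mem.2 hf]
          exact zero_mem _
        · rw [Ideal.mem_comap, ← show gS (MvPowerSeries.X i) = Ideal.Quotient.mk (M.K j) (M.sv i) from
            evalHom_X _ hsP i]
          exact hQl (Ideal.mem_map_of_mem _ (X_mem_maximalIdeal i))
      rw [← IsLocalRing.map_maximalIdeal_of_surjective (Ideal.Quotient.mk (M.K j))
        Ideal.Quotient.mk_surjective, Ideal.map_le_iff_le_comap]
      exact hle
  letI := gS.toAlgebra
  haveI : Module.Finite (SR O (3 * k + g)) Q₀ := hgfin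
  exact ringKrullDim_le_of_integral

/-- components in the support -/
theorem CompModel.exists_comp (M : CompModel P g)
    (σ : SR O (3 * k + g) →+* MvPowerSeries (WVar k g) O)
    (hσC : ∀ a, σ (MvPowerSeries.C a) = MvPowerSeries.C a)
    (I : Ideal (MvPowerSeries (WVar k g) O)) (hrel : fpRel P ⊆ (I : Set (MvPowerSeries (WVar k g) O)))
    (hfin : ((Ideal.Quotient.mk I).comp σ).Finite)
    (htf : ∀ s r, σ s * r ∈ I → s = 0 ∨ r ∈ I)
    (H : Ideal (MvPowerSeries (WVar k g) O)) [H.IsPrime] (hIH : I ≤ H) :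
    ∃ j, I ≤ M.K j ∧ M.K j ≤ H := by
  classical
  let R := MvPowerSeries (WVar k g) O
  obtain ⟨p, hp, hpH⟩ := Ideal.exists_minimalPrimes_le hIH
  haveI hpp : p.IsPrime := hp.1.1
  -- the parameters are independent modulo `p`
  have hinj : ∀ s, σ s ∈ p → s = 0 := by
    intro s hs
    by_contra hs0
    let Mo : Submonoid R :=
      { carrier := {x | ∃ a n, a ∉ p ∧ x = a * σ s ^ n}
        one_mem' := ⟨1, 0, fun h => hpp.ne_top ((Ideal.eq_top_iff_one p).2 h), by simp⟩
        mul_mem' := by
          rintro _ _ ⟨a, n, ha, rfl⟩ ⟨b, l, hb, rfl⟩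
          exact ⟨a * b, n + l, fun h => (hpp.mem_or_mem h).elim ha hb, by ring⟩ }
    have hI : ∀ (n : ℕ) (a : R), a * σ s ^ n ∈ I → a ∈ I := by
      intro n
      induction n with
      | zero => intro a h; simpa using h
      | succ n ih =>
        intro a h
        refine ih a ((htf s (a * σ s ^ n) ?_).resolve_left hs0)
        convert h using 1
        ring
    have hd : Disjoint (I : Set R) Mo := by
      rw [Set.disjoint_left]
      rintro x hx ⟨a, n, ha, rfl⟩
      exact ha (hp.1.2 (hI n a hx))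
    obtain ⟨q, hq, hIq, hqd⟩ := Ideal.exists_le_prime_disjoint I Mo hd
    have hqp : q ≤ p := fun x hx => by
      by_contra hxp
      exact (Set.disjoint_left.1 hqd) hx ⟨x, 0, hxp, by simp⟩
    have hpq : p ≤ q := hp.2 ⟨hq, hIq⟩ hqp
    exact (Set.disjoint_left.1 hqd) (hpq hs)
      ⟨1, 1, fun h => hpp.ne_top ((Ideal.eq_top_iff_one p).2 h), by simp⟩
  let B := R ⧸ p
  let τ : SR O (3 * k + g) →+* B := (Ideal.Quotient.mk p).comp σ
  have hτfin : τ.Finite := by
    have h := (RingHom.Finite.of_surjective (Ideal.Quotient.factor hp.1.2)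
      (Ideal.Quotient.factor_surjective hp.1.2)).comp hfin
    convert h using 1
    exact RingHom.ext fun x => rfl
  letI : Algebra (SR O (3 * k + g)) B := τ.toAlgebra
  haveI : Module.Finite (SR O (3 * k + g)) B := hτfin
  have hτinj : Function.Injective (algebraMap (SR O (3 * k + g)) B) :=
    (injective_iff_map_eq_zero τ).2 fun s hs => hinj s (Ideal.Quotient.eq_zero_iff_mem.1 hs)
  obtain ⟨j, hj⟩ : ∃ j, M.K j ≤ p := by
    by_contra hne
    push Not at hne
    choose gg hg hgp using fun j => SetLike.not_le_iff_exists.1 (hne j)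
    set b : B := Ideal.Quotient.mk p (∏ j, gg j)
    have hb0 : b ≠ 0 := fun h => by
      obtain ⟨j, -, hj⟩ := hpp.prod_mem_iff.1 (Ideal.Quotient.eq_zero_iff_mem.1 h)
      exact hgp j hj
    obtain ⟨h0, hh0, hh0ne⟩ := Submodule.exists_mem_ne_zero_of_ne_bot
      (Ideal.IsIntegral.comap_ne_bot (R := SR O (3 * k + g)) (I := Ideal.span {b})
        (fun h => hb0 (Ideal.span_singleton_eq_bot.1 h)))
    rw [Ideal.mem_comap, Ideal.mem_span_singleton] at hh0
    obtain ⟨u, hu, hune⟩ := exists_point_ne_zero hh0ne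
    let χ : SR O (3 * k + g) →+* O := evalHom (maximalIdeal O) u 1 (pow_one_mem hu)
    have hχC : ∀ a, χ (MvPowerSeries.C a) = a := fun a => evalHom_C _ _ a
    haveI : (RingHom.ker χ).IsPrime := RingHom.ker_isPrime χ
    obtain ⟨P1, -, hP1, hP1c⟩ := Ideal.exists_ideal_over_prime_of_isIntegral (S := B)
      (RingHom.ker χ) ⊥
      (by rw [← RingHom.ker_eq_comap_bot, (RingHom.injective_iff_ker_eq_bot _).1 hτinj]; exact bot_le)
    haveI := hP1
    let C := B ⧸ P1
    let q : B →+* C := Ideal.Quotient.mk P1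
    let π : R →+* C := q.comp (Ideal.Quotient.mk p)
    have hπC : ∀ a : O, π (MvPowerSeries.C a) = algebraMap O C a := fun a => by
      rw [show algebraMap O C a = π (algebraMap O R a) from rfl, MvPowerSeries.algebraMap_apply]
      rfl
    have hφ : ∀ s, q (algebraMap (SR O (3 * k + g)) B s) = algebraMap O C (χ s) := by
      intro s
      rw [← hπC]
      show q (τ s) = π (MvPowerSeries.C (χ s))
      rw [← hσC (χ s)]
      show q (τ s) = q (τ (MvPowerSeries.C (χ s)))
      refine Ideal.Quotient.eq.2 ?_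
      rw [← map_sub]
      show algebraMap (SR O (3 * k + g)) B _ ∈ P1
      rw [← Ideal.mem_comap, hP1c, RingHom.mem_ker, map_sub, hχC, sub_self]
    haveI : Module.Finite O C := by
      obtain ⟨n, w, hw⟩ := Module.Finite.exists_fin (R := SR O (3 * k + g)) (M := B)
      refine ⟨⟨(Finset.univ : Finset (Fin n)).image fun a => (q (w a) : C), ?_⟩⟩
      rw [eq_top_iff]
      intro x _
      obtain ⟨y, rfl⟩ := Ideal.Quotient.mk_surjective x
      have hy : y ∈ Submodule.span (SR O (3 * k + g)) (Set.range w) := hw ▸ Submodule.mem_top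
      obtain ⟨r, rfl⟩ := (Submodule.mem_span_range_iff_exists_fun (SR O (3 * k + g))).1 hy
      rw [map_sum]
      refine sum_mem fun a _ => ?_
      rw [Algebra.smul_def, map_mul, show Ideal.Quotient.mk P1
          (algebraMap (SR O (3 * k + g)) B (r a)) = algebraMap O C (χ (r a)) from hφ _,
        ← Algebra.smul_def]
      refine Submodule.smul_mem _ _ (Submodule.subset_span ?_)
      exact Finset.mem_coe.2 (Finset.mem_image.2 ⟨a, Finset.mem_univ a, rfl⟩)
    have hinjC : Function.Injective (algebraMap O C) := by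
      rw [injective_iff_map_eq_zero]
      intro a ha
      have hmem : (MvPowerSeries.C a : SR O (3 * k + g)) ∈ RingHom.ker χ := by
        rw [← hP1c, Ideal.mem_comap, ← Ideal.Quotient.eq_zero_iff_mem]
        show q (algebraMap _ B (MvPowerSeries.C a)) = 0
        rw [hφ, hχC, ha]
      rwa [RingHom.mem_ker, hχC] at hmem
    obtain ⟨j, hj⟩ := M.points C hinjC π hπC fun f hf => by
      show q (Ideal.Quotient.mk p f) = 0
      rw [Ideal.Quotient.eq_zero_iff_mem.2 (hp.1.2 (hrel hf)), map_zero]
    have hbP : b ∈ P1 := by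
      rw [← Ideal.Quotient.eq_zero_iff_mem]
      show π (∏ j, gg j) = 0
      rw [map_prod]
      exact Finset.prod_eq_zero (Finset.mem_univ j) (hj (hg j))
    have hh0P : algebraMap (SR O (3 * k + g)) B h0 ∈ P1 := by
      obtain ⟨w, hw⟩ := hh0
      rw [hw]
      exact Ideal.mul_mem_right _ _ hbP
    rw [← Ideal.mem_comap, hP1c] at hh0P
    exact hune (RingHom.mem_ker.1 hh0P)
  refine ⟨j, ?_, hj.trans hpH⟩
  haveI := M.prime j
  haveI : IsLocalRing (R ⧸ M.K j) :=
    IsLocalRing.of_surjective' (Ideal.Quotient.mk (M.K j)) Ideal.Quotient.mk_surjective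
  let f : R ⧸ M.K j →+* B := Ideal.Quotient.factor hj
  have hf : RingHom.ker f = ⊥ := ker_eq_bot_of_dim hτinj f
    (RingHom.Finite.of_surjective f (Ideal.Quotient.factor_surjective hj)) (M.dim_le j)
  refine hp.1.2.trans fun x hx => ?_
  rw [← Ideal.Quotient.eq_zero_iff_mem, ← Ideal.mem_bot, ← hf, RingHom.mem_ker]
  exact (Ideal.Quotient.factor_mk hj x).trans (Ideal.Quotient.eq_zero_iff_mem.2 hx)

end FLTAgent.MLT

end
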