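import Fermat.Agent.LL.PatchMain
import Fermat.Agent.LL.LocalDefs
import Fermat.Agent.MLT.LocalRingsSmooth
import Mathlib.LinearAlgebra.Matrix.Kronecker

/-!
Area MLT, interfaces of the patching argument.

`FPlace`: a framed place `q ≠ p`, residually unramified, with Frobenius of trace `w (1 + q)`.
`CompModel`: the components of the product of the local models, on the coordinates at the places and
`g` further coordinates; it is produced by the local computations (parcel LOC).
`LevelChain`: what one auxiliary level delivers for a chain of levels, one framed place being added at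
each step: matrices over the truncated parameter ring, the degeneracy maps with their splittings, the
adjugate of their composite and the quartic relation on what the pushes kill (parcel LEVEL).
`LevelTower`: a chain with the point of the curve and one polynomial killing the top level.
`BridgeLevel`: the step at `p` from the flat world to the strict world.
-/

set_option autoImplicit false
set_option linter.style.haveILetI false
set_option linter.unusedSectionVars false

noncomputable section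

namespace FLTAgent.MLT

open IsLocalRing Matrix FLTAgent.LL
open scoped Kronecker

/-- a framed place with its normalised residual Frobenius -/
structure FPlace (O : Type) [CommRing O] [IsLocalRing O] : Type where
  /-- the residue characteristic -/
  q : ℕ
  /-- the sign -/
  w : O
  /-- the base of Frobenius -/
  bF : Matrix (Fin 2) (Fin 2) O
  one_lt : 1 < q
  hw : w * w = 1
  hqu : IsUnit (q : O)
  htwo : IsUnit (2 : O)
  normal : (IsUnit ((q : O) - 1) ∧ bF = !![w * q, 0; 0, w]) ∨
    ((q : O) - 1 ∈ maximalIdeal O ∧ ∃ ns : Bool, bF = w • frobBase O ns)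

section Series

variable {O : Type} [CommRing O] [IsLocalRing O] {I S : Type} (P : I → FPlace O) (i : I)

/-- Frobenius at a place -/
def fpFrob : Matrix (Fin 2) (Fin 2) (MvPowerSeries (PlaceVar I S) O) :=
  (P i).bF.map MvPowerSeries.C + devP i 0

/-- the tame generator at a place -/
def fpTame : Matrix (Fin 2) (Fin 2) (MvPowerSeries (PlaceVar I S) O) := 1 + devP i 1

/-- the relations that hold at every level -/
def fpRel : Set (MvPowerSeries (PlaceVar I S) O) :=
  {f | ∃ i : I, f = (fpFrob P i).det - MvPowerSeries.C ((P i).q : O) ∨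
    f = (fpTame (O := O) (S := S) i).det - 1 ∨ f = (fpTame (O := O) (S := S) i).trace - 2 ∨
    ∃ a b, f = (fpFrob P i * fpTame i - fpTame i ^ (P i).q * fpFrob P i :
      Matrix (Fin 2) (Fin 2) (MvPowerSeries (PlaceVar I S) O)) a b}

/-- the relations of an unramified place -/
def fpUnr : Set (MvPowerSeries (PlaceVar I S) O) :=
  Set.range fun ab : Fin 2 × Fin 2 => devP (O := O) (S := S) i 1 ab.1 ab.2

/-- `tr Frob - w (1 + q)` -/
def fpSt : MvPowerSeries (PlaceVar I S) O :=
  (fpFrob P i).trace - MvPowerSeries.C ((P i).w * (1 + ((P i).q : O)))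

/-- `tr Frob + w (1 + q)` -/
def fpOpp : MvPowerSeries (PlaceVar I S) O :=
  (fpFrob P i).trace + MvPowerSeries.C ((P i).w * (1 + ((P i).q : O)))

/-- `(tr Frob)² - (1 + q)²` -/
def fpQuart : MvPowerSeries (PlaceVar I S) O :=
  (fpFrob P i).trace ^ 2 - MvPowerSeries.C ((1 + ((P i).q : O)) ^ 2)

end Series

variable {O : Type} [CommRing O] [IsDomain O] [IsDiscreteValuationRing O]
  [IsAdicComplete (maximalIdeal O) O] [Finite (ResidueField O)]
  {k : ℕ} (P : Fin k → FPlace O) (g : ℕ)

/-- the coordinates of a world -/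
abbrev WVar (k g : ℕ) : Type := PlaceVar (Fin k) (Fin g)

/-- the components of the product of the local models -/
structure CompModel : Type 1 where
  J : Type
  [fintype : Fintype J]
  K : J → Ideal (MvPowerSeries (WVar k g) O)
  prime : ∀ j, (K j).IsPrime
  points : ∀ (C : Type) [CommRing C] [IsDomain C] [Algebra O C] [Module.Finite O C],
    Function.Injective (algebraMap O C) →
    ∀ π : MvPowerSeries (WVar k g) O →+* C, (∀ a, π (MvPowerSeries.C a) = algebraMap O C a) →
      (∀ f ∈ fpRel P, π f = 0) → ∃ j, K j ≤ RingHom.ker π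
  sv : Fin (3 * k + g) → MvPowerSeries (WVar k g) O
  sv_mem : ∀ i, MvPowerSeries.constantCoeff (sv i) ∈ maximalIdeal O
  params : ∀ (j : J) (Q : Ideal (MvPowerSeries (WVar k g) O)), Q.IsPrime → K j ≤ Q →
    (∀ c ∈ maximalIdeal O, MvPowerSeries.C c ∈ Q) → (∀ a, sv a ∈ Q) →
      ∀ l, MvPowerSeries.X l ∈ Q
  gen_notMem : ∀ (j : J) (t : Fin g), MvPowerSeries.X (Sum.inr t) ∉ K j
  /-- Steinberg of the sign `w` on the given set, unramified elsewhere -/
  comp : Finset (Fin k) → J
  start : ∀ j, (∀ i, fpUnr i ⊆ (K j : Set (MvPowerSeries (WVar k g) O))) → j = comp ∅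
  sep : ∀ j i, fpUnr i ⊆ (K j : Set (MvPowerSeries (WVar k g) O)) → fpQuart P i ∉ K j
  step : ∀ (s : Finset (Fin k)) (i : Fin k), i ∉ s →
    ∃ H : Ideal (MvPowerSeries (WVar k g) O), H.IsPrime ∧ K (comp s) ≤ H ∧ fpQuart P i ∈ H ∧
      (∀ a : O, a ≠ 0 → MvPowerSeries.C a ∉ H) ∧
      ∀ j, fpQuart P i ∈ K j → K j ≤ H → j = comp (insert i s)
  top : ∀ t : Fin g,
    (K (comp Finset.univ) ⊔ Ideal.span {MvPowerSeries.X (Sum.inr t)}).IsPrime ∧
    MvPowerSeries.X (Sum.inr t) ∉ K (comp Finset.univ) ∧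
    (∀ a : O, a ≠ 0 →
      MvPowerSeries.C a ∉ K (comp Finset.univ) ⊔ Ideal.span {MvPowerSeries.X (Sum.inr t)}) ∧
    ∀ j, (∀ i, fpUnr i ⊆ (K j : Set (MvPowerSeries (WVar k g) O)) →
        fpUnr i ⊆ ((K (comp Finset.univ) ⊔ Ideal.span {MvPowerSeries.X (Sum.inr t)} :
          Ideal (MvPowerSeries (WVar k g) O)) : Set (MvPowerSeries (WVar k g) O))) →
      (∀ i, fpOpp P i ∈ K j →
        fpOpp P i ∈ K (comp Finset.univ) ⊔ Ideal.span {MvPowerSeries.X (Sum.inr t)}) →
      j = comp Finset.univ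
  point : ∀ x : MvPowerSeries (WVar k g) O →+* O, (∀ a, x (MvPowerSeries.C a) = a) →
    (∀ f ∈ fpRel P, x f = 0) → (∀ i, x (fpSt P i) = 0) → K (comp Finset.univ) ≤ RingHom.ker x

attribute [instance] CompModel.fintype

/-- the truncated parameter ring of a world -/
abbrev WRing (O : Type) [CommRing O] [IsLocalRing O] (k g n : ℕ) : Type := SQ O (3 * k + g) n

/-- the value of a series at a level -/
def evT {ι : Type} [Finite ι] {m d n : ℕ}
    (ψ : MvPolynomial ι O →ₐ[O] Matrix (Fin d) (Fin d) (SQ O m n)) (f : MvPowerSeries ι O) :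
    Matrix (Fin d) (Fin d) (SQ O m n) :=
  ψ (MvPowerSeries.truncTotal (cutDeg ι d (n + 1)) f)

/-- the value of a series at a point, modulo `𝔪 ^ (n + 1)` -/
def evU {ι : Type} [Finite ι] (n : ℕ) (u : ι → O) (f : MvPowerSeries ι O) : O :=
  MvPolynomial.eval u (MvPowerSeries.truncTotal (cutDeg ι 1 (n + 1)) f)

/-- two copies of a matrix -/
def dbl {R : Type} [CommRing R] {d : ℕ} (A : Matrix (Fin d) (Fin d) R) :
    Matrix (Fin 2 × Fin d) (Fin 2 × Fin d) R :=
  (1 : Matrix (Fin 2) (Fin 2) R) ⊗ₖ A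

/-- the pair of degeneracy maps between two modules -/
structure Degen (R : Type) [CommRing R] (dX dY : ℕ) : Type where
  pull : Matrix (Fin dY) (Fin 2 × Fin dX) R
  push : Matrix (Fin 2 × Fin dX) (Fin dY) R
  retr : Matrix (Fin 2 × Fin dX) (Fin dY) R
  sect : Matrix (Fin dY) (Fin 2 × Fin dX) R
  adj : Matrix (Fin 2 × Fin dX) (Fin 2 × Fin dX) R
  retr_pull : retr * pull = 1
  push_sect : push * sect = 1

/-- `adj` is an adjugate of `push * pull` with determinant `h` and corner entry `e` -/
def Degen.IsAdj {R : Type} [CommRing R] {dX dY : ℕ} (D : Degen R dX dY)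
    (h : Matrix (Fin dX) (Fin dX) R) (e : R) : Prop :=
  D.adj * (D.push * D.pull) = dbl h ∧ D.push * D.pull * D.adj = dbl h ∧
    ∀ a b : Fin dX, D.adj (0, a) (0, b) = if a = b then e else 0

/-- the matrices of one auxiliary level along a chain of levels -/
structure LevelChain (d : Fin (k + 1) → ℕ) (n : ℕ) : Type where
  ψ : ∀ j, MvPolynomial (WVar k g) O →ₐ[O] Matrix (Fin (d j)) (Fin (d j)) (WRing O k g n)
  nilp : ∀ j a u v, (ψ j (MvPolynomial.X a) ^ d j) u v ∈
    (maximalIdeal (SR O (3 * k + g))).map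
      (Ideal.Quotient.mk (maximalIdeal (SR O (3 * k + g)) ^ (n + 1)))
  gen : ∀ (j : Fin (k + 1)) (i : Fin (3 * k + g)), ∃ f : MvPowerSeries (WVar k g) O,
    evT (ψ j) f = Matrix.scalar (Fin (d j)) (Ideal.Quotient.mk _ (MvPowerSeries.X i))
  rel : ∀ j, ∀ f ∈ fpRel P, evT (ψ j) f = 0
  unr : ∀ (j : Fin (k + 1)) (i : Fin k), (j : ℕ) ≤ i → ∀ f ∈ fpUnr i, evT (ψ j) f = 0
  degen : ∀ i : Fin k, Degen (WRing O k g n) (d i.castSucc) (d i.succ)
  pull_comm : ∀ (i : Fin k) (f : MvPolynomial (WVar k g) O),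
    ψ i.succ f * (degen i).pull = (degen i).pull * dbl (ψ i.castSucc f)
  push_comm : ∀ (i : Fin k) (f : MvPolynomial (WVar k g) O),
    dbl (ψ i.castSucc f) * (degen i).push = (degen i).push * ψ i.succ f
  adj : ∀ i : Fin k, (degen i).IsAdj (evT (ψ i.castSucc) (fpQuart P i))
    (algebraMap O (WRing O k g n) (-(1 + ((P i).q : O))))
  new : ∀ i : Fin k, evT (ψ i.succ) (fpQuart P i) * (1 - (degen i).sect * (degen i).push) = 0

/-- the point of the curve and a killer of the top level, with its value `v` -/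
structure PointKiller {d n : ℕ} (ψ : MvPolynomial (WVar k g) O →ₐ[O]
    Matrix (Fin d) (Fin d) (WRing O k g n)) (v : O) : Type where
  u : WVar k g → O
  u_mem : ∀ a, u a ∈ maximalIdeal O
  u_rel : ∀ f ∈ fpRel P, evU n u f ∈ maximalIdeal O ^ (n + 1)
  u_st : ∀ i, evU n u (fpSt P i) ∈ maximalIdeal O ^ (n + 1)
  u_gen : ∀ i : Fin (3 * k + g), ∃ f : MvPowerSeries (WVar k g) O,
    evT ψ f = Matrix.scalar (Fin d) (Ideal.Quotient.mk _ (MvPowerSeries.X i)) ∧
      evU n u f ∈ maximalIdeal O ^ (n + 1)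
  killer : ∃ f : MvPowerSeries (WVar k g) O,
    (∀ a b, evT ψ f a b ∈ (Ideal.span (Set.range fun i : Fin (3 * k + g) =>
      (MvPowerSeries.X i : SR O (3 * k + g)))).map
        (Ideal.Quotient.mk (maximalIdeal (SR O (3 * k + g)) ^ (n + 1)))) ∧
      evU n u f - v ∈ maximalIdeal O ^ (n + 1)

/-- a chain with the point and a killer at the top -/
structure LevelTower (d : Fin (k + 1) → ℕ) (v : O) (n : ℕ) extends LevelChain P g d n where
  pt : PointKiller P g (ψ (Fin.last k)) v

/-- the coordinates common to the two worlds -/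
abbrev BVar (k g : ℕ) : Type := PlaceVar (Fin k) (Fin g ⊕ Fin g)

/-- the matrices at the step at `p`: flat chain, common module, strict module -/
structure BridgeLevel (d : Fin (k + 1) → ℕ) (dY dS : ℕ) (t0 : Fin g) (e : O) (v : O) (n : ℕ)
    extends LevelChain P g d n where
  ψY : MvPolynomial (BVar k g) O →ₐ[O] Matrix (Fin dY) (Fin dY) (WRing O k g n)
  ψS : MvPolynomial (WVar k g) O →ₐ[O] Matrix (Fin dS) (Fin dS) (WRing O k g n)
  nilpY : ∀ a u v', (ψY (MvPolynomial.X a) ^ dY) u v' ∈
    (maximalIdeal (SR O (3 * k + g))).map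
      (Ideal.Quotient.mk (maximalIdeal (SR O (3 * k + g)) ^ (n + 1)))
  nilpS : ∀ a u v', (ψS (MvPolynomial.X a) ^ dS) u v' ∈
    (maximalIdeal (SR O (3 * k + g))).map
      (Ideal.Quotient.mk (maximalIdeal (SR O (3 * k + g)) ^ (n + 1)))
  relS : ∀ f ∈ fpRel P, evT ψS f = 0
  ptS : PointKiller P g ψS v
  /-- the strict coordinates on the flat module -/
  sub : Fin g → MvPowerSeries (WVar k g) O
  sub_mem : ∀ t, MvPowerSeries.constantCoeff (sub t) ∈ maximalIdeal O
  /-- the flat coordinates on the strict module -/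
  subS : Fin g → MvPowerSeries (WVar k g) O
  subS_mem : ∀ t, MvPowerSeries.constantCoeff (subS t) ∈ maximalIdeal O
  degP : Degen (WRing O k g n) (d (Fin.last k)) dY
  incl : Matrix (Fin dY) (Fin dS) (WRing O k g n)
  proj : Matrix (Fin dS) (Fin dY) (WRing O k g n)
  proj_incl : proj * incl = 1
  incl_proj : incl * proj = 1 - degP.sect * degP.push
  push_incl : degP.push * incl = 0
  pullY_place : ∀ a, ψY (MvPolynomial.X (Sum.inl a)) * degP.pull =
    degP.pull * dbl (ψ (Fin.last k) (MvPolynomial.X (Sum.inl a)))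
  pullY_flat : ∀ t, ψY (MvPolynomial.X (Sum.inr (Sum.inl t))) * degP.pull =
    degP.pull * dbl (ψ (Fin.last k) (MvPolynomial.X (Sum.inr t)))
  pullY_strict : ∀ t, ψY (MvPolynomial.X (Sum.inr (Sum.inr t))) * degP.pull =
    degP.pull * dbl (evT (ψ (Fin.last k)) (sub t))
  pushY_place : ∀ a, dbl (ψ (Fin.last k) (MvPolynomial.X (Sum.inl a))) * degP.push =
    degP.push * ψY (MvPolynomial.X (Sum.inl a))
  pushY_flat : ∀ t, dbl (ψ (Fin.last k) (MvPolynomial.X (Sum.inr t))) * degP.push =
    degP.push * ψY (MvPolynomial.X (Sum.inr (Sum.inl t)))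
  pushY_strict : ∀ t, dbl (evT (ψ (Fin.last k)) (sub t)) * degP.push =
    degP.push * ψY (MvPolynomial.X (Sum.inr (Sum.inr t)))
  inclY_place : ∀ a, ψY (MvPolynomial.X (Sum.inl a)) * incl =
    incl * ψS (MvPolynomial.X (Sum.inl a))
  inclY_flat : ∀ t, ψY (MvPolynomial.X (Sum.inr (Sum.inl t))) * incl = incl * evT ψS (subS t)
  inclY_strict : ∀ t, ψY (MvPolynomial.X (Sum.inr (Sum.inr t))) * incl =
    incl * ψS (MvPolynomial.X (Sum.inr t))
  /-- `± ((1 + p)² - a_p²)` on the flat module; it commutes with the coordinates -/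
  hM : Matrix (Fin (d (Fin.last k))) (Fin (d (Fin.last k))) (WRing O k g n)
  hM_comm : ∀ a, ψ (Fin.last k) (MvPolynomial.X a) * hM = hM * ψ (Fin.last k) (MvPolynomial.X a)
  hM_nilp : ∀ u v', (hM ^ d (Fin.last k)) u v' ∈ (maximalIdeal (SR O (3 * k + g))).map
    (Ideal.Quotient.mk (maximalIdeal (SR O (3 * k + g)) ^ (n + 1)))
  adjP : degP.IsAdj hM (algebraMap O (WRing O k g n) e)
  /-- the distinguished flat coordinate kills the congruence module -/
  cong : ∃ E, dbl (ψ (Fin.last k) (MvPolynomial.X (Sum.inr t0))) = degP.push * degP.pull * E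

end FLTAgent.MLT

end
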