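import Mathlib

/-!
Area MLT, parcel LOC: the algebra of a local place with unipotent tame generator. Off the unramified
component Frobenius is triangular in a frame moved by one parameter, with diagonal `ε q`, `ε`.
-/

set_option autoImplicit false
set_option linter.style.haveILetI false
set_option linter.unusedSectionVars false

noncomputable section

namespace FLTAgent.MLT.Loc

open Matrix

section Ring

variable {R : Type} [CommRing R]

/-- the frame moved by `t` -/
def lowM (t : R) : Matrix (Fin 2) (Fin 2) R := !![1, 0; t, 1]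

/-- a shear -/
def shearM (r : R) : Matrix (Fin 2) (Fin 2) R := !![1, r; 0, 1]

/-- triangular Frobenius -/
def triM (ε q γ : R) : Matrix (Fin 2) (Fin 2) R := !![ε * q, γ; 0, ε]

/-- unipotent tame generator -/
def unipM (β : R) : Matrix (Fin 2) (Fin 2) R := !![1, β; 0, 1]

/-- the matrix `A` read in the frame `P₀ (shear r) (low t)` -/
def readM (P₀ : Matrix (Fin 2) (Fin 2) R) (r t : R) (A : Matrix (Fin 2) (Fin 2) R) :
    Matrix (Fin 2) (Fin 2) R :=
  P₀ * shearM r * lowM t * A * lowM (-t) * shearM (-r) * P₀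

theorem lowM_mul_neg (t : R) : lowM t * lowM (-t) = 1 := by
  ext i j
  fin_cases i <;> fin_cases j <;> simp [lowM, Matrix.mul_apply, Fin.sum_univ_two]

theorem lowM_neg_mul (t : R) : lowM (-t) * lowM t = 1 := by
  simpa using lowM_mul_neg (-t)

theorem shearM_mul_neg (r : R) : shearM r * shearM (-r) = 1 := by
  ext i j
  fin_cases i <;> fin_cases j <;> simp [shearM, Matrix.mul_apply, Fin.sum_univ_two]

theorem shearM_neg_mul (r : R) : shearM (-r) * shearM r = 1 := by
  simpa using shearM_mul_neg (-r)

theorem shearM_zero : shearM (0 : R) = 1 := by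
  ext i j
  fin_cases i <;> fin_cases j <;> simp [shearM]

variable {P₀ : Matrix (Fin 2) (Fin 2) R} {r t : R}

theorem readM_one (hP : P₀ * P₀ = 1) : readM P₀ r t 1 = 1 := by
  rw [readM, Matrix.mul_one, Matrix.mul_assoc (P₀ * shearM r) (lowM t), lowM_mul_neg, Matrix.mul_one,
    Matrix.mul_assoc P₀ (shearM r), shearM_mul_neg, Matrix.mul_one, hP]

theorem readM_mul (hP : P₀ * P₀ = 1) (A B : Matrix (Fin 2) (Fin 2) R) :
    readM P₀ r t (A * B) = readM P₀ r t A * readM P₀ r t B := by
  simp only [readM, Matrix.mul_assoc]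
  rw [← Matrix.mul_assoc P₀ P₀, hP, Matrix.one_mul, ← Matrix.mul_assoc (shearM (-r)) (shearM r),
    shearM_neg_mul, Matrix.one_mul, ← Matrix.mul_assoc (lowM (-t)) (lowM t), lowM_neg_mul,
    Matrix.one_mul]

theorem readM_pow (hP : P₀ * P₀ = 1) (A : Matrix (Fin 2) (Fin 2) R) :
    ∀ n : ℕ, readM P₀ r t (A ^ n) = readM P₀ r t A ^ n
  | 0 => by simp [readM_one hP]
  | n + 1 => by rw [pow_succ, pow_succ, readM_mul hP, readM_pow hP A n]

theorem readM_trace (hP : P₀ * P₀ = 1) (A : Matrix (Fin 2) (Fin 2) R) :
    (readM P₀ r t A).trace = A.trace := by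
  rw [readM, Matrix.trace_mul_comm]
  simp only [← Matrix.mul_assoc]
  rw [hP, Matrix.one_mul, Matrix.trace_mul_comm]
  simp only [← Matrix.mul_assoc]
  rw [shearM_neg_mul, Matrix.one_mul, Matrix.trace_mul_comm]
  simp only [← Matrix.mul_assoc]
  rw [lowM_neg_mul, Matrix.one_mul]

theorem readM_det (hP : P₀ * P₀ = 1) (A : Matrix (Fin 2) (Fin 2) R) :
    (readM P₀ r t A).det = A.det := by
  have h : P₀.det * P₀.det = 1 := by rw [← Matrix.det_mul, hP, Matrix.det_one]
  have h1 : ∀ x : R, (lowM x).det = 1 := fun x => by simp [lowM, Matrix.det_fin_two]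
  have h2 : ∀ x : R, (shearM x).det = 1 := fun x => by simp [shearM, Matrix.det_fin_two]
  simp only [readM, Matrix.det_mul, h1, h2, mul_one]
  linear_combination A.det * h

theorem map_readM {R' : Type} [CommRing R'] (f : R →+* R') (A : Matrix (Fin 2) (Fin 2) R) :
    (readM P₀ r t A).map f = readM (P₀.map f) (f r) (f t) (A.map f) := by
  have h1 : ∀ x : R, (lowM x).map f = lowM (f x) := fun x => by
    ext i j
    fin_cases i <;> fin_cases j <;> simp [lowM]
  have h2 : ∀ x : R, (shearM x).map f = shearM (f x) := fun x => by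
    ext i j
    fin_cases i <;> fin_cases j <;> simp [shearM]
  simp only [readM, Matrix.map_mul, h1, h2, map_neg]

theorem map_triM {R' : Type} [CommRing R'] (f : R →+* R') (ε q γ : R) :
    (triM ε q γ).map f = triM (f ε) (f q) (f γ) := by
  ext i j
  fin_cases i <;> fin_cases j <;> simp [triM]

theorem map_unipM {R' : Type} [CommRing R'] (f : R →+* R') (β : R) :
    (unipM β).map f = unipM (f β) := by
  ext i j
  fin_cases i <;> fin_cases j <;> simp [unipM]

/-- the relations of the triangular data -/
theorem tri_rel {ε q γ β : R} {n : ℕ} (hn : (n : R) = q) (hε : ε * ε = 1) :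
    (triM ε q γ).det = q ∧ (unipM β).det = 1 ∧ (unipM β).trace = 2 ∧
      (triM ε q γ).trace = ε * (1 + q) ∧ triM ε q γ * unipM β = unipM β ^ n * triM ε q γ := by
  have hpow : ∀ k : ℕ, unipM β ^ k = !![1, (k : R) * β; 0, 1] := by
    intro k
    induction k with
    | zero => simp [← Matrix.one_fin_two]
    | succ k ih =>
      rw [pow_succ, ih]
      ext i j
      fin_cases i <;> fin_cases j <;> simp [unipM, Matrix.mul_apply, Fin.sum_univ_two]
      all_goals ring
  refine ⟨?_, by simp [unipM, Matrix.det_fin_two], ?_, ?_, ?_⟩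
  · simp only [triM, Matrix.det_fin_two_of, mul_zero, sub_zero]
    linear_combination q * hε
  · simp [unipM, Matrix.trace_fin_two]
    norm_num
  · simp [triM, Matrix.trace_fin_two]
    ring
  · rw [hpow, hn]
    ext i j
    fin_cases i <;> fin_cases j <;> simp [triM, unipM, Matrix.mul_apply, Fin.sum_univ_two]
    all_goals ring

/-- a change of chart: the sheared chart read in the standard one -/
theorem readM_shift {ε q γ a i t₀ : R} (hai : a * i = 1) (ha : a = 1 + r * t) (ht : t₀ = t * i) :
    readM P₀ r t (triM ε q γ) = readM P₀ 0 t₀ (triM ε q (a * (a * γ - r * (ε * (q - 1))))) ∧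
      ∀ β : R, readM P₀ r t (unipM β) = readM P₀ 0 t₀ (unipM (a * a * β)) := by
  set B : Matrix (Fin 2) (Fin 2) R := !![a, r; 0, i] with hB
  set B' : Matrix (Fin 2) (Fin 2) R := !![i, -r; 0, a] with hB'
  have h1 : shearM r * lowM t = lowM t₀ * B := by
    ext k l
    fin_cases k <;> fin_cases l <;>
      simp [shearM, lowM, hB, Matrix.mul_apply, Fin.sum_univ_two, ht]
    · linear_combination -ha
    · linear_combination -t * hai
    · linear_combination -hai + i * ha
  have h2 : lowM (-t) * shearM (-r) = B' * lowM (-t₀) := by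
    ext k l
    fin_cases k <;> fin_cases l <;>
      simp [shearM, lowM, hB', Matrix.mul_apply, Fin.sum_univ_two, ht]
    · linear_combination -hai + i * ha
    · linear_combination -t * hai
    · linear_combination -ha
  have key : ∀ A A' : Matrix (Fin 2) (Fin 2) R, B * A * B' = A' →
      readM P₀ r t A = readM P₀ 0 t₀ A' := by
    intro A A' h
    simp only [readM, neg_zero, shearM_zero, Matrix.mul_one]
    rw [Matrix.mul_assoc P₀ (shearM r), h1, ← h]
    simp only [Matrix.mul_assoc]
    rw [← Matrix.mul_assoc (lowM (-t)) (shearM (-r)), h2]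
    simp only [Matrix.mul_assoc]
  refine ⟨key _ _ ?_, fun β => key _ _ ?_⟩
  · ext k l
    fin_cases k <;> fin_cases l <;> simp [hB, hB', triM, Matrix.mul_apply, Fin.sum_univ_two]
    · linear_combination ε * q * hai
    · linear_combination r * ε * a * hai - r * ε * a * hai + r * ε * hai * a - r * ε * a * hai
    · linear_combination ε * hai
  · ext k l
    fin_cases k <;> fin_cases l <;> simp [hB, hB', unipM, Matrix.mul_apply, Fin.sum_univ_two]
    · linear_combination hai
    · ring
    · linear_combination hai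

/-- a square of trace zero and determinant zero vanishes, and powers are linear -/
theorem one_add_pow_eq {X : Matrix (Fin 2) (Fin 2) R} (htr : X 0 0 + X 1 1 = 0)
    (hd : (1 + X).det = 1) : X * X = 0 ∧ ∀ n : ℕ, (1 + X) ^ n = 1 + (n : R) • X := by
  have hsq : X * X = 0 := by
    rw [Matrix.det_fin_two] at hd
    simp only [Matrix.add_apply, Matrix.one_apply_eq, Fin.isValue, ne_eq, zero_ne_one, one_ne_zero,
      not_false_eq_true, Matrix.one_apply_ne, zero_add] at hd
    refine Matrix.ext fun i j => ?_
    fin_cases i <;> fin_cases j <;> simp [Matrix.mul_apply, Fin.sum_univ_two]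
    · linear_combination (X 0 0 + 1) * htr - hd
    · linear_combination X 0 1 * htr
    · linear_combination X 1 0 * htr
    · linear_combination (X 1 1 + 1) * htr - hd
  refine ⟨hsq, fun n => ?_⟩
  induction n with
  | zero => simp
  | succ n ih =>
    rw [pow_succ, ih, add_mul, one_mul, smul_mul_assoc, mul_add, mul_one, hsq, add_zero,
      Nat.cast_succ, add_smul, one_smul]
    abel

end Ring

section Domain

variable {E : Type} [CommRing E] [IsDomain E] {F X : Matrix (Fin 2) (Fin 2) E} {q : E}

/-- off the unramified component the trace of Frobenius is `± (1 + q)` -/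
theorem trace_sq_of_ne (hq : q ≠ 0) (hq1 : q ≠ 1) (hdet : F.det = q) (hrel : F * X = q • (X * F))
    (hX : X ≠ 0) : F.trace ^ 2 = (1 + q) ^ 2 := by
  set t := F.trace with ht
  have hsq : F * F = t • F - q • (1 : Matrix (Fin 2) (Fin 2) E) := by
    rw [Matrix.det_fin_two] at hdet
    rw [ht, Matrix.trace_fin_two]
    ext i j
    fin_cases i <;> fin_cases j <;> simp [Matrix.mul_apply, Fin.sum_univ_two] <;>
      first | linear_combination -hdet | linear_combination hdet | ring
  set Y := X * F with hY
  have e : ∀ i j, (t * (1 - q) * q) * Y i j = (q * (1 - q) * (1 + q)) * X i j := by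
    have h1 : F * (F * X) = (q * q) • (Y * F) := by
      rw [hrel, Matrix.mul_smul, ← Matrix.mul_assoc, hrel, Matrix.smul_mul, smul_smul]
    rw [← Matrix.mul_assoc, hsq, hY, Matrix.mul_assoc X F F, hsq, Matrix.sub_mul, Matrix.mul_sub,
      Matrix.smul_mul, Matrix.smul_mul, Matrix.one_mul, Matrix.mul_smul, Matrix.mul_smul,
      Matrix.mul_one, hrel] at h1
    intro i j
    have h2 := congrFun (congrFun h1 i) j
    simp only [Matrix.sub_apply, Matrix.smul_apply, smul_eq_mul] at h2
    rw [← hY] at h2
    linear_combination h2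
  have h3 : ∀ i j, t * Y i j = (1 + q) * X i j := fun i j =>
    mul_left_cancel₀ (mul_ne_zero hq (sub_ne_zero.2 (Ne.symm hq1)))
      (by linear_combination e i j)
  have h4 : ∀ i j, t * X i j = (1 + q) * Y i j := by
    intro i j
    have h5 : ∀ k, t * (Y * F) i k = (1 + q) * Y i k := by
      intro k
      simp only [Matrix.mul_apply, Fin.sum_univ_two, mul_add, ← mul_assoc, h3]
      rw [hY]
      simp only [Matrix.mul_apply, Fin.sum_univ_two]
      ring
    have h6 := h5 j
    rw [hY, Matrix.mul_assoc, hsq] at h6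
    simp only [Matrix.mul_sub, Matrix.mul_smul, Matrix.mul_one, Matrix.sub_apply,
      Matrix.smul_apply, smul_eq_mul, ← hY] at h6
    linear_combination h6 - t * h3 i j
  obtain ⟨i, j, hij⟩ : ∃ i j, Y i j ≠ 0 := by
    by_contra h
    push Not at h
    refine hX (Matrix.ext fun i j => ?_)
    have h7 : q * X i j = 0 := by
      have h8 : (X * F * F) i j = 0 := by
        simp [Matrix.mul_apply, ← hY, h]
      rw [Matrix.mul_assoc, hsq, Matrix.mul_sub, Matrix.mul_smul, Matrix.mul_smul, Matrix.mul_one]
        at h8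
      simp only [Matrix.sub_apply, Matrix.smul_apply, smul_eq_mul, ← hY, h, mul_zero, zero_sub,
        neg_eq_zero] at h8
      exact h8
    simpa [hq] using h7
  have h : (t ^ 2 - (1 + q) ^ 2) * Y i j = 0 := by
    linear_combination t * h3 i j + (1 + q) * h4 i j
  exact sub_eq_zero.1 ((mul_eq_zero.1 h).resolve_right hij)

variable {ε t : E}

/-- triangular shape from a proportionality of the rows -/
theorem tri_shape (hq2 : q * q ≠ 1) (hε : ε * ε = 1) (htrF : F.trace = ε * (1 + q))
    (h0 : F 1 0 = t * (F 0 0 - ε)) (h1 : F 1 1 - ε = t * F 0 1)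
    (htr : X 0 0 + X 1 1 = 0) (hd : (1 + X).det = 1) (hrel : F * X = q • (X * F)) :
    ∃ β : E, F = lowM t * triM ε q (F 0 1) * lowM (-t) ∧
      1 + X = lowM t * unipM β * lowM (-t) := by
  set U := triM ε q (F 0 1)
  have hF : F = lowM t * U * lowM (-t) := by
    rw [Matrix.trace_fin_two] at htrF
    ext i j
    fin_cases i <;> fin_cases j <;> simp [U, lowM, triM, Matrix.mul_apply, Fin.sum_univ_two]
    · linear_combination htrF - h1
    · linear_combination h0 + t * (htrF - h1)
    · linear_combination h1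
  set Z := lowM (-t) * X * lowM t with hZ
  have hXZ : X = lowM t * Z * lowM (-t) := by
    rw [hZ]
    simp only [Matrix.mul_assoc]
    rw [lowM_mul_neg, Matrix.mul_one, ← Matrix.mul_assoc, lowM_mul_neg, Matrix.one_mul]
  have hrel' : U * Z = q • (Z * U) := by
    have h2 := congrArg (fun A => lowM (-t) * A * lowM t) hrel
    rw [hF, hXZ, Matrix.mul_smul, Matrix.smul_mul] at h2
    simp only [Matrix.mul_assoc] at h2
    simp only [lowM_neg_mul, Matrix.mul_one] at h2
    simpa [← Matrix.mul_assoc, lowM_neg_mul] using h2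
  have hz10 : Z 1 0 = 0 := by
    have h2 := congrFun (congrFun hrel' 1) 0
    simp [U, triM, Matrix.mul_apply, Fin.sum_univ_two] at h2
    refine (mul_eq_zero.1 (show (1 - q * q) * Z 1 0 = 0 from ?_)).resolve_left
      (sub_ne_zero.2 (Ne.symm hq2))
    linear_combination ε * h2 - Z 1 0 * (1 - q * q) * hε
  have hzt : Z 0 0 + Z 1 1 = 0 := by
    rw [← Matrix.trace_fin_two, hZ, Matrix.trace_mul_comm, ← Matrix.mul_assoc, lowM_mul_neg,
      Matrix.one_mul, Matrix.trace_fin_two, htr]
  have hzd : (1 + Z).det = 1 := by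
    have h2 : 1 + Z = lowM (-t) * (1 + X) * lowM t := by
      rw [hZ, Matrix.mul_add, Matrix.add_mul, Matrix.mul_one, lowM_neg_mul]
    rw [h2, Matrix.det_mul, Matrix.det_mul, hd]
    simp [lowM, Matrix.det_fin_two]
  have hz00 : Z 0 0 = 0 := by
    rw [Matrix.det_fin_two] at hzd
    simp [hz10] at hzd
    refine pow_eq_zero_iff two_ne_zero |>.1 ?_
    linear_combination -hzd + (Z 0 0 + 1) * hzt
  refine ⟨Z 0 1, hF, ?_⟩
  have hu : unipM (Z 0 1) = 1 + Z := by
    ext i j
    fin_cases i <;> fin_cases j <;> simp [unipM, hz10, hz00]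
    linear_combination hzt - hz00
  rw [hu, Matrix.mul_add, Matrix.add_mul, Matrix.mul_one, lowM_mul_neg, ← hXZ]

end Domain

end FLTAgent.MLT.Loc
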