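import Fermat.Agent.MLT.Patch.Defs
import Fermat.Agent.MLT.Patch.LocAlg

/-!
Area MLT, parcel LOC: the chart of each component of the product of the local models.
-/

set_option autoImplicit false
set_option linter.style.haveILetI false
set_option linter.unusedSectionVars false

noncomputable section

namespace FLTAgent.MLT

open IsLocalRing Matrix FLTAgent.LL

/-- unramified, Steinberg of the sign `w`, Steinberg of the sign `-w` -/
inductive FKind : Type
  | unr
  | st
  | opp
deriving DecidableEq

instance : Fintype FKind :=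
  ⟨{FKind.unr, FKind.st, FKind.opp}, fun x => by cases x <;> simp⟩

namespace FPlace

variable {O : Type} [CommRing O] [IsLocalRing O] (P : FPlace O)

theorem hw_unit : IsUnit P.w := IsUnit.of_mul_eq_one _ P.hw

/-- the components a place can have -/
def Valid : FKind → Prop
  | .opp => IsUnit ((P.q : O) - 1) ∧ (P.q : O) + 1 ∈ maximalIdeal O
  | _ => True

/-- the frame of a component: the lines exchanged for the opposite sign -/
def frame0 : FKind → Matrix (Fin 2) (Fin 2) O
  | .opp => !![0, 1; 1, 0]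
  | _ => 1

/-- the sign of a component -/
def sgn : FKind → O
  | .opp => -P.w
  | _ => P.w

/-- the base of the upper entry of Frobenius -/
def upper0 : FKind → O
  | .opp => P.bF 1 0
  | _ => P.bF 0 1

theorem frame0_sq (τ : FKind) : (frame0 (O := O) τ) * frame0 τ = 1 := by
  cases τ <;> simp only [frame0, Matrix.mul_one]
  ext i j
  fin_cases i <;> fin_cases j <;> simp [Matrix.mul_apply, Fin.sum_univ_two]

theorem sgn_sq (τ : FKind) : P.sgn τ * P.sgn τ = 1 := by
  cases τ <;> simp [sgn, P.hw]

theorem bF10 : P.bF 1 0 = 0 := by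
  rcases P.normal with ⟨-, h⟩ | ⟨-, ns, h⟩ <;> simp [h, frobBase]

theorem isUnit_bF00 : IsUnit (P.bF 0 0) := by
  rcases P.normal with ⟨-, h⟩ | ⟨-, ns, h⟩ <;> simp [h, frobBase, P.hw_unit, P.hqu]

theorem det_bF : P.bF.det - (P.q : O) ∈ maximalIdeal O := by
  rcases P.normal with ⟨-, h⟩ | ⟨hq, ns, h⟩
  · convert zero_mem (maximalIdeal O) using 1
    rw [h, Matrix.det_fin_two_of]
    linear_combination (P.q : O) * P.hw
  · convert neg_mem hq using 1
    rw [h, Matrix.det_smul, Fintype.card_fin, sq, P.hw, frobBase, Matrix.det_fin_two_of]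
    ring

theorem trace_bF : P.bF.trace - P.w * (1 + (P.q : O)) ∈ maximalIdeal O := by
  rcases P.normal with ⟨-, h⟩ | ⟨hq, ns, h⟩
  · convert zero_mem (maximalIdeal O) using 1
    simp [h, Matrix.trace_fin_two]
    ring
  · convert neg_mem (Ideal.mul_mem_left _ P.w hq) using 1
    simp [h, frobBase, Matrix.trace_fin_two]
    ring

/-- the triangular base agrees with `bF` modulo the maximal ideal -/
theorem tri_base (τ : FKind) (hτ : P.Valid τ) (hne : τ ≠ .unr) (i j : Fin 2) :
    (Loc.readM (frame0 τ) 0 0 (Loc.triM (P.sgn τ) (P.q : O) (P.upper0 τ)) - P.bF) i j ∈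
      maximalIdeal O := by
  cases τ
  · exact absurd rfl hne
  · have h : Loc.readM (frame0 (O := O) .st) 0 0
        (Loc.triM (P.sgn .st) (P.q : O) (P.upper0 .st)) = Loc.triM P.w (P.q : O) (P.bF 0 1) := by
      have e : Loc.lowM (0 : O) = 1 := by
        ext a b
        fin_cases a <;> fin_cases b <;> simp [Loc.lowM]
      simp [Loc.readM, frame0, sgn, upper0, e, Loc.shearM_zero]
    rw [h]
    rcases P.normal with ⟨-, hb⟩ | ⟨hq, ns, hb⟩
    · fin_cases i <;> fin_cases j <;> simp [hb, Loc.triM]
    · fin_cases i <;> fin_cases j <;>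
        simp [hb, Loc.triM, frobBase, -IsLocalRing.mem_maximalIdeal]
      convert Ideal.mul_mem_left _ P.w hq using 1
      ring
  · obtain ⟨hu, hq⟩ := hτ
    have hb : P.bF = !![P.w * (P.q : O), 0; 0, P.w] := by
      rcases P.normal with ⟨-, hb⟩ | ⟨h, -⟩
      · exact hb
      · exact absurd hu ((IsLocalRing.mem_maximalIdeal _).1 h)
    have h : Loc.readM (frame0 (O := O) .opp) 0 0
        (Loc.triM (P.sgn .opp) (P.q : O) (P.upper0 .opp)) =
          !![-P.w, 0; 0, -(P.w * (P.q : O))] := by
      have e : Loc.lowM (0 : O) = 1 := by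
        ext a b
        fin_cases a <;> fin_cases b <;> simp [Loc.lowM]
      simp only [Loc.readM, e, Loc.shearM_zero, neg_zero, Matrix.mul_one]
      ext a b
      fin_cases a <;> fin_cases b <;>
        simp [frame0, sgn, upper0, hb, Loc.triM, Matrix.mul_apply, Fin.sum_univ_two]
    rw [h, hb]
    have h1 := neg_mem (Ideal.mul_mem_left _ P.w hq)
    fin_cases i <;> fin_cases j <;> simp [-IsLocalRing.mem_maximalIdeal]
    · convert h1 using 1; ring
    · convert h1 using 1; ring

end FPlace

section Chart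

variable {O : Type} [CommRing O] [IsLocalRing O]

/-- Frobenius and tame generator on the chart of a component -/
def placeChart (P : FPlace O) {R : Type} [CommRing R] (κ : O →+* R) (x : Fin 3 → R) :
    FKind → Matrix (Fin 2) (Fin 2) R × Matrix (Fin 2) (Fin 2) R
  | .unr =>
    (!![κ (P.bF 0 0) + x 0, κ (P.bF 0 1) + x 1; κ (P.bF 1 0) + x 2,
        (κ (P.q : O) + (κ (P.bF 0 1) + x 1) * (κ (P.bF 1 0) + x 2)) *
          Ring.inverse (κ (P.bF 0 0) + x 0)], 1)
  | τ =>
    (Loc.readM ((FPlace.frame0 τ).map κ) 0 (x 0)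
        (Loc.triM (κ (P.sgn τ)) (κ (P.q : O)) (κ (P.upper0 τ) + x 1)),
      Loc.readM ((FPlace.frame0 τ).map κ) 0 (x 0) (Loc.unipM (x 2)))

theorem isUnit_add_of_mem {R : Type} [CommRing R] [IsLocalRing R] {a b : R} (ha : IsUnit a)
    (hb : b ∈ maximalIdeal R) : IsUnit (a + b) :=
  QPlace.isUnit_of_sub_mem ha (by simpa [-IsLocalRing.mem_maximalIdeal] using hb)

theorem frame0_map_sq {R : Type} [CommRing R] (κ : O →+* R) (τ : FKind) :
    (FPlace.frame0 τ).map κ * (FPlace.frame0 τ).map κ = 1 := by
  rw [← Matrix.map_mul, FPlace.frame0_sq, Matrix.map_one _ (map_zero κ) (map_one κ)]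

theorem map_placeChart (P : FPlace O) {R R' : Type} [CommRing R] [CommRing R'] (f : R →+* R')
    (κ : O →+* R) (x : Fin 3 → R) (τ : FKind) (hx : τ = .unr → IsUnit (κ (P.bF 0 0) + x 0)) :
    ((placeChart P κ x τ).1.map f, (placeChart P κ x τ).2.map f) =
      placeChart P (f.comp κ) (fun r => f (x r)) τ := by
  cases τ
  · have hi : f (Ring.inverse (κ (P.bF 0 0) + x 0)) = Ring.inverse (f (κ (P.bF 0 0) + x 0)) := by
      refine ((hx rfl).map f).mul_left_cancel ?_
      rw [← map_mul, Ring.mul_inverse_cancel _ (hx rfl), map_one,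
        Ring.mul_inverse_cancel _ ((hx rfl).map f)]
    refine Prod.ext ?_ ?_
    · ext i j
      fin_cases i <;> fin_cases j <;> simp [placeChart, hi]
    · simp [placeChart, Matrix.map_one]
  all_goals
    simp [placeChart, Loc.map_readM, Loc.map_triM, Loc.map_unipM, Matrix.map_map, Function.comp_def]

theorem placeChart_mem (P : FPlace O) {R : Type} [CommRing R] [IsLocalRing R] (κ : O →+* R)
    (hκ : ∀ c ∈ maximalIdeal O, κ c ∈ maximalIdeal R) {x : Fin 3 → R}
    (hx : ∀ r, x r ∈ maximalIdeal R) {τ : FKind} (hτ : P.Valid τ) (i j : Fin 2) :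
    ((placeChart P κ x τ).1 - P.bF.map κ) i j ∈ maximalIdeal R ∧
      ((placeChart P κ x τ).2 - 1) i j ∈ maximalIdeal R := by
  set φ := residue R
  have hφx : ∀ r, φ (x r) = 0 := fun r => (residue_eq_zero_iff _).2 (hx r)
  have hA : IsUnit (κ (P.bF 0 0) + x 0) := isUnit_add_of_mem (P.isUnit_bF00.map κ) (hx 0)
  have h := map_placeChart P φ κ x τ (fun _ => hA)
  have hx0 : (fun r => φ (x r)) = 0 := funext hφx
  rw [hx0] at h
  have h1 := congrFun (congrFun (congrArg Prod.fst h) i) j
  have h2 := congrFun (congrFun (congrArg Prod.snd h) i) j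
  simp only [Matrix.map_apply] at h1 h2
  rw [← residue_eq_zero_iff, ← residue_eq_zero_iff, Matrix.sub_apply, Matrix.sub_apply, map_sub,
    map_sub, h1, h2]
  have hk : ∀ c ∈ maximalIdeal O, φ.comp κ c = 0 := fun c hc =>
    (residue_eq_zero_iff _).2 (hκ c hc)
  rw [Matrix.map_apply, show φ (κ (P.bF i j)) = φ.comp κ (P.bF i j) from rfl]
  by_cases hne : τ = .unr
  · subst hne
    have hd := hk _ P.det_bF
    rw [Matrix.det_fin_two, map_sub, map_sub, map_mul, map_mul] at hd
    have hu : IsUnit (φ.comp κ (P.bF 0 0)) := P.isUnit_bF00.map _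
    constructor
    · fin_cases i <;> fin_cases j <;> simp [placeChart, -RingHom.coe_comp]
      rw [sub_eq_zero]
      refine hu.mul_left_cancel ?_
      rw [mul_left_comm, mul_inv_cancel₀ hu.ne_zero, mul_one]
      rw [map_natCast] at hd
      linear_combination -hd
    · fin_cases i <;> fin_cases j <;> simp [placeChart]
  · have hb := hk _ (P.tri_base τ hτ hne i j)
    rw [Matrix.sub_apply, map_sub] at hb
    have hm := congrFun (congrFun (Loc.map_readM (P₀ := FPlace.frame0 τ) (r := 0) (t := 0) (φ.comp κ)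
      (Loc.triM (P.sgn τ) (P.q : O) (P.upper0 τ))) i) j
    rw [Matrix.map_apply] at hm
    rw [hm, Loc.map_triM, map_zero] at hb
    have hu : (Loc.unipM (0 : ResidueField R)) = 1 := by
      ext a b
      fin_cases a <;> fin_cases b <;> simp [Loc.unipM]
    cases τ
    · exact absurd rfl hne
    all_goals
      refine ⟨?_, ?_⟩
      · simpa [placeChart] using hb
      · simp only [placeChart, Pi.zero_apply, hu, Loc.readM_one (frame0_map_sq _ _)]
        by_cases hij : i = j <;> simp [hij, Matrix.one_apply]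

/-- the relations of a chart -/
theorem placeChart_rel (P : FPlace O) {R : Type} [CommRing R] (κ : O →+* R) (x : Fin 3 → R)
    (τ : FKind) (hA : τ = .unr → IsUnit (κ (P.bF 0 0) + x 0)) :
    (placeChart P κ x τ).1.det = κ (P.q : O) ∧ (placeChart P κ x τ).2.det = 1 ∧
      (placeChart P κ x τ).2.trace = 2 ∧
      (placeChart P κ x τ).1 * (placeChart P κ x τ).2 =
        (placeChart P κ x τ).2 ^ P.q * (placeChart P κ x τ).1 ∧
      (τ ≠ .unr → (placeChart P κ x τ).1.trace = κ (P.sgn τ * (1 + (P.q : O)))) := by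
  by_cases hne : τ = .unr
  · subst hne
    refine ⟨?_, by simp [placeChart], by simp [placeChart], by simp [placeChart],
      fun h => absurd rfl h⟩
    simp only [placeChart, Matrix.det_fin_two_of]
    linear_combination (κ (P.q : O) + (κ (P.bF 0 1) + x 1) * (κ (P.bF 1 0) + x 2)) *
      Ring.mul_inverse_cancel _ (hA rfl)
  · have hP := frame0_map_sq κ τ
    obtain ⟨h1, h2, h3, h4, h5⟩ := Loc.tri_rel (ε := κ (P.sgn τ)) (q := κ (P.q : O))
      (γ := κ (P.upper0 τ) + x 1) (β := x 2) (n := P.q) (map_natCast κ P.q).symm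
      (by rw [← map_mul, P.sgn_sq, map_one])
    cases τ
    · exact absurd rfl hne
    all_goals
      refine ⟨?_, ?_, ?_, ?_, fun _ => ?_⟩ <;> simp only [placeChart]
      · rw [Loc.readM_det hP, h1]
      · rw [Loc.readM_det hP, h2]
      · rw [Loc.readM_trace hP, h3]
      · rw [← Loc.readM_pow hP, ← Loc.readM_mul hP, ← Loc.readM_mul hP, h5]
      · rw [Loc.readM_trace hP, h4, map_mul, map_add, map_one]

end Chart

section Hom

variable {O : Type} [CommRing O] [IsDomain O] [IsDiscreteValuationRing O]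
  [IsAdicComplete (maximalIdeal O) O] [Finite (ResidueField O)]
  {I S : Type} [Finite I] [Finite S] (P : I → FPlace O)

/-- the values of the coordinates in given charts -/
def chartValue {R : Type} [CommRing R] (κ : O →+* R) (τ : I → FKind) (x : I → Fin 3 → R)
    (z : S → R) : PlaceVar I S → R
  | Sum.inl (i, s, a, b) =>
    if s = 0 then ((placeChart (P i) κ (x i) (τ i)).1 - (P i).bF.map κ) a b
    else ((placeChart (P i) κ (x i) (τ i)).2 - 1) a b
  | Sum.inr t => z t

theorem map_chartValue {R R' : Type} [CommRing R] [CommRing R'] (f : R →+* R') (κ : O →+* R)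
    (τ : I → FKind) (x : I → Fin 3 → R) (z : S → R)
    (hx : ∀ i, τ i = .unr → IsUnit (κ ((P i).bF 0 0) + x i 0)) (l : PlaceVar I S) :
    f (chartValue P κ τ x z l) =
      chartValue P (f.comp κ) τ (fun i r => f (x i r)) (fun t => f (z t)) l := by
  rcases l with ⟨i, s, a, b⟩ | t
  swap
  · rfl
  have h := map_placeChart (P i) f κ (x i) (τ i) (hx i)
  have h1 := congrFun (congrFun (congrArg Prod.fst h) a) b
  have h2 := congrFun (congrFun (congrArg Prod.snd h) a) b
  simp only [Matrix.map_apply] at h1 h2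
  simp only [chartValue]
  split <;> simp only [Matrix.sub_apply, Matrix.map_apply, map_sub, h1, h2, RingHom.comp_apply]
  simp only [Matrix.one_apply]
  split <;> simp

theorem map_fpFrob {R : Type} [CommRing R] (π : MvPowerSeries (PlaceVar I S) O →+* R)
    {κ : O →+* R} (hC : ∀ c, π (MvPowerSeries.C c) = κ c) (i : I) :
    (fpFrob (S := S) P i).map π = (P i).bF.map κ + (devP i 0).map π ∧
      (fpTame (O := O) (S := S) i).map π = 1 + (devP i 1).map π := by
  constructor
  · ext a b
    simp [fpFrob, hC]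
  · ext a b
    by_cases hab : a = b <;> simp [fpTame, hab]

theorem chartValue_mat {R : Type} [CommRing R] (π : MvPowerSeries (PlaceVar I S) O →+* R)
    {κ : O →+* R} (hC : ∀ c, π (MvPowerSeries.C c) = κ c) {τ : I → FKind} {x : I → Fin 3 → R}
    {z : S → R} (hX : ∀ l, π (MvPowerSeries.X l) = chartValue P κ τ x z l) (i : I) :
    (fpFrob P i).map π = (placeChart (P i) κ (x i) (τ i)).1 ∧
      (fpTame (O := O) i).map π = (placeChart (P i) κ (x i) (τ i)).2 := by
  obtain ⟨h1, h2⟩ := map_fpFrob P π hC i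
  constructor
  · rw [h1]
    ext a b
    simp [devP, hX, chartValue]
  · rw [h2]
    ext a b
    simp [devP, hX, chartValue]

theorem chartValue_mem {R : Type} [CommRing R] [IsLocalRing R] (κ : O →+* R)
    (hκ : ∀ c ∈ maximalIdeal O, κ c ∈ maximalIdeal R) {τ : I → FKind}
    (hτ : ∀ i, (P i).Valid (τ i)) {x : I → Fin 3 → R} (hx : ∀ i r, x i r ∈ maximalIdeal R)
    {z : S → R} (hz : ∀ t, z t ∈ maximalIdeal R) (l : PlaceVar I S) :
    chartValue P κ τ x z l ∈ maximalIdeal R := by
  rcases l with ⟨i, s, a, b⟩ | t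
  swap
  · exact hz t
  obtain ⟨h1, h2⟩ := placeChart_mem (P i) κ hκ (hx i) (hτ i) a b
  simp only [chartValue]
  split
  · exact h1
  · exact h2

variable (τ : I → FKind) (hτ : ∀ i, (P i).Valid (τ i))

/-- the coordinates of the charts -/
abbrev LocVar (I S : Type) : Type := (I × Fin 3) ⊕ S

include hτ in
theorem chartVar_mem (l : PlaceVar I S) :
    chartValue P (MvPowerSeries.C (σ := LocVar I S) (R := O)) τ
      (fun i r => MvPowerSeries.X (Sum.inl (i, r))) (fun t => MvPowerSeries.X (Sum.inr t)) l ∈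
        maximalIdeal (MvPowerSeries (LocVar I S) O) :=
  chartValue_mem P _ (fun c hc => C_mem_of_mem hc) hτ (fun i r => X_mem_maximalIdeal _)
    (fun t => X_mem_maximalIdeal _) l

/-- the map to the chart of a component -/
def chartHom : MvPowerSeries (PlaceVar I S) O →+* MvPowerSeries (LocVar I S) O :=
  evalHom (O := O) (maximalIdeal (MvPowerSeries (LocVar I S) O))
    (chartValue P MvPowerSeries.C τ (fun i r => MvPowerSeries.X (Sum.inl (i, r)))
      fun t => MvPowerSeries.X (Sum.inr t)) 1
    fun l => by rw [pow_one]; exact chartVar_mem P τ hτ l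

theorem chartHom_C (c : O) : chartHom (S := S) P τ hτ (MvPowerSeries.C c) = MvPowerSeries.C c := by
  refine (evalHom_C _ _ c).trans ?_
  rw [MvPowerSeries.algebraMap_apply, Algebra.algebraMap_self_apply]

theorem chartHom_X (l : PlaceVar I S) : chartHom P τ hτ (MvPowerSeries.X l) =
    chartValue P MvPowerSeries.C τ (fun i r => MvPowerSeries.X (Sum.inl (i, r)))
      (fun t => MvPowerSeries.X (Sum.inr t)) l :=
  evalHom_X _ _ l

/-- the prime of a component -/
def chartK : Ideal (MvPowerSeries (PlaceVar I S) O) := RingHom.ker (chartHom P τ hτ)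

theorem isPrime_chartK : (chartK (S := S) P τ hτ).IsPrime := RingHom.ker_isPrime _

theorem chartVar_unit (i : I) : IsUnit (MvPowerSeries.C ((P i).bF 0 0) +
    MvPowerSeries.X (Sum.inl (i, 0)) : MvPowerSeries (LocVar I S) O) :=
  isUnit_add_of_mem ((P i).isUnit_bF00.map _) (X_mem_maximalIdeal _)

theorem chartHom_rel (f : MvPowerSeries (PlaceVar I S) O) (hf : f ∈ fpRel P) :
    chartHom P τ hτ f = 0 := by
  set Ψ := chartHom (S := S) P τ hτ
  obtain ⟨i, hf⟩ := hf
  obtain ⟨hF, hS⟩ := chartValue_mat P Ψ (chartHom_C P τ hτ) (chartHom_X P τ hτ) i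
  obtain ⟨r1, r2, r3, r4, -⟩ := placeChart_rel (P i) (MvPowerSeries.C (σ := LocVar I S) (R := O))
    (fun r => MvPowerSeries.X (Sum.inl (i, r))) (τ i) (fun _ => chartVar_unit P i)
  rcases hf with rfl | rfl | rfl | ⟨a, b, rfl⟩
  · rw [map_sub, RingHom.map_det, RingHom.mapMatrix_apply, hF, r1, chartHom_C, sub_self]
  · rw [map_sub, map_one, RingHom.map_det, RingHom.mapMatrix_apply, hS, r2, sub_self]
  · rw [map_sub, map_ofNat, map_trace_two, hS, r3, sub_self]
  · have h : Ψ.mapMatrix (fpFrob P i * fpTame i - fpTame i ^ (P i).q * fpFrob P i) = 0 := by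
      rw [map_sub, map_mul, map_mul, map_pow, RingHom.mapMatrix_apply, RingHom.mapMatrix_apply, hF,
        hS, r4, sub_self]
    exact congrFun (congrFun h a) b

end Hom

end FLTAgent.MLT
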