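import Fermat.Agent.MLT.Patch.LocSep
import Fermat.Agent.MLT.LocalRingsSpecial
import Fermat.Agent.LL.LocalAlg

/-!
Area MLT, parcel LOC: three parameters at each place cut out the closed point of the special fibre.
-/

set_option autoImplicit false
set_option linter.style.haveILetI false
set_option linter.unusedSectionVars false
set_option maxHeartbeats 1000000

noncomputable section

namespace FLTAgent.MLT

open IsLocalRing Matrix FLTAgent.LL

variable {O : Type} [CommRing O] [IsDomain O] [IsDiscreteValuationRing O]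
  [IsAdicComplete (maximalIdeal O) O] [Finite (ResidueField O)] [CharZero O]
  {I S : Type} [Finite I] [Finite S] (P : I → FPlace O)

theorem smul_commute {R : Type} [CommRing R] (c : R) {G X : Matrix (Fin 2) (Fin 2) R}
    (h : G * X = X * G) : (c • G) * X = X * (c • G) := by
  rw [Matrix.smul_mul, Matrix.mul_smul, h]

open scoped Classical in
/-- the three parameters at a place -/
def fpParam (i : I) : Fin 3 → MvPowerSeries (PlaceVar I S) O :=
  if IsUnit (((P i).q : O) - 1) then placeParam i
  else ![devP i 0 0 0 - devP i 0 1 1, MvPowerSeries.C (P i).w * devP i 0 0 1 + devP i 1 1 0,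
    MvPowerSeries.C (P i).w * devP i 0 1 0 + devP i 1 0 1]

theorem fpParam_constantCoeff (i : I) (r : Fin 3) :
    MvPowerSeries.constantCoeff (fpParam (S := S) P i r) = 0 := by
  unfold fpParam
  split
  · exact placeParam_constantCoeff i r
  · fin_cases r <;> simp [devP]

/-- in a prime with the relations and the maximal ideal of the coefficients the parameters cut out
the closed point -/
theorem X_mem_of_fpParam (Q : Ideal (MvPowerSeries (PlaceVar I S) O)) (hQ : Q.IsPrime)
    (hrel : fpRel P ⊆ (Q : Set (MvPowerSeries (PlaceVar I S) O)))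
    (hm : ∀ c ∈ maximalIdeal O, MvPowerSeries.C c ∈ Q) (hpar : ∀ i r, fpParam P i r ∈ Q)
    (hS : ∀ t : S, MvPowerSeries.X (Sum.inr t) ∈ Q) : ∀ l, MvPowerSeries.X l ∈ Q := by
  haveI := hQ
  set f := Ideal.Quotient.mk Q with hf
  set η := f.comp (MvPowerSeries.C (σ := PlaceVar I S) (R := O))
  intro l
  rcases l with ⟨i, s, a, b⟩ | t
  swap
  · exact hS t
  have hη : ∀ c ∈ maximalIdeal O, η c = 0 := fun c hc => Ideal.Quotient.eq_zero_iff_mem.2 (hm c hc)
  have hunit : ∀ x : MvPowerSeries (PlaceVar I S) O,
      IsUnit (MvPowerSeries.constantCoeff x) → f x ≠ 0 := fun x hx h =>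
    hQ.ne_top (Ideal.eq_top_of_isUnit_mem _ (Ideal.Quotient.eq_zero_iff_mem.1 h)
      (MvPowerSeries.isUnit_iff_constantCoeff.2 hx))
  have h0 : ∀ x, x ∈ fpRel P → f x = 0 := fun x hx => Ideal.Quotient.eq_zero_iff_mem.2 (hrel hx)
  obtain ⟨hF, hT⟩ := map_fpFrob (S := S) P f (κ := η) (fun c => rfl) i
  have r1 := h0 _ ⟨i, Or.inl rfl⟩
  rw [map_sub, sub_eq_zero, RingHom.map_det, RingHom.mapMatrix_apply, hF] at r1
  have r2 := h0 _ ⟨i, Or.inr (Or.inl rfl)⟩
  rw [map_sub, map_one, sub_eq_zero, RingHom.map_det, RingHom.mapMatrix_apply, hT] at r2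
  have r3 := h0 _ ⟨i, Or.inr (Or.inr (Or.inl rfl))⟩
  rw [map_sub, map_ofNat, sub_eq_zero, map_trace_two, hT] at r3
  have r4 : f.mapMatrix (fpFrob P i * fpTame i - fpTame i ^ (P i).q * fpFrob P i) = 0 :=
    Matrix.ext fun a b => h0 _ ⟨i, Or.inr (Or.inr (Or.inr ⟨a, b, rfl⟩))⟩
  rw [map_sub, map_mul, map_mul, map_pow, sub_eq_zero, RingHom.mapMatrix_apply,
    RingHom.mapMatrix_apply, hF, hT] at r4
  have hp : ∀ r, f (fpParam P i r) = 0 := fun r => Ideal.Quotient.eq_zero_iff_mem.2 (hpar i r)
  suffices h : (devP (O := O) (S := S) i 1).map f = 0 ∧ (devP (O := O) (S := S) i 0).map f = 0 by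
    rw [← Ideal.Quotient.eq_zero_iff_mem]
    fin_cases s
    · exact congrFun (congrFun h.2 a) b
    · exact congrFun (congrFun h.1 a) b
  by_cases hu : IsUnit (((P i).q : O) - 1)
  · have hb : (P i).bF = !![(P i).w * ((P i).q : O), 0; 0, (P i).w] := by
      rcases (P i).normal with ⟨-, hb⟩ | ⟨h, -⟩
      · exact hb
      · exact absurd hu ((IsLocalRing.mem_maximalIdeal _).1 h)
    let Pq : QPlace O :=
      ⟨(P i).q, (P i).w, 0, (P i).hw, (P i).hqu, hu, by
        intro e
        have h1 : (((P i).q ^ 2 : ℕ) : O) = ((1 : ℕ) : O) := by push_cast; exact e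
        have h2 := Nat.cast_injective h1
        have := (P i).one_lt
        nlinarith, (P i).htwo⟩
    have hFb : Pq.baseF η = (P i).bF.map η := by
      ext a b
      fin_cases a <;> fin_cases b <;> simp [Pq, QPlace.baseF, hb]
    have hTb : Pq.baseT η = 1 := by
      ext a b
      fin_cases a <;> fin_cases b <;> simp [Pq, QPlace.baseT]
    have hpp : ∀ r, f (placeParam i r) = 0 := fun r => by
      have := hp r
      rwa [fpParam, if_pos hu] at this
    refine QPlace.coords_eq_zero Pq (η := η) hη (fun c hc a b => ⟨?_, ?_⟩) (by rw [hFb]; exact r1)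
      (by rw [hTb]; exact r2) (by rw [hFb, hTb]; exact r4) (by rw [hTb]; exact r3)
      (by simpa [placeParam] using hpp 0) (by simpa [placeParam] using hpp 1)
      (by simpa [placeParam] using hpp 2)
    · have h := hunit (devP i 0 a b + MvPowerSeries.C c) (by simpa [devP] using hc)
      rw [map_add] at h
      exact h
    · have h := hunit (devP i 1 a b + MvPowerSeries.C c) (by simpa [devP] using hc)
      rw [map_add] at h
      exact h
  · obtain ⟨hq, ns, hb⟩ : ((P i).q : O) - 1 ∈ maximalIdeal O ∧
        ∃ ns : Bool, (P i).bF = (P i).w • frobBase O ns := by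
      rcases (P i).normal with ⟨h, -⟩ | h
      · exact absurd h hu
      · exact h
    have hp' : ∀ r, f ((![devP i 0 0 0 - devP i 0 1 1,
        MvPowerSeries.C (P i).w * devP i 0 0 1 + devP i 1 1 0,
        MvPowerSeries.C (P i).w * devP i 0 1 0 + devP i 1 0 1] :
          Fin 3 → MvPowerSeries (PlaceVar I S) O) r) = 0 := fun r => by
      have := hp r
      rwa [fpParam, if_neg hu] at this
    have hq1 : ((P i).q : MvPowerSeries (PlaceVar I S) O ⧸ Q) = 1 := by
      have := hη _ hq
      rw [map_sub, map_natCast, map_one, sub_eq_zero] at this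
      exact this
    set ω := η (P i).w with hω
    have hw : ω * ω = 1 := by rw [hω, ← map_mul, (P i).hw, map_one]
    set X := (devP (O := O) (S := S) i 1).map f
    set Y := (devP (O := O) (S := S) i 0).map f
    have hbη : (P i).bF.map η = ω • frobBase (MvPowerSeries (PlaceVar I S) O ⧸ Q) ns := by
      rw [hb, map_smul_mat]
      congr 1
      exact LL.map_frobBase η ns
    have hF2 : ω • ((P i).bF.map η + Y) =
        frobBase (MvPowerSeries (PlaceVar I S) O ⧸ Q) ns + ω • Y := by
      rw [hbη, smul_add, smul_smul, hw, one_smul]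
    have htr : X 0 0 + X 1 1 = 0 := by
      rw [Matrix.trace_add, Matrix.trace_one, Matrix.trace_fin_two] at r3
      simp at r3
      exact r3
    rw [(Loc.one_add_pow_eq htr r2).2, hq1, one_smul] at r4
    have key : ∀ G : Matrix (Fin 2) (Fin 2) (MvPowerSeries (PlaceVar I S) O ⧸ Q),
        G * (1 + X) = (1 + X) * G → G * X = X * G := fun G h => by
      simpa [mul_add, add_mul] using h
    replace r4 := key _ r4
    obtain ⟨hX, hY⟩ := coords_vanish (b₀ := ns) (X := X) (Y := ω • Y) htr r2
      (by
        rw [← hF2, Matrix.det_smul, Fintype.card_fin, sq, hw, one_mul, r1, map_natCast, map_natCast f, hq1])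
      (by
        rw [← hF2]
        exact smul_commute ω r4)
      (by
        have h := hp' 0
        simp only [Matrix.cons_val_zero, map_sub, sub_eq_zero] at h
        simp [Y, h])
      (by
        have h := hp' 1
        simp only [Matrix.cons_val_one, Matrix.cons_val_zero, map_add, map_mul] at h
        simpa [X, Y, hω, η] using h)
      (by
        have h := hp' 2
        simp only [Matrix.cons_val, map_add, map_mul] at h
        simpa [X, Y, hω, η] using h)
      (by
        have h := hunit 2 (by simpa [map_ofNat] using (P i).htwo)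
        simpa [map_ofNat] using h)
      (by
        have h := hunit (2 + MvPowerSeries.C (P i).w * devP i 0 0 0)
          (by simpa [map_ofNat, devP] using (P i).htwo)
        simpa [Y, hω, η, map_ofNat] using h)
      (by
        have h := hunit (1 - devP i 1 1 0) (by simp [devP])
        simpa [X] using h)
    refine ⟨hX, ?_⟩
    have := congrArg (fun A => ω • A) hY
    simpa [smul_smul, hw] using this

end FLTAgent.MLT
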