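import Fermat.Agent.MLT.Patch.LocWrap
import Fermat.Agent.MLT.Patch.LocParams

/-!
Area MLT, parcel LOC: the component model of a product of local models.
-/

set_option autoImplicit false
set_option linter.style.haveILetI false
set_option linter.unusedSectionVars false

noncomputable section

namespace FLTAgent.MLT

open IsLocalRing Matrix FLTAgent.LL

variable {O : Type} [CommRing O] [IsDomain O] [IsDiscreteValuationRing O]
  [IsAdicComplete (maximalIdeal O) O] [Finite (ResidueField O)] [CharZero O]

section Any

variable {I S : Type} [Finite I] [Finite S] (P : I → FPlace O) (τ : I → FKind)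
  (hτ : ∀ i, (P i).Valid (τ i)) (Z : Set (LocVar I S))

theorem killChart_C_ne {a : O} (ha : a ≠ 0) :
    killChart P τ hτ Z (MvPowerSeries.C a) ≠ 0 := by
  rw [killChart_C]
  exact fun e => ha (by simpa using congrArg MvPowerSeries.constantCoeff e)

theorem chartK_le_killChart : chartK P τ hτ ≤ RingHom.ker (killChart P τ hτ Z) := fun f hf => by
  rw [RingHom.mem_ker, killChart, RingHom.comp_apply, RingHom.mem_ker.1 hf, map_zero]

theorem chartHom_eq_killChart : chartHom (S := S) P τ hτ = killChart P τ hτ ∅ := by
  refine hom_ext_adic (maximalIdeal (MvPowerSeries (LocVar I S) O)) (fun c => ?_) (fun l => ?_)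
    (fun l => ?_)
  · rw [killChart_C, chartHom_C]
  · rw [killChart_X, chartHom_X]
    simp only [killVar_X_of_notMem _ (Set.notMem_empty _)]
  · rw [chartHom_X]
    exact chartVar_mem P τ hτ l

theorem fpUnr_subset_iff (i : I) :
    fpUnr i ⊆ (chartK (S := S) P τ hτ : Set (MvPowerSeries (PlaceVar I S) O)) ↔ τ i = .unr := by
  constructor
  · intro h
    by_contra hne
    obtain ⟨f, hf, hf'⟩ := exists_fpUnr_ne (S := S) P τ hτ ∅ hne (Set.notMem_empty _)
    have h1 := h hf
    rw [SetLike.mem_coe, chartK, RingHom.mem_ker, chartHom_eq_killChart] at h1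
    exact hf' h1
  · rintro h f ⟨ab, rfl⟩
    rw [SetLike.mem_coe, chartK, RingHom.mem_ker]
    obtain ⟨-, hS⟩ := chartValue_mat P (chartHom (S := S) P τ hτ) (chartHom_C P τ hτ)
      (chartHom_X P τ hτ) i
    rw [(map_fpFrob P (chartHom (S := S) P τ hτ) (κ := MvPowerSeries.C) (chartHom_C P τ hτ) i).2,
      h] at hS
    simp only [placeChart, add_eq_left] at hS
    exact congrFun (congrFun hS ab.1) ab.2

theorem fpOpp_mem {i : I} (h : τ i = .opp) :
    fpOpp P i ∈ chartK (S := S) P τ hτ := by
  rw [chartK, RingHom.mem_ker, chartHom_eq_killChart,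
    (fpSgn_eq P (killChart (S := S) P τ hτ ∅) (killChart_C P τ hτ ∅) i).2,
    killChart_trace P τ hτ ∅ (by rw [h]; decide), h, sub_self]

theorem fpSt_mem {i : I} (h : τ i = .st) :
    fpSt P i ∈ chartK (S := S) P τ hτ := by
  rw [chartK, RingHom.mem_ker, chartHom_eq_killChart,
    (fpSgn_eq P (killChart (S := S) P τ hτ ∅) (killChart_C P τ hτ ∅) i).1,
    killChart_trace P τ hτ ∅ (by rw [h]; decide), h, sub_self]

/-- the unramified chart of a place receives the points with trivial tame generator -/
theorem chartK_le_ker_of_unr (τ' : I → FKind) (hτ' : ∀ i, (P i).Valid (τ' i)) (i : I)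
    (hu : τ i = .unr) (hother : ∀ j, j ≠ i → τ j = τ' j) :
    chartK P τ hτ ≤ RingHom.ker (killChart (S := S) P τ' hτ' {Sum.inl (i, 2)}) := by
  classical
  set Z' : Set (LocVar I S) := {Sum.inl (i, 2)}
  set Φ := killChart (S := S) P τ' hτ' Z' with hΦ
  let z : LocVar I S → MvPowerSeries (LocVar I S) O := Sum.elim
    (fun p => if p.1 = i then
        ![Φ (devP p.1 0 0 0), Φ (devP p.1 0 0 1), Φ (devP p.1 0 1 0)] p.2
      else killVar Z' (MvPowerSeries.X (Sum.inl p)))
    (fun t => killVar Z' (MvPowerSeries.X (Sum.inr t)))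
  have hdev : ∀ (j : I) (s a b : Fin 2), Φ (devP j s a b) ∈ maximalIdeal (MvPowerSeries (LocVar I S) O) := by
    intro j s a b
    rw [hΦ]
    simp only [devP, killChart_X]
    exact chartValue_mem P _ (fun c hc => C_mem_of_mem hc) hτ' (fun j r => killVar_X_mem Z' _)
      (fun t => killVar_X_mem Z' _) _
  have hz : ∀ l, z l ^ 1 ∈ maximalIdeal (MvPowerSeries (LocVar I S) O) := by
    intro l
    rw [pow_one]
    rcases l with ⟨j, r⟩ | t
    swap
    · exact killVar_X_mem Z' _
    simp only [z, Sum.elim_inl]
    split
    · fin_cases r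
      · exact hdev j 0 0 0
      · exact hdev j 0 0 1
      · exact hdev j 0 1 0
    · exact killVar_X_mem Z' _
  let θ : MvPowerSeries (LocVar I S) O →+* MvPowerSeries (LocVar I S) O :=
    evalHom (O := O) (maximalIdeal (MvPowerSeries (LocVar I S) O)) z 1 hz
  have hθC : θ.comp MvPowerSeries.C = MvPowerSeries.C := RingHom.ext fun c => by
    refine (evalHom_C _ hz c).trans ?_
    rw [MvPowerSeries.algebraMap_apply, Algebra.algebraMap_self_apply]
  have hθX : ∀ l, θ (MvPowerSeries.X l) = z l := fun l => evalHom_X _ hz l
  -- the matrices at `i`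
  obtain ⟨hF, hS⟩ := killChart_mat (S := S) P τ' hτ' Z' i
  obtain ⟨hF', hS'⟩ := map_fpFrob P Φ (κ := MvPowerSeries.C) (killChart_C P τ' hτ' Z') i
  have hS1 : (devP (O := O) (S := S) i 1).map Φ = 0 := by
    have h2 : (fpTame (O := O) i).map Φ = 1 := by
      rw [hS]
      have hk : killVar (O := O) Z' (MvPowerSeries.X (Sum.inl (i, 2))) = 0 :=
        killVar_X_of_mem Z' rfl
      cases τ' i <;> simp only [placeChart, hk]
      all_goals
        rw [show Loc.unipM (0 : MvPowerSeries (LocVar I S) O) = 1 by
          ext a b; fin_cases a <;> fin_cases b <;> simp [Loc.unipM]]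
        exact Loc.readM_one (frame0_map_sq _ _)
    rw [hS'] at h2
    exact add_eq_left.1 h2
  have hdet : ((fpFrob P i).map Φ).det = MvPowerSeries.C ((P i).q : O) := by
    rw [hF]
    exact (placeChart_rel (P i) _ _ (τ' i) (fun h => by
      have hk : killVar (O := O) Z' (MvPowerSeries.X (Sum.inl (i, 0))) =
          MvPowerSeries.X (Sum.inl (i, 0)) := killVar_X_of_notMem Z' (by simp [Z'])
      rw [hk]
      exact chartVar_unit P i)).1
  have hval : ∀ l, θ (chartHom P τ hτ (MvPowerSeries.X l)) = Φ (MvPowerSeries.X l) := by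
    intro l
    rw [chartHom_X, map_chartValue P θ MvPowerSeries.C τ _ _ (fun j _ => chartVar_unit P j), hθC]
    simp only [hθX]
    rcases l with ⟨j, s, a, b⟩ | t
    swap
    · rw [hΦ, killChart_X]
      rfl
    by_cases hj : j = i
    · subst hj
      simp only [chartValue, hu, z, Sum.elim_inl, if_true]
      have hpc : placeChart (P j) MvPowerSeries.C
          (fun r => ![Φ (devP j 0 0 0), Φ (devP j 0 0 1), Φ (devP j 0 1 0)] r) .unr =
          ((fpFrob P j).map Φ, 1) := by
        refine Prod.ext ?_ rfl
        rw [Matrix.det_fin_two] at hdet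
        have hu00 : IsUnit ((fpFrob P j).map Φ 0 0) := by
          rw [hF']
          rw [Matrix.add_apply, Matrix.map_apply, Matrix.map_apply]
          exact isUnit_add_of_mem ((P j).isUnit_bF00.map MvPowerSeries.C) (hdev j 0 0 0)
        have h11 : (fpFrob P j).map Φ 1 1 = (MvPowerSeries.C ((P j).q : O) +
            (fpFrob P j).map Φ 0 1 * (fpFrob P j).map Φ 1 0) *
              Ring.inverse ((fpFrob P j).map Φ 0 0) := by
          refine hu00.mul_left_cancel ?_
          rw [mul_left_comm, Ring.mul_inverse_cancel _ hu00, mul_one]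
          linear_combination hdet
        rw [hF'] at h11 ⊢
        simp only [Matrix.add_apply, Matrix.map_apply] at h11
        ext a b
        fin_cases a <;> fin_cases b <;> simp [placeChart, h11]
      rw [hpc]
      fin_cases s <;> simp only [Fin.zero_eta, Fin.mk_one, Fin.isValue, one_ne_zero, if_true,
        if_false, sub_self, Matrix.zero_apply, Matrix.sub_apply]
      · rw [hF']
        simp [devP]
      · exact (congrFun (congrFun hS1 a) b).symm
    · rw [hΦ, killChart_X]
      simp only [chartValue, z, Sum.elim_inl, hj, if_false, hother j hj]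
  have hcomp : θ.comp (chartHom P τ hτ) = Φ := by
    refine hom_ext_adic (maximalIdeal (MvPowerSeries (LocVar I S) O)) (fun c => ?_) (fun l => hval l)
      (fun l => ?_)
    · rw [RingHom.comp_apply, chartHom_C, hΦ, killChart_C, ← RingHom.comp_apply θ, hθC]
    · rw [RingHom.comp_apply, hval, hΦ, killChart_X]
      exact chartValue_mem P _ (fun c hc => C_mem_of_mem hc) hτ' (fun j r => killVar_X_mem Z' _)
        (fun t => killVar_X_mem Z' _) l
  intro f hf
  rw [RingHom.mem_ker, ← hcomp, RingHom.comp_apply, RingHom.mem_ker.1 hf, map_zero]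

/-- one further coordinate set to zero is the same before the chart -/
theorem ker_killChart_inr (t : S) :
    RingHom.ker (killChart P τ hτ ({Sum.inr t} : Set (LocVar I S))) =
      chartK P τ hτ ⊔ Ideal.span {MvPowerSeries.X (Sum.inr t)} := by
  classical
  set Φ := killChart (S := S) P τ hτ ({Sum.inr t} : Set (LocVar I S))
  refine le_antisymm (fun f hf => ?_) (sup_le (chartK_le_killChart P τ hτ _) ?_)
  · set f0 := killVar ({Sum.inr t} : Set (PlaceVar I S)) f
    have hcomm : (chartHom (S := S) P τ hτ).comp (killVar ({Sum.inr t} : Set (PlaceVar I S))) = Φ := by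
      refine hom_ext_adic (maximalIdeal (MvPowerSeries (LocVar I S) O)) (fun c => ?_) (fun l => ?_)
        (fun l => ?_)
      · rw [RingHom.comp_apply, killVar_C, chartHom_C, killChart_C]
      · rw [RingHom.comp_apply, killChart_X]
        by_cases hl : l = Sum.inr t
        · subst hl
          rw [killVar_X_of_mem _ (Set.mem_singleton _), map_zero]
          exact (killVar_X_of_mem _ (Set.mem_singleton _)).symm
        · rw [killVar_X_of_notMem ({Sum.inr t} : Set (PlaceVar I S)) (by simpa using hl), chartHom_X]
          rcases l with ⟨i, s, a, b⟩ | u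
          · simp [chartValue, killVar_X_of_notMem]
          · have hu : (Sum.inr u : LocVar I S) ∉ ({Sum.inr t} : Set (LocVar I S)) := by
              simpa using hl
            exact (killVar_X_of_notMem _ hu).symm
      · rw [RingHom.comp_apply]
        by_cases hl : l = Sum.inr t
        · subst hl
          rw [killVar_X_of_mem _ (Set.mem_singleton _), map_zero]
          exact zero_mem _
        · rw [killVar_X_of_notMem ({Sum.inr t} : Set (PlaceVar I S)) (by simpa using hl), chartHom_X]
          exact chartVar_mem P τ hτ l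
    have h0 : f0 ∈ chartK P τ hτ := by
      rw [chartK, RingHom.mem_ker, ← RingHom.comp_apply, hcomm]
      exact hf
    have h1 := killVar_sub_mem (Sum.inr t : PlaceVar I S) f
    have h2 := Submodule.add_mem_sup h0 h1
    simpa [f0] using h2
  · rw [Ideal.span_le, Set.singleton_subset_iff, SetLike.mem_coe, RingHom.mem_ker, killChart_X]
    exact killVar_X_of_mem _ (Set.mem_singleton _)

end Any

/-- Steinberg on a set, unramified elsewhere -/
def compKind {k : ℕ} (s : Finset (Fin k)) (i : Fin k) : FKind := if i ∈ s then .st else .unr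

theorem valid_compKind {k : ℕ} (P : Fin k → FPlace O) (s : Finset (Fin k)) (i : Fin k) :
    (P i).Valid (compKind s i) := by
  simp only [compKind]
  split <;> trivial

end FLTAgent.MLT
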