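import Fermat.Agent.MLT.Patch.LocShape
import Fermat.Agent.LL.ChartPoint

/-!
Area MLT, parcel LOC: every point of the local relations and of a component's conditions kills the
prime of the component. At scalar places the line may be anywhere residually: the chart is continued
along the parameter of the line, the values being polynomials in it with small coefficients.
-/

set_option autoImplicit false
set_option linter.style.haveILetI false
set_option linter.unusedSectionVars false
set_option maxHeartbeats 1000000

noncomputable section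

namespace FLTAgent.MLT

open IsLocalRing Matrix FLTAgent.LL

section Coef

variable {E : Type} [CommRing E] {σ : Type}

theorem coeff_mem_map {𝔞 : Ideal E} {f : MvPowerSeries σ E}
    (hf : f ∈ 𝔞.map (MvPowerSeries.C (σ := σ) (R := E))) (v : σ →₀ ℕ) :
    MvPowerSeries.coeff v f ∈ 𝔞 := by
  have h : f ∈ RingHom.ker (MvPowerSeries.map (σ := σ) (Ideal.Quotient.mk 𝔞)) := by
    refine Ideal.map_le_iff_le_comap.2 (fun c hc => ?_) hf
    rw [Ideal.mem_comap, RingHom.mem_ker, MvPowerSeries.map_C,
      Ideal.Quotient.eq_zero_iff_mem.2 hc, map_zero]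
  have h' := congrArg (MvPowerSeries.coeff v) (RingHom.mem_ker.1 h)
  rw [MvPowerSeries.coeff_map, map_zero, Ideal.Quotient.eq_zero_iff_mem] at h'
  exact h'

theorem eval_mem_of_coeff {𝔞 : Ideal E} {p : MvPolynomial σ E}
    (hp : ∀ v, MvPolynomial.coeff v p ∈ 𝔞) (t : σ → E) : MvPolynomial.eval t p ∈ 𝔞 := by
  rw [p.as_sum, map_sum]
  refine sum_mem fun v _ => ?_
  rw [MvPolynomial.eval_monomial]
  exact Ideal.mul_mem_right _ _ (hp v)

theorem coe_mem_map {𝔞 : Ideal E} {p : MvPolynomial σ E}
    (hp : ∀ v, MvPolynomial.coeff v p ∈ 𝔞) :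
    (p : MvPowerSeries σ E) ∈ 𝔞.map (MvPowerSeries.C (σ := σ) (R := E)) := by
  rw [p.as_sum, ← MvPolynomial.coeToMvPowerSeries.ringHom_apply, map_sum]
  refine sum_mem fun v _ => ?_
  rw [MvPolynomial.coeToMvPowerSeries.ringHom_apply,
    show MvPolynomial.monomial v (MvPolynomial.coeff v p) =
      MvPolynomial.C (MvPolynomial.coeff v p) * MvPolynomial.monomial v 1 by
      rw [MvPolynomial.C_mul_monomial, mul_one], MvPolynomial.coe_mul, MvPolynomial.coe_C]
  exact Ideal.mul_mem_right _ _ (Ideal.mem_map_of_mem _ (hp v))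

end Coef

section Point

variable {O : Type} [CommRing O] [IsDomain O] [IsDiscreteValuationRing O]
  [IsAdicComplete (maximalIdeal O) O] [Finite (ResidueField O)]
  {I S : Type} [Finite I] [Finite S] (P : I → FPlace O) (τ : I → FKind)
  (hτ : ∀ i, (P i).Valid (τ i))

/-- the matrices of a place in a moved chart -/
def movedPair {R : Type} [CommRing R] (Q : FPlace O) (κ : O →+* R) (r t : R) (y : Fin 3 → R) :
    FKind → Matrix (Fin 2) (Fin 2) R × Matrix (Fin 2) (Fin 2) R
  | .unr => placeChart Q κ y .unr
  | k => (Loc.readM ((FPlace.frame0 k).map κ) r t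
        (Loc.triM (κ (Q.sgn k)) (κ (Q.q : O)) (κ (Q.upper0 k) + y 1)),
      Loc.readM ((FPlace.frame0 k).map κ) r t (Loc.unipM (y 2)))

theorem map_movedPair {R R' : Type} [CommRing R] [CommRing R'] (f : R →+* R') (Q : FPlace O)
    (κ : O →+* R) (r t : R) (y : Fin 3 → R) {k : FKind} (hk : k ≠ .unr) :
    ((movedPair Q κ r t y k).1.map f, (movedPair Q κ r t y k).2.map f) =
      movedPair Q (f.comp κ) (f r) (f t) (fun j => f (y j)) k := by
  cases k
  · exact absurd rfl hk
  all_goals
    simp [movedPair, Loc.map_readM, Loc.map_triM, Loc.map_unipM, Matrix.map_map, Function.comp_def]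

variable {E : Type} [CommRing E] [IsDomain E] [IsLocalRing E] [IsAdicComplete (maximalIdeal E) E]
  [Finite (ResidueField E)] [Algebra O E] [IsLocalHom (algebraMap O E)]

include hτ in
/-- **points**: coordinates at every place suffice -/
theorem chartK_le_ker_of_coords (π : MvPowerSeries (PlaceVar I S) O →+* E)
    (hπC : ∀ c, π (MvPowerSeries.C c) = algebraMap O E c) (r t : I → E) (y : I → Fin 3 → E)
    (hy : ∀ i j, y i j ∈ maximalIdeal E)
    (hrt : ∀ i, τ i ≠ .unr → (P i).IsScalar (τ i) ∨ r i = 0 ∧ t i ∈ maximalIdeal E)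
    (hM : ∀ i, (fpFrob P i).map π = (movedPair (P i) (algebraMap O E) (r i) (t i) (y i) (τ i)).1 ∧
      (fpTame (O := O) i).map π = (movedPair (P i) (algebraMap O E) (r i) (t i) (y i) (τ i)).2) :
    chartK P τ hτ ≤ RingHom.ker π := by
  classical
  have hη : ∀ c ∈ maximalIdeal O, algebraMap O E c ∈ maximalIdeal E := fun c hc =>
    algebraMap_mem_maximal hc
  -- polynomial values
  let ηp : O →+* MvPolynomial I E := (MvPolynomial.C).comp (algebraMap O E)
  let Tp : I → MvPolynomial I E := fun i =>
    if (P i).IsScalar (τ i) then MvPolynomial.X i else MvPolynomial.C (t i)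
  let pm : I → Matrix (Fin 2) (Fin 2) (MvPolynomial I E) × Matrix (Fin 2) (Fin 2) (MvPolynomial I E) :=
    fun i => movedPair (P i) ηp (MvPolynomial.C (r i)) (Tp i) (fun j => MvPolynomial.C (y i j)) (τ i)
  let pv : PlaceVar I S → MvPolynomial I E := fun l => match l with
    | Sum.inl (i, s, a, b) =>
      if τ i = .unr then MvPolynomial.C (π (MvPowerSeries.X (Sum.inl (i, s, a, b))))
      else if s = 0 then ((pm i).1 - (P i).bF.map ηp) a b else ((pm i).2 - 1) a b
    | Sum.inr u => MvPolynomial.C (π (MvPowerSeries.X (Sum.inr u)))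
  -- their values at `t`
  have hev : ∀ l, MvPolynomial.eval t (pv l) = π (MvPowerSeries.X l) := by
    rintro (⟨i, s, a, b⟩ | u)
    swap
    · simp [pv]
    by_cases hu : τ i = .unr
    · simp [pv, hu]
    · have hc : (MvPolynomial.eval t).comp ηp = algebraMap O E := RingHom.ext fun c => by simp [ηp]
      have hT : MvPolynomial.eval t (Tp i) = t i := by
        simp only [Tp]; split <;> simp
      have h := map_movedPair (MvPolynomial.eval t) (P i) ηp (MvPolynomial.C (r i)) (Tp i)
        (fun j => MvPolynomial.C (y i j)) hu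
      simp only [hc, hT, MvPolynomial.eval_C] at h
      have h1 := congrFun (congrFun (congrArg Prod.fst h) a) b
      have h2 := congrFun (congrFun (congrArg Prod.snd h) a) b
      simp only [Matrix.map_apply] at h1 h2
      obtain ⟨hF, hS⟩ := map_fpFrob P π hπC i
      have e1 := congrFun (congrFun ((hM i).1.symm.trans hF) a) b
      have e2 := congrFun (congrFun ((hM i).2.symm.trans hS) a) b
      simp only [Matrix.add_apply, Matrix.map_apply, devP] at e1 e2
      simp only [pv, if_neg hu]
      fin_cases s <;> simp only [Fin.zero_eta, Fin.mk_one, Fin.isValue, one_ne_zero, if_true,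
        if_false, Matrix.sub_apply, Matrix.map_apply, map_sub]
      · rw [h1, e1, show MvPolynomial.eval t (ηp ((P i).bF a b)) = algebraMap O E ((P i).bF a b) by
          simp [ηp], add_sub_cancel_left]
      · rw [h2, e2]
        simp only [Matrix.one_apply]
        split <;> simp
  -- their coefficients are small
  have hsmall : ∀ l v, MvPolynomial.coeff v (pv l) ∈ maximalIdeal E := by
    have hC : ∀ c ∈ maximalIdeal E, ∀ v : I →₀ ℕ,
        MvPolynomial.coeff v (MvPolynomial.C c : MvPolynomial I E) ∈ maximalIdeal E := by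
      intro c hc v
      rw [MvPolynomial.coeff_C]
      split
      · exact hc
      · exact zero_mem _
    rintro (⟨i, s, a, b⟩ | u) v
    swap
    · exact hC _ (map_X_mem_maximalIdeal π _) v
    by_cases hu : τ i = .unr
    · simp only [pv, if_pos hu]
      exact hC _ (map_X_mem_maximalIdeal π _) v
    simp only [pv, if_neg hu]
    let φ : MvPolynomial I E →+* MvPolynomial I (ResidueField E) := MvPolynomial.map (residue E)
    suffices h : φ (if s = 0 then ((pm i).1 - (P i).bF.map ηp) a b else ((pm i).2 - 1) a b) = 0 by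
      have h' := congrArg (MvPolynomial.coeff v) h
      rwa [MvPolynomial.coeff_map, MvPolynomial.coeff_zero, residue_eq_zero_iff] at h'
    set ρ := φ.comp ηp with hρ
    have hρm : ∀ c ∈ maximalIdeal O, ρ c = 0 := fun c hc => by
      simp [hρ, φ, ηp, (residue_eq_zero_iff _).2 (hη c hc)]
    have hy0 : ∀ j, φ (MvPolynomial.C (y i j)) = 0 := fun j => by
      simp [φ, (residue_eq_zero_iff _).2 (hy i j)]
    have h := map_movedPair φ (P i) ηp (MvPolynomial.C (r i)) (Tp i)
      (fun j => MvPolynomial.C (y i j)) hu
    simp only [hy0, ← hρ] at h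
    have hu0 : ∀ (P₀ : Matrix (Fin 2) (Fin 2) (MvPolynomial I (ResidueField E)))
        (r' t' : MvPolynomial I (ResidueField E)), P₀ * P₀ = 1 →
        Loc.readM P₀ r' t' (Loc.unipM 0) = 1 := fun P₀ r' t' hP => by
      rw [show Loc.unipM (0 : MvPolynomial I (ResidueField E)) = 1 by
        ext a b; fin_cases a <;> fin_cases b <;> simp [Loc.unipM], Loc.readM_one hP]
    have hval : (movedPair (P i) ρ (φ (MvPolynomial.C (r i))) (φ (Tp i))
        (fun _ => (0 : MvPolynomial I (ResidueField E))) (τ i)).1 = (P i).bF.map ρ ∧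
      (movedPair (P i) ρ (φ (MvPolynomial.C (r i))) (φ (Tp i))
        (fun _ => (0 : MvPolynomial I (ResidueField E))) (τ i)).2 = 1 := by
      by_cases hsc : (P i).IsScalar (τ i)
      · have hup : ρ ((P i).upper0 (τ i)) = 0 := by rw [(P i).scalar_upper hsc, map_zero]
        obtain ⟨hst, hq, hb⟩ := hsc
        have hq' : ρ ((P i).w * ((P i).q : O)) = ρ (P i).w := by
          rw [← sub_eq_zero, ← map_sub,
            show (P i).w * ((P i).q : O) - (P i).w = (P i).w * (((P i).q : O) - 1) by ring]
          exact hρm _ (Ideal.mul_mem_left _ _ hq)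
        have hP : ((FPlace.frame0 (τ i)).map ρ) * ((FPlace.frame0 (τ i)).map ρ) = 1 :=
          frame0_map_sq ρ (τ i)
        rw [hst] at hup hP ⊢
        refine ⟨?_, by simp only [movedPair]; exact hu0 _ _ _ hP⟩
        simp only [movedPair, hup, add_zero]
        rw [show Loc.triM (ρ ((P i).sgn .st)) (ρ ((P i).q : O)) 0 = ρ (P i).w •
            (1 : Matrix (Fin 2) (Fin 2) (MvPolynomial I (ResidueField E))) by
          rw [show (P i).sgn .st = (P i).w from rfl]
          ext a b
          fin_cases a <;> fin_cases b <;> simp [Loc.triM]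
          rw [map_mul, map_natCast] at hq'
          rw [hq'],
          hb]
        simp only [Loc.readM, Matrix.mul_smul, Matrix.smul_mul, Matrix.mul_one]
        rw [show (FPlace.frame0 (O := O) .st).map ρ = 1 by simp [FPlace.frame0, Matrix.map_one]]
        rw [Matrix.one_mul, Matrix.mul_one, Matrix.mul_assoc (Loc.shearM _) (Loc.lowM _),
          Loc.lowM_mul_neg, Matrix.mul_one, Loc.shearM_mul_neg]
        ext a b
        by_cases hab : a = b <;> simp [hab]
      · obtain ⟨hr, ht⟩ := (hrt i hu).resolve_left hsc
        have hT : φ (Tp i) = 0 := by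
          simp only [Tp, if_neg hsc]
          simp [φ, (residue_eq_zero_iff _).2 ht]
        have hb := fun a b => hρm _ ((P i).tri_base (τ i) (hτ i) hu a b)
        have hr0 : φ (MvPolynomial.C (r i)) = 0 := by rw [hr]; simp
        rw [hr0, hT]
        have h2 := Loc.map_readM (P₀ := FPlace.frame0 (τ i)) (r := (0 : O)) (t := (0 : O)) ρ
          (Loc.triM ((P i).sgn (τ i)) ((P i).q : O) ((P i).upper0 (τ i)))
        rw [Loc.map_triM, map_zero] at h2
        revert hb hu h2
        cases τ i <;> intro hu hb h2
        · exact absurd rfl hu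
        all_goals
          refine ⟨?_, hu0 _ _ _ (frame0_map_sq ρ _)⟩
          simp only [movedPair, add_zero]
          refine Matrix.ext fun a b => ?_
          have h1 := hb a b
          have h2' := congrFun (congrFun h2 a) b
          rw [Matrix.map_apply] at h2'
          rw [Matrix.sub_apply, map_sub, sub_eq_zero, h2'] at h1
          rw [Matrix.map_apply]
          exact h1
    have h1 := congrFun (congrFun ((congrArg Prod.fst h).trans hval.1) a) b
    have h2 := congrFun (congrFun ((congrArg Prod.snd h).trans hval.2) a) b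
    simp only [Matrix.map_apply] at h1 h2
    split <;> rw [Matrix.sub_apply, map_sub, sub_eq_zero]
    · rw [h1]
      rfl
    · rw [h2]
      simp only [Matrix.one_apply]
      split <;> simp
  -- the continuation of the chart
  let ι' : MvPolynomial I E →+* MvPowerSeries I E := MvPolynomial.coeToMvPowerSeries.ringHom
  let T' : I → MvPowerSeries I E := fun i =>
    if (P i).IsScalar (τ i) then MvPowerSeries.X i
    else if τ i = .unr then 0 else MvPowerSeries.C (t i)
  let A : I → MvPowerSeries I E := fun i => 1 + MvPowerSeries.C (r i) * T' i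
  let κ' : O →+* MvPowerSeries I E := (MvPowerSeries.C).comp (algebraMap O E)
  let z : LocVar I S → MvPowerSeries I E := Sum.elim
    (fun p => if τ p.1 = .unr then MvPowerSeries.C (y p.1 p.2) else
      ![T' p.1 * Ring.inverse (A p.1),
        A p.1 * (A p.1 * (κ' ((P p.1).upper0 (τ p.1)) + MvPowerSeries.C (y p.1 1)) -
          MvPowerSeries.C (r p.1) * (κ' ((P p.1).sgn (τ p.1)) * (κ' ((P p.1).q : O) - 1))) -
          κ' ((P p.1).upper0 (τ p.1)),
        A p.1 * A p.1 * MvPowerSeries.C (y p.1 2)] p.2)
    fun u => MvPowerSeries.C (π (MvPowerSeries.X (Sum.inr u)))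
  have hCm : ∀ c ∈ maximalIdeal E, (MvPowerSeries.C c : MvPowerSeries I E) ∈
      maximalIdeal (MvPowerSeries I E) := fun c hc => by
    rw [IsLocalRing.mem_maximalIdeal, mem_nonunits_iff, MvPowerSeries.isUnit_iff_constantCoeff,
      MvPowerSeries.constantCoeff_C]
    exact hc
  have hT'm : ∀ i, T' i ∈ maximalIdeal (MvPowerSeries I E) := by
    intro i
    simp only [T']
    split
    · simp [IsLocalRing.mem_maximalIdeal, mem_nonunits_iff, MvPowerSeries.isUnit_iff_constantCoeff]
    · split
      · exact zero_mem _
      · next hns hu => exact hCm _ ((hrt i hu).resolve_left hns).2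
  have hA : ∀ i, IsUnit (A i) := fun i =>
    isUnit_add_of_mem isUnit_one (Ideal.mul_mem_left _ _ (hT'm i))
  have hz : ∀ l, z l ^ 1 ∈ maximalIdeal (MvPowerSeries I E) := by
    intro l
    rw [pow_one]
    rcases l with ⟨i, j⟩ | u
    swap
    · exact hCm _ (map_X_mem_maximalIdeal π _)
    simp only [z, Sum.elim_inl]
    split
    · exact hCm _ (hy i j)
    next hu =>
      fin_cases j
      · exact Ideal.mul_mem_right _ _ (hT'm i)
      · simp only [Fin.mk_one, Matrix.cons_val_one, Matrix.cons_val_zero]
        rcases hrt i hu with hsc | ⟨hr, -⟩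
        · rw [(P i).scalar_upper hsc, map_zero, zero_add, sub_zero]
          refine Ideal.mul_mem_left _ _ (sub_mem (Ideal.mul_mem_left _ _ (hCm _ (hy i 1)))
            (Ideal.mul_mem_left _ _ (Ideal.mul_mem_left _ _ ?_)))
          rw [← map_one κ', ← map_sub]
          exact hCm _ (hη _ hsc.2.1)
        · have hA1 : A i = 1 := by simp [A, hr]
          rw [hA1, hr, map_zero, zero_mul, sub_zero, one_mul, one_mul, add_sub_cancel_left]
          exact hCm _ (hy i 1)
      · exact Ideal.mul_mem_left _ _ (hCm _ (hy i 2))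
  let θ : MvPowerSeries (LocVar I S) O →+* MvPowerSeries I E :=
    evalHom (O := O) (maximalIdeal (MvPowerSeries I E)) z 1 hz
  have hθC : θ.comp MvPowerSeries.C = κ' := RingHom.ext fun c => by
    refine (evalHom_C _ hz c).trans ?_
    rw [MvPowerSeries.algebraMap_apply]
    rfl
  have hθX : ∀ l, θ (MvPowerSeries.X l) = z l := fun l => evalHom_X _ hz l
  have hι : ι'.comp ηp = κ' := RingHom.ext fun c => by simp [ι', ηp, κ']
  have hΘX : ∀ l, θ (chartHom P τ hτ (MvPowerSeries.X l)) = ι' (pv l) := by
    intro l
    rw [chartHom_X, map_chartValue P θ _ τ _ _ (fun i _ => chartVar_unit P i), hθC]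
    rcases l with ⟨i, s, a, b⟩ | u
    swap
    · simp [chartValue, pv, hθX, z, ι']
    simp only [hθX]
    by_cases hu : τ i = .unr
    · simp only [pv, if_pos hu, chartValue, z, Sum.elim_inl, hu, if_true]
      have hpm := map_placeChart (P i) (MvPowerSeries.C (σ := I) (R := E)) (algebraMap O E) (y i) .unr
        (fun _ => isUnit_add_of_mem ((P i).isUnit_bF00.map _) (hy i 0))
      have h1 := congrFun (congrFun (congrArg Prod.fst hpm) a) b
      have h2 := congrFun (congrFun (congrArg Prod.snd hpm) a) b
      obtain ⟨hF, hS⟩ := map_fpFrob P π hπC i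
      have hMi := hM i
      rw [hu] at hMi
      simp only [movedPair] at hMi
      have e1 := congrFun (congrFun (hMi.1.symm.trans hF) a) b
      have e2 := congrFun (congrFun (hMi.2.symm.trans hS) a) b
      simp only [Matrix.add_apply, Matrix.map_apply, devP] at e1 e2 h1 h2
      rw [show ι' (MvPolynomial.C (π (MvPowerSeries.X (Sum.inl (i, s, a, b))))) =
        MvPowerSeries.C (π (MvPowerSeries.X (Sum.inl (i, s, a, b)))) by simp [ι']]
      fin_cases s <;> simp only [Fin.zero_eta, Fin.mk_one, Fin.isValue, one_ne_zero, if_true,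
        if_false, Matrix.sub_apply, Matrix.map_apply] at e1 e2 ⊢
      · rw [← h1, e1, map_add, show κ' ((P i).bF a b) =
          MvPowerSeries.C (algebraMap O E ((P i).bF a b)) from rfl, add_sub_cancel_left]
      · rw [← h2, e2, map_add]
        simp only [Matrix.one_apply]
        split <;> simp
    · have hpm := map_movedPair ι' (P i) ηp (MvPolynomial.C (r i)) (Tp i)
        (fun j => MvPolynomial.C (y i j)) hu
      have hTp : ι' (Tp i) = T' i := by
        simp only [Tp, T', hu, if_false]
        split <;> simp [ι']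
      simp only [hι, hTp] at hpm
      have hshift := Loc.readM_shift (P₀ := (FPlace.frame0 (τ i)).map κ') (r := MvPowerSeries.C (r i))
        (t := T' i) (t₀ := T' i * Ring.inverse (A i)) (a := A i) (i := Ring.inverse (A i))
        (ε := κ' ((P i).sgn (τ i))) (q := κ' ((P i).q : O))
        (γ := κ' ((P i).upper0 (τ i)) + MvPowerSeries.C (y i 1))
        (Ring.mul_inverse_cancel _ (hA i)) rfl rfl
      have hpc : placeChart (P i) κ' (fun j => z (Sum.inl (i, j))) (τ i) =
          movedPair (P i) κ' (MvPowerSeries.C (r i)) (T' i) (fun j => MvPowerSeries.C (y i j)) (τ i) := by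
        revert hshift hu
        simp only [z, Sum.elim_inl]
        cases τ i <;> intro hu hshift
        · exact absurd rfl hu
        all_goals
          simp only [reduceCtorEq, if_false, placeChart, movedPair, Matrix.cons_val_zero,
            Matrix.cons_val_one, Matrix.cons_val, Fin.isValue, add_sub_cancel]
          rw [← hshift.1, ← hshift.2]
      have hι' : (fun j => ι' (MvPolynomial.C (y i j))) = fun j => MvPowerSeries.C (y i j) := by
        funext j; simp [ι']
      have hιr : ι' (MvPolynomial.C (r i)) = MvPowerSeries.C (r i) := by simp [ι']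
      rw [hι', hιr] at hpm
      have h1 := congrFun (congrFun (congrArg Prod.fst hpm) a) b
      have h2 := congrFun (congrFun (congrArg Prod.snd hpm) a) b
      simp only [Matrix.map_apply] at h1 h2
      simp only [chartValue, pv, if_neg hu, hpc]
      fin_cases s <;> simp only [Fin.zero_eta, Fin.mk_one, Fin.isValue, one_ne_zero, if_true,
        if_false, Matrix.sub_apply, Matrix.map_apply, map_sub, pm]
      · rw [h1, show ι' (ηp ((P i).bF a b)) = κ' ((P i).bF a b) from RingHom.congr_fun hι _]
      · rw [h2]
        simp only [Matrix.one_apply]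
        split <;> simp
  intro f hf
  rw [RingHom.mem_ker]
  refine IsHausdorff.haus (I := maximalIdeal E) inferInstance _ fun n => ?_
  rw [SModEq.zero, smul_eq_mul, Ideal.mul_top]
  set p := MvPowerSeries.truncTotal n f
  have hdiff : f - (p : MvPowerSeries (PlaceVar I S) O) ∈ Ideal.span
      (Set.range (MvPowerSeries.X : PlaceVar I S → MvPowerSeries (PlaceVar I S) O)) ^ n :=
    mem_span_X_pow fun v hv => by
      rw [map_sub, MvPolynomial.coeff_coe, MvPowerSeries.coeff_truncTotal _ hv, sub_self]
  have key : ∀ {R : Type} [CommRing R] (φ : MvPowerSeries (PlaceVar I S) O →+* R) (J : Ideal R),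
      (∀ l, φ (MvPowerSeries.X l) ∈ J) → φ (f - (p : MvPowerSeries (PlaceVar I S) O)) ∈ J ^ n := by
    intro R _ φ J hJ
    have hle : (Ideal.span (Set.range
        (MvPowerSeries.X : PlaceVar I S → MvPowerSeries (PlaceVar I S) O))).map φ ≤ J := by
      rw [Ideal.map_le_iff_le_comap, Ideal.span_le]
      rintro _ ⟨l, rfl⟩
      exact hJ l
    refine Ideal.pow_right_mono hle n ?_
    rw [← Ideal.map_pow]
    exact Ideal.mem_map_of_mem _ hdiff
  set Θ := θ.comp (chartHom (S := S) P τ hτ)
  let Pp := MvPolynomial.eval₂Hom ηp pv p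
  have hΘp : Θ (p : MvPowerSeries (PlaceVar I S) O) = ι' Pp := by
    have h : Θ.comp MvPolynomial.coeToMvPowerSeries.ringHom = ι'.comp (MvPolynomial.eval₂Hom ηp pv) := by
      refine MvPolynomial.ringHom_ext (fun c => ?_) (fun l => ?_)
      · simp only [RingHom.comp_apply, MvPolynomial.coeToMvPowerSeries.ringHom_apply,
          MvPolynomial.coe_C, Θ, chartHom_C, MvPolynomial.eval₂Hom_C]
        exact (RingHom.congr_fun hθC c).trans (RingHom.congr_fun hι c).symm
      · simp only [RingHom.comp_apply, MvPolynomial.coeToMvPowerSeries.ringHom_apply,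
          MvPolynomial.coe_X, Θ, MvPolynomial.eval₂Hom_X', hΘX]
    exact RingHom.congr_fun h p
  have hπp : π (p : MvPowerSeries (PlaceVar I S) O) = MvPolynomial.eval t Pp := by
    have h : π.comp MvPolynomial.coeToMvPowerSeries.ringHom =
        (MvPolynomial.eval t).comp (MvPolynomial.eval₂Hom ηp pv) := by
      refine MvPolynomial.ringHom_ext (fun c => ?_) (fun l => ?_)
      · simp [hπC, ηp]
      · simp [hev]
    exact RingHom.congr_fun h p
  have h0 : Θ f = 0 := by simp [Θ, RingHom.mem_ker.1 hf]
  have hJ := key Θ ((maximalIdeal E).map (MvPowerSeries.C (σ := I) (R := E))) fun l => by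
    simp only [Θ, RingHom.comp_apply, hΘX]
    exact coe_mem_map (hsmall l)
  rw [map_sub, h0, zero_sub, neg_mem_iff, hΘp, ← Ideal.map_pow] at hJ
  have hcoef : ∀ v, MvPolynomial.coeff v Pp ∈ maximalIdeal E ^ n := fun v => by
    have h := coeff_mem_map hJ v
    rwa [show MvPowerSeries.coeff v (ι' Pp) = MvPolynomial.coeff v Pp from
      MvPolynomial.coeff_coe _ _] at h
  have h1 := eval_mem_of_coeff hcoef t
  rw [← hπp] at h1
  have h2 := key π (maximalIdeal E) fun l => map_X_mem_maximalIdeal π l
  rw [map_sub] at h2
  simpa using add_mem h2 h1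

end Point

end FLTAgent.MLT
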