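import Fermat.Agent.MLT.Patch.LocChart

/-!
Area MLT, parcel LOC: the components are told apart on any chart with some coordinates set to zero,
and setting one coordinate to zero is the same before and after the chart.
-/

set_option autoImplicit false
set_option linter.style.haveILetI false
set_option linter.unusedSectionVars false

noncomputable section

namespace FLTAgent.MLT

open IsLocalRing Matrix FLTAgent.LL

variable {O : Type} [CommRing O] [IsDomain O] [IsDiscreteValuationRing O]
  [IsAdicComplete (maximalIdeal O) O] [Finite (ResidueField O)]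

section Kill

variable {σ : Type} [Finite σ] (Z : Set σ)

open scoped Classical in
/-- the coordinates of `Z` set to zero -/
def killVar : MvPowerSeries σ O →+* MvPowerSeries σ O :=
  evalHom (O := O) (maximalIdeal (MvPowerSeries σ O))
    (fun l => if l ∈ Z then 0 else MvPowerSeries.X l) 1 fun l => by
      rw [pow_one]
      split
      · exact zero_mem _
      · exact X_mem_maximalIdeal l

theorem killVar_C (c : O) : killVar Z (MvPowerSeries.C c) = MvPowerSeries.C c := by
  refine (evalHom_C _ _ c).trans ?_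
  rw [MvPowerSeries.algebraMap_apply, Algebra.algebraMap_self_apply]

theorem killVar_X_of_mem {l : σ} (h : l ∈ Z) :
    killVar (O := O) Z (MvPowerSeries.X l) = 0 :=
  (evalHom_X _ _ l).trans (if_pos h)

theorem killVar_X_of_notMem {l : σ} (h : l ∉ Z) :
    killVar (O := O) Z (MvPowerSeries.X l) = MvPowerSeries.X l :=
  (evalHom_X _ _ l).trans (if_neg h)

theorem killVar_X_mem (l : σ) :
    killVar (O := O) Z (MvPowerSeries.X l) ∈ maximalIdeal (MvPowerSeries σ O) := by
  by_cases h : l ∈ Z
  · rw [killVar_X_of_mem Z h]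
    exact zero_mem _
  · rw [killVar_X_of_notMem Z h]
    exact X_mem_maximalIdeal l

/-- setting one coordinate to zero changes a series by a multiple of it -/
theorem killVar_sub_mem (l : σ) (f : MvPowerSeries σ O) :
    f - killVar {l} f ∈ Ideal.span {(MvPowerSeries.X l : MvPowerSeries σ O)} := by
  set J := Ideal.span {(MvPowerSeries.X l : MvPowerSeries σ O)}
  have hJ : J ≠ ⊤ := fun h => by
    have h1 : (1 : MvPowerSeries σ O) ∈ J := h ▸ Submodule.mem_top
    have hle : J ≤ maximalIdeal (MvPowerSeries σ O) := by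
      rw [Ideal.span_le, Set.singleton_subset_iff]
      exact X_mem_maximalIdeal l
    exact (IsLocalRing.mem_maximalIdeal _).1 (hle h1) isUnit_one
  haveI : Nontrivial (MvPowerSeries σ O ⧸ J) := Ideal.Quotient.nontrivial_iff.2 hJ
  haveI : IsLocalRing (MvPowerSeries σ O ⧸ J) :=
    IsLocalRing.of_surjective' (Ideal.Quotient.mk J) Ideal.Quotient.mk_surjective
  haveI : IsHausdorff (maximalIdeal (MvPowerSeries σ O ⧸ J)) (MvPowerSeries σ O ⧸ J) := by
    refine ⟨fun x hx => ?_⟩
    have h : x ∈ ⨅ i, maximalIdeal (MvPowerSeries σ O ⧸ J) ^ i := (Submodule.mem_iInf _).2 fun i => by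
      simpa [SModEq.zero] using hx i
    rw [Ideal.iInf_pow_eq_bot_of_isLocalRing _ (IsLocalRing.maximalIdeal.isMaximal _).ne_top] at h
    exact h
  have hh : (Ideal.Quotient.mk J).comp (killVar {l}) = Ideal.Quotient.mk J := by
    refine hom_ext_adic (maximalIdeal (MvPowerSeries σ O ⧸ J)) (fun c => ?_) (fun j => ?_) (fun j => ?_)
    · rw [RingHom.comp_apply, killVar_C]
    · rw [RingHom.comp_apply]
      by_cases h : j ∈ ({l} : Set σ)
      · rw [killVar_X_of_mem _ h, map_zero, eq_comm, Ideal.Quotient.eq_zero_iff_mem]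
        rw [Set.mem_singleton_iff.1 h]
        exact Ideal.mem_span_singleton_self _
      · rw [killVar_X_of_notMem _ h]
    · rw [RingHom.comp_apply, IsLocalRing.mem_maximalIdeal, mem_nonunits_iff]
      intro hu
      haveI : IsLocalHom (Ideal.Quotient.mk J) :=
        IsLocalHom.of_surjective (Ideal.Quotient.mk J) Ideal.Quotient.mk_surjective
      exact (IsLocalRing.mem_maximalIdeal _).1 (killVar_X_mem {l} j) (isUnit_of_map_unit _ _ hu)
  rw [← Ideal.Quotient.eq]
  exact (RingHom.congr_fun hh f).symm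

end Kill

variable {I S : Type} [Finite I] [Finite S] (P : I → FPlace O) (τ : I → FKind)
  (hτ : ∀ i, (P i).Valid (τ i)) (Z : Set (LocVar I S))

/-- a chart with some coordinates set to zero -/
def killChart : MvPowerSeries (PlaceVar I S) O →+* MvPowerSeries (LocVar I S) O :=
  (killVar Z).comp (chartHom P τ hτ)

theorem killChart_C (c : O) : killChart P τ hτ Z (MvPowerSeries.C c) = MvPowerSeries.C c := by
  rw [killChart, RingHom.comp_apply, chartHom_C, killVar_C]

theorem killChart_X (l : PlaceVar I S) : killChart P τ hτ Z (MvPowerSeries.X l) =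
    chartValue P MvPowerSeries.C τ (fun i r => killVar Z (MvPowerSeries.X (Sum.inl (i, r))))
      (fun t => killVar Z (MvPowerSeries.X (Sum.inr t))) l := by
  rw [killChart, RingHom.comp_apply, chartHom_X]
  refine (map_chartValue P (killVar Z) MvPowerSeries.C τ
    (fun i r => MvPowerSeries.X (Sum.inl (i, r))) (fun t => MvPowerSeries.X (Sum.inr t))
    (fun i _ => chartVar_unit P i) l).trans ?_
  congr 1
  exact RingHom.ext fun c => killVar_C Z c

theorem killChart_rel {f : MvPowerSeries (PlaceVar I S) O} (hf : f ∈ fpRel P) :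
    killChart P τ hτ Z f = 0 := by
  rw [killChart, RingHom.comp_apply, chartHom_rel P τ hτ f hf, map_zero]

theorem killChart_mat (i : I) :
    (fpFrob P i).map (killChart P τ hτ Z) = (placeChart (P i) MvPowerSeries.C
      (fun r => killVar Z (MvPowerSeries.X (Sum.inl (i, r)))) (τ i)).1 ∧
    (fpTame (O := O) i).map (killChart P τ hτ Z) = (placeChart (P i) MvPowerSeries.C
      (fun r => killVar Z (MvPowerSeries.X (Sum.inl (i, r)))) (τ i)).2 :=
  chartValue_mat P (killChart P τ hτ Z) (killChart_C P τ hτ Z) (killChart_X P τ hτ Z) i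

theorem killChart_trace {i : I} (hne : τ i ≠ .unr) :
    ((fpFrob P i).map (killChart P τ hτ Z)).trace =
      MvPowerSeries.C ((P i).sgn (τ i) * (1 + ((P i).q : O))) := by
  rw [(killChart_mat P τ hτ Z i).1]
  exact (placeChart_rel (P i) _ _ (τ i) (fun h => absurd h hne)).2.2.2.2 hne

/-- off the unramified component the tame generator moves -/
theorem exists_fpUnr_ne {i : I} (hne : τ i ≠ .unr) (hZ : Sum.inl (i, 2) ∉ Z) :
    ∃ f ∈ fpUnr i, killChart P τ hτ Z f ≠ 0 := by
  by_contra h
  push Not at h
  set Φ := killChart (S := S) P τ hτ Z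
  have h1 : (devP (O := O) (S := S) i 1).map Φ = 0 := Matrix.ext fun a b => h _ ⟨(a, b), rfl⟩
  have h2 : (fpTame (O := O) i).map Φ = 1 := by
    rw [(map_fpFrob P Φ (κ := MvPowerSeries.C) (killChart_C P τ hτ Z) i).2, h1, add_zero]
  rw [(killChart_mat P τ hτ Z i).2] at h2
  obtain ⟨k, hk⟩ : ∃ k, τ i = k := ⟨_, rfl⟩
  rw [hk] at hne h2
  have h3 : ∀ (P₀ : Matrix (Fin 2) (Fin 2) (MvPowerSeries (LocVar I S) O))
      (t β : MvPowerSeries (LocVar I S) O), P₀ * P₀ = 1 →
      Loc.readM P₀ 0 t (Loc.unipM β) = 1 → β = 0 := by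
    intro P₀ t β hP e
    have e' : Loc.unipM β = 1 := by
      simp only [Loc.readM, neg_zero, Loc.shearM_zero, Matrix.mul_one] at e
      have e'' := congrArg (fun A => Loc.lowM (-t) * (P₀ * A * P₀) * Loc.lowM t) e
      simp only [Matrix.mul_assoc, Matrix.mul_one, hP, Matrix.one_mul] at e''
      simp only [← Matrix.mul_assoc, hP, Matrix.one_mul, Loc.lowM_neg_mul] at e''
      simpa [Matrix.mul_assoc, Loc.lowM_neg_mul, hP] using e''
    simpa [Loc.unipM] using congrFun (congrFun e' 0) 1
  have hβ : killVar (O := O) Z (MvPowerSeries.X (Sum.inl (i, 2))) = 0 := by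
    cases k
    · exact absurd rfl hne
    all_goals exact h3 _ _ _ (frame0_map_sq _ _) h2
  rw [killVar_X_of_notMem Z hZ] at hβ
  classical
  simpa [MvPowerSeries.coeff_X] using
    congrArg (MvPowerSeries.coeff (Finsupp.single (Sum.inl (i, 2) : LocVar I S) 1)) hβ

theorem fpQuart_eq (i : I) : fpQuart (S := S) P i = fpSt P i * fpOpp P i := by
  rw [fpQuart, fpSt, fpOpp]
  have h : (MvPowerSeries.C ((P i).w * (1 + ((P i).q : O))) : MvPowerSeries (PlaceVar I S) O) *
      MvPowerSeries.C ((P i).w * (1 + ((P i).q : O))) =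
      MvPowerSeries.C ((1 + ((P i).q : O)) ^ 2) := by
    rw [← map_mul]
    congr 1
    linear_combination (1 + ((P i).q : O)) ^ 2 * (P i).hw
  linear_combination h

theorem killChart_quart_eq {i : I} (hne : τ i ≠ .unr) : killChart P τ hτ Z (fpQuart P i) = 0 := by
  rw [fpQuart, map_sub, map_pow, map_trace_two, killChart_trace P τ hτ Z hne, killChart_C,
    ← map_pow, ← map_sub]
  have h : ((P i).sgn (τ i) * (1 + ((P i).q : O))) ^ 2 - (1 + ((P i).q : O)) ^ 2 = 0 := by
    linear_combination (1 + ((P i).q : O)) ^ 2 * (P i).sgn_sq (τ i)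
  rw [h, map_zero]

/-- on the unramified component the quartic does not vanish -/
theorem quart_ne_of_unr {i : I} (hu : τ i = .unr) (hZ : Sum.inl (i, 0) ∉ Z) :
    killChart P τ hτ Z (fpQuart P i) ≠ 0 := by
  classical
  intro h
  set Z' : Set (LocVar I S) := {Sum.inl (i, 0)}ᶜ
  set Φ := killChart (S := S) P τ hτ Z
  have hA : IsUnit (MvPowerSeries.C ((P i).bF 0 0) + MvPowerSeries.X (Sum.inl (i, 0)) :
      MvPowerSeries (LocVar I S) O) := chartVar_unit P i
  have hA' : IsUnit (MvPowerSeries.C ((P i).bF 0 0) +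
      killVar Z (MvPowerSeries.X (Sum.inl (i, 0))) : MvPowerSeries (LocVar I S) O) := by
    rw [killVar_X_of_notMem Z hZ]; exact hA
  obtain ⟨a, ha⟩ : ∃ a : MvPowerSeries (LocVar I S) O,
      a = MvPowerSeries.C ((P i).bF 0 0) + MvPowerSeries.X (Sum.inl (i, 0)) := ⟨_, rfl⟩
  have hk1 : killVar Z' (killVar (O := O) Z (MvPowerSeries.X (Sum.inl (i, 1)))) = 0 := by
    by_cases hm : (Sum.inl (i, 1) : LocVar I S) ∈ Z
    · rw [killVar_X_of_mem Z hm, map_zero]
    · rw [killVar_X_of_notMem Z hm, killVar_X_of_mem Z' (by simp [Z', Prod.ext_iff])]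
  have hk2 : killVar Z' (killVar (O := O) Z (MvPowerSeries.X (Sum.inl (i, 2)))) = 0 := by
    by_cases hm : (Sum.inl (i, 2) : LocVar I S) ∈ Z
    · rw [killVar_X_of_mem Z hm, map_zero]
    · rw [killVar_X_of_notMem Z hm, killVar_X_of_mem Z' (by simp [Z', Prod.ext_iff])]
  have hk0 : killVar Z' (killVar (O := O) Z (MvPowerSeries.X (Sum.inl (i, 0)))) =
      MvPowerSeries.X (Sum.inl (i, 0)) := by
    rw [killVar_X_of_notMem Z hZ, killVar_X_of_notMem Z' (by simp [Z'])]
  have hF := (killChart_mat P τ hτ Z i).1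
  rw [hu] at hF
  have hmap := map_placeChart (P i) (killVar Z') MvPowerSeries.C
    (fun r => killVar Z (MvPowerSeries.X (Sum.inl (i, r)))) .unr (fun _ => hA')
  have hκ : (killVar Z').comp MvPowerSeries.C =
      (MvPowerSeries.C : O →+* MvPowerSeries (LocVar I S) O) :=
    RingHom.ext fun c => killVar_C Z' c
  have hT : killVar Z' ((fpFrob P i).map Φ).trace =
      a + MvPowerSeries.C ((P i).q : O) * Ring.inverse a := by
    rw [map_trace_two, hF]
    have h1 := congrArg Prod.fst hmap
    simp only at h1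
    rw [h1, hκ, Matrix.trace_fin_two]
    simp only [placeChart, hk0, hk1, hk2, (P i).bF10, map_zero, add_zero, mul_zero, ← ha,
      Matrix.of_apply, Matrix.cons_val', Matrix.cons_val_zero, Matrix.cons_val_one,
      Matrix.cons_val_fin_one]
  have hz : killVar Z' (Φ (fpQuart P i)) = 0 := by rw [h, map_zero]
  have hΦT : Φ (fpFrob P i).trace = ((fpFrob P i).map Φ).trace := map_trace_two Φ _
  rw [fpQuart, map_sub, map_pow, map_sub, map_pow, hΦT, hT, killChart_C, killVar_C] at hz
  have hau : IsUnit a := ha ▸ hA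
  have hz2 : (a * a - 1) * (a * a - MvPowerSeries.C (((P i).q : O) ^ 2)) = 0 := by
    have e := Ring.mul_inverse_cancel _ hau
    simp only [map_pow, map_add, map_one] at hz ⊢
    linear_combination a * a * hz -
      MvPowerSeries.C ((P i).q : O) * (2 * (a * a) + MvPowerSeries.C ((P i).q : O) *
        (a * Ring.inverse a + 1)) * e
  have key : ∀ c : O, a * a - MvPowerSeries.C c ≠ 0 := by
    intro c e
    have e3 : a * a - MvPowerSeries.C c = MvPowerSeries.X (Sum.inl (i, 0)) ^ 2 +
        (MvPowerSeries.C (2 * (P i).bF 0 0) * MvPowerSeries.X (Sum.inl (i, 0)) +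
          MvPowerSeries.C ((P i).bF 0 0 * (P i).bF 0 0 - c)) := by
      rw [ha]
      simp only [map_sub, map_mul, map_ofNat]
      ring
    have h2 := congrArg (MvPowerSeries.coeff (Finsupp.single (Sum.inl (i, 0) : LocVar I S) 2)) e
    rw [e3, map_add, map_add, MvPowerSeries.coeff_C_mul, MvPowerSeries.coeff_X_pow, if_pos rfl,
      MvPowerSeries.coeff_X, if_neg (by simp [Finsupp.single_eq_single_iff]), MvPowerSeries.coeff_C,
      if_neg (by simp), mul_zero, add_zero, add_zero, map_zero] at h2
    exact one_ne_zero h2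
  rcases mul_eq_zero.1 hz2 with h1 | h1
  · exact key 1 (by rw [map_one]; exact h1)
  · exact key _ h1

variable [CharZero O]

/-- the two signs differ -/
theorem killChart_sign_ne (i : I) :
    (τ i = .st → killChart P τ hτ Z (fpOpp P i) ≠ 0) ∧
      (τ i = .opp → killChart P τ hτ Z (fpSt P i) ≠ 0) := by
  have hne : (2 : O) * (P i).w * (1 + ((P i).q : O)) ≠ 0 :=
    mul_ne_zero (mul_ne_zero (P i).htwo.ne_zero (P i).hw_unit.ne_zero)
      (by
        have : ((1 + (P i).q : ℕ) : O) ≠ 0 := Nat.cast_ne_zero.2 (by omega)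
        push_cast at this
        exact this)
  have hC : ∀ c : O, c ≠ 0 → (MvPowerSeries.C c : MvPowerSeries (LocVar I S) O) ≠ 0 := fun c hc e =>
    hc (by simpa using congrArg MvPowerSeries.constantCoeff e)
  constructor <;> intro h
  · rw [fpOpp, map_add, map_trace_two, killChart_trace P τ hτ Z (by rw [h]; decide), killChart_C, h,
      ← map_add]
    refine hC _ ?_
    simp only [FPlace.sgn]
    intro e
    exact hne (by linear_combination e)
  · rw [fpSt, map_sub, map_trace_two, killChart_trace P τ hτ Z (by rw [h]; decide), killChart_C, h,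
      ← map_sub]
    refine hC _ ?_
    simp only [FPlace.sgn]
    intro e
    exact hne (by linear_combination -e)

end FLTAgent.MLT
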