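import Fermat.Agent.MLT.Patch.LocChart

/-!
Area MLT, parcel LOC: the shape of a point at one place, in a discrete valuation ring.
-/

set_option autoImplicit false
set_option linter.style.haveILetI false
set_option linter.unusedSectionVars false

noncomputable section

namespace FLTAgent.MLT

open IsLocalRing Matrix FLTAgent.LL

section Shape

variable {O : Type} [CommRing O] [IsLocalRing O] (P : FPlace O)
  {E : Type} [CommRing E] [IsDomain E] [IsDiscreteValuationRing E] (κ : O →+* E)

/-- residual Frobenius scalar on the component -/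
def FPlace.IsScalar (τ : FKind) : Prop :=
  τ = .st ∧ (P.q : O) - 1 ∈ maximalIdeal O ∧ P.bF = P.w • (1 : Matrix (Fin 2) (Fin 2) O)

theorem FPlace.scalar_upper {τ : FKind} (h : P.IsScalar τ) : P.upper0 τ = 0 := by
  obtain ⟨rfl, -, hb⟩ := h
  simp [FPlace.upper0, hb]

theorem sheared {R : Type} [CommRing R] (r : R) (G : Matrix (Fin 2) (Fin 2) R) :
    (Loc.shearM (-r) * G * Loc.shearM r) 0 0 = G 0 0 - r * G 1 0 ∧
    (Loc.shearM (-r) * G * Loc.shearM r) 0 1 = G 0 1 + r * (G 0 0 - G 1 1) - r * r * G 1 0 ∧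
    (Loc.shearM (-r) * G * Loc.shearM r) 1 0 = G 1 0 ∧
    (Loc.shearM (-r) * G * Loc.shearM r) 1 1 = G 1 1 + r * G 1 0 := by
  simp only [Matrix.mul_apply, Fin.sum_univ_two, Loc.shearM, Matrix.of_apply, Matrix.cons_val',
    Matrix.cons_val_zero, Matrix.cons_val_one, Matrix.cons_val_fin_one, Fin.isValue]
  refine ⟨?_, ?_, ?_, ?_⟩ <;> ring

theorem isUnit_sub_one {R : Type} [CommRing R] [IsLocalRing R] {s : R} (hs : ¬ IsUnit s) :
    IsUnit (s - 1) :=
  QPlace.isUnit_of_sub_mem isUnit_one.neg
    (by simpa [IsLocalRing.mem_maximalIdeal] using hs)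

/-- a point off the unramified component in coordinates -/
theorem exists_shape {τ : FKind} (hne : τ ≠ .unr) (hτ : P.Valid τ)
    (hκ : ∀ c ∈ maximalIdeal O, κ c ∈ maximalIdeal E) (hq2 : (P.q : E) * P.q ≠ 1)
    {F S : Matrix (Fin 2) (Fin 2) E} (hdF : F.det = κ (P.q : O)) (hdS : S.det = 1)
    (htS : S.trace = 2) (hrel : F * S = S ^ P.q * F)
    (hFm : ∀ i j, (F - P.bF.map κ) i j ∈ maximalIdeal E)
    (hSm : ∀ i j, (S - 1) i j ∈ maximalIdeal E)
    (htF : F.trace = κ (P.sgn τ * (1 + (P.q : O)))) :
    ∃ r t γ β : E, (P.IsScalar τ ∨ r = 0 ∧ t ∈ maximalIdeal E) ∧ (r = 0 ∨ r = 1) ∧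
      γ ∈ maximalIdeal E ∧ β ∈ maximalIdeal E ∧
      F = Loc.readM ((FPlace.frame0 τ).map κ) r t
        (Loc.triM (κ (P.sgn τ)) (κ (P.q : O)) (κ (P.upper0 τ) + γ)) ∧
      S = Loc.readM ((FPlace.frame0 τ).map κ) r t (Loc.unipM β) := by
  classical
  set P₀ := (FPlace.frame0 τ).map κ with hP0
  have hP : P₀ * P₀ = 1 := frame0_map_sq κ τ
  set ε := κ (P.sgn τ) with hε_def
  set q := κ (P.q : O) with hq_def
  have hqn : q = (P.q : E) := map_natCast κ P.q
  have hε : ε * ε = 1 := by rw [hε_def, ← map_mul, P.sgn_sq, map_one]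
  have hεu : IsUnit ε := IsUnit.of_mul_eq_one _ hε
  set G := P₀ * F * P₀ with hG
  set Y := P₀ * (S - 1) * P₀ with hY
  have htG : G.trace = ε * (1 + q) := by
    rw [hG, Matrix.trace_mul_comm, ← Matrix.mul_assoc, hP, Matrix.one_mul, htF, map_mul, map_add,
      map_one]
  have hdP : P₀.det * P₀.det = 1 := by rw [← Matrix.det_mul, hP, Matrix.det_one]
  have hdG : G.det = q := by
    rw [hG, Matrix.det_mul, Matrix.det_mul, hdF]
    linear_combination q * hdP
  have hYtr : Y 0 0 + Y 1 1 = 0 := by
    rw [← Matrix.trace_fin_two, hY, Matrix.trace_mul_comm, ← Matrix.mul_assoc, hP, Matrix.one_mul,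
      Matrix.trace_sub, htS, Matrix.trace_one]
    simp
  have hYd : (1 + Y).det = 1 := by
    have e : 1 + Y = P₀ * S * P₀ := by
      rw [hY, Matrix.mul_sub, Matrix.sub_mul, Matrix.mul_one, hP, add_sub_cancel]
    rw [e, Matrix.det_mul, Matrix.det_mul, hdS, mul_one, hdP]
  have hYrel : G * Y = q • (Y * G) := by
    have e : P₀ * S * P₀ = 1 + Y := by
      rw [hY, Matrix.mul_sub, Matrix.sub_mul, Matrix.mul_one, hP, add_sub_cancel]
    have hpow : ∀ n : ℕ, P₀ * S ^ n * P₀ = (P₀ * S * P₀) ^ n := by
      intro n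
      induction n with
      | zero => rw [pow_zero, pow_zero, Matrix.mul_one, hP]
      | succ n ih =>
        rw [pow_succ, pow_succ, ← ih]
        simp only [Matrix.mul_assoc]
        rw [← Matrix.mul_assoc P₀ P₀, hP, Matrix.one_mul]
    have h2 : G * (P₀ * S * P₀) = (P₀ * S * P₀) ^ P.q * G := by
      rw [← hpow, hG]
      simp only [Matrix.mul_assoc]
      rw [← Matrix.mul_assoc P₀ P₀, hP, Matrix.one_mul, ← Matrix.mul_assoc P₀ P₀, hP, Matrix.one_mul,
        ← Matrix.mul_assoc F S, hrel, Matrix.mul_assoc]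
    rw [e, (Loc.one_add_pow_eq hYtr hYd).2, Matrix.mul_add, Matrix.add_mul, Matrix.mul_one,
      Matrix.one_mul, add_right_inj, Matrix.smul_mul, ← hqn] at h2
    exact h2
  have hbase : ∀ i j, residue E (G i j) =
      residue E ((P₀ * P.bF.map κ * P₀) i j) ∧ residue E (Y i j) = 0 := by
    intro i j
    have h1 : F.map (residue E) = (P.bF.map κ).map (residue E) := by
      ext a b
      rw [Matrix.map_apply, Matrix.map_apply, ← sub_eq_zero, ← map_sub, residue_eq_zero_iff]
      exact hFm a b
    have h2 : (S - 1).map (residue E) = 0 := by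
      ext a b
      rw [Matrix.map_apply, Matrix.zero_apply, residue_eq_zero_iff]
      exact hSm a b
    constructor
    · have h := congrFun (congrFun (show G.map (residue E) =
        (P₀ * P.bF.map κ * P₀).map (residue E) by
          rw [hG, Matrix.map_mul, Matrix.map_mul, h1, ← Matrix.map_mul, ← Matrix.map_mul]) i) j
      exact h
    · have h := congrFun (congrFun (show Y.map (residue E) = 0 by
        rw [hY, Matrix.map_mul, Matrix.map_mul, h2, Matrix.mul_zero, Matrix.zero_mul]) i) j
      exact h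
  -- the choice of the frame
  obtain ⟨r, t, hrt, hr01, h0, h1, hγ⟩ : ∃ r t : E, (P.IsScalar τ ∨ r = 0 ∧ t ∈ maximalIdeal E) ∧
      (r = 0 ∨ r = 1) ∧
      (Loc.shearM (-r) * G * Loc.shearM r) 1 0 =
        t * ((Loc.shearM (-r) * G * Loc.shearM r) 0 0 - ε) ∧
      (Loc.shearM (-r) * G * Loc.shearM r) 1 1 - ε =
        t * (Loc.shearM (-r) * G * Loc.shearM r) 0 1 ∧
      (Loc.shearM (-r) * G * Loc.shearM r) 0 1 - κ (P.upper0 τ) ∈ maximalIdeal E := by
    have hM : (G 0 0 - ε) * (G 1 1 - ε) = G 0 1 * G 1 0 := by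
      rw [Matrix.det_fin_two] at hdG
      rw [Matrix.trace_fin_two] at htG
      linear_combination hdG - ε * htG - q * hε
    by_cases hsc : P.IsScalar τ
    · obtain ⟨hτst, hq, hb⟩ := hsc
      have hP1 : P₀ = 1 := by
        rw [hP0, hτst]
        simp [FPlace.frame0, Matrix.map_one]
      have h01 : ∀ r : E, (r = 0 ∨ r = 1) →
          (Loc.shearM (-r) * G * Loc.shearM r) 0 1 - κ (P.upper0 τ) ∈ maximalIdeal E := by
        intro r _
        rw [P.scalar_upper ⟨hτst, hq, hb⟩, map_zero, sub_zero, ← residue_eq_zero_iff]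
        have hg : G.map (residue E) = (residue E (κ P.w)) • (1 : Matrix (Fin 2) (Fin 2) (ResidueField E)) := by
          ext a b
          rw [Matrix.map_apply, (hbase a b).1, hP1, Matrix.one_mul, Matrix.mul_one, hb]
          simp [Matrix.one_apply, apply_ite (residue E), apply_ite κ]
        have h := congrFun (congrFun (show (Loc.shearM (-r) * G * Loc.shearM r).map (residue E) =
            residue E (κ P.w) • (1 : Matrix (Fin 2) (Fin 2) (ResidueField E)) by
          rw [Matrix.map_mul, Matrix.map_mul, hg, Matrix.mul_smul, Matrix.mul_one, Matrix.smul_mul,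
            ← Matrix.map_mul, Loc.shearM_neg_mul, Matrix.map_one _ (map_zero _) (map_one _)]) 0) 1
        simpa using h
      by_cases hcol : G 0 0 - ε = 0 ∧ G 1 0 = 0
      · obtain ⟨ha, hc⟩ := hcol
        have hy0 : G 1 1 - ε ≠ 0 := by
          intro e
          refine hεu.ne_zero ((mul_eq_zero.1 (show ε * (1 - q) = 0 from ?_)).resolve_right
            (sub_ne_zero.2 fun e' => hq2 ?_))
          · rw [Matrix.trace_fin_two] at htG
            linear_combination htG - ha - e
          · rw [← hqn, ← e', mul_one]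
        by_cases hd : G 0 1 ∣ G 1 1 - ε
        · obtain ⟨t, ht⟩ := hd
          refine ⟨0, t, Or.inl ⟨hτst, hq, hb⟩, Or.inl rfl, ?_, ?_, h01 0 (Or.inl rfl)⟩
          · simp only [sheared, ha, hc]
            linear_combination -t * ha
          · simp only [sheared, hc]
            linear_combination ht
        · obtain ⟨s', hs⟩ : G 1 1 - ε ∣ G 0 1 := (ValuationRing.dvd_total _ _).resolve_left hd
          have hnu : ¬ IsUnit s' := fun hu => by
            obtain ⟨i, hi⟩ := hu.exists_right_inv
            exact hd ⟨i, by linear_combination -i * hs - (G 1 1 - ε) * hi⟩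
          obtain ⟨i, hi⟩ := (isUnit_sub_one hnu).exists_right_inv
          refine ⟨1, i, Or.inl ⟨hτst, hq, hb⟩, Or.inr rfl, ?_, ?_, h01 1 (Or.inr rfl)⟩
          · simp only [sheared, hc]
            linear_combination -i * ha
          · simp only [sheared, hc]
            linear_combination -(G 1 1 - ε) * hi - i * hs - i * ha
      · by_cases hd : G 0 0 - ε ∣ G 1 0 ∧ G 0 0 - ε ≠ 0
        · obtain ⟨⟨t, ht⟩, ha⟩ := hd
          refine ⟨0, t, Or.inl ⟨hτst, hq, hb⟩, Or.inl rfl, ?_, ?_, h01 0 (Or.inl rfl)⟩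
          · simp only [sheared]
            linear_combination ht
          · simp only [sheared]
            refine mul_left_cancel₀ ha ?_
            linear_combination hM + G 0 1 * ht
        · obtain ⟨s', hs⟩ : G 1 0 ∣ G 0 0 - ε := by
            by_cases ha : G 0 0 - ε = 0
            · rw [ha]; exact dvd_zero _
            · exact (ValuationRing.dvd_total _ _).resolve_left fun h => hd ⟨h, ha⟩
          have hy0 : G 1 0 ≠ 0 := fun e => hcol ⟨by rw [hs, e, zero_mul], e⟩
          have hnu : ¬ IsUnit s' := fun hu => by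
            obtain ⟨i, hi⟩ := hu.exists_right_inv
            refine hd ⟨⟨i, by linear_combination -i * hs - G 1 0 * hi⟩, ?_⟩
            rw [hs]
            exact mul_ne_zero hy0 hu.ne_zero
          have hu1 := isUnit_sub_one hnu
          obtain ⟨i, hi⟩ := hu1.exists_right_inv
          refine ⟨1, i, Or.inl ⟨hτst, hq, hb⟩, Or.inr rfl, ?_, ?_, h01 1 (Or.inr rfl)⟩
          · simp only [sheared]
            linear_combination -i * hs - G 1 0 * hi
          · simp only [sheared]
            refine mul_left_cancel₀ (mul_ne_zero hy0 hu1.ne_zero) ?_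
            linear_combination hM - (G 1 1 - ε + G 1 0) * hs -
              G 1 0 * (G 0 1 + (G 0 0 - G 1 1) - G 1 0) * hi
    · -- the line is determined residually
      have hr := fun i j => (hbase i j).1
      refine ⟨0, ?_⟩
      suffices h : IsUnit (G 0 0 - ε) ∧ G 1 0 ∈ maximalIdeal E ∨
          IsUnit (G 0 1) ∧ G 1 1 - ε ∈ maximalIdeal E from by
        have h01 : G 0 1 - κ (P.upper0 τ) ∈ maximalIdeal E := by
          rw [← residue_eq_zero_iff, map_sub, hr, hP0, sub_eq_zero]
          cases τ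
          · exact absurd rfl hne
          · simp [FPlace.frame0, FPlace.upper0, Matrix.map_one]
          · simp [FPlace.frame0, FPlace.upper0, Matrix.mul_apply, Fin.sum_univ_two]
        simp only [Loc.shearM_zero, neg_zero, Matrix.one_mul, Matrix.mul_one]
        rcases h with ⟨hu, hm⟩ | ⟨hu, hm⟩ <;> obtain ⟨i, hi⟩ := hu.exists_right_inv
        · refine ⟨G 1 0 * i, Or.inr ⟨trivial, Ideal.mul_mem_right _ _ hm⟩, Or.inl trivial, ?_, ?_, h01⟩
          · linear_combination -(G 1 0) * hi
          · linear_combination i * hM - (G 1 1 - ε) * hi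
        · refine ⟨(G 1 1 - ε) * i, Or.inr ⟨trivial, Ideal.mul_mem_right _ _ hm⟩, Or.inl trivial, ?_, ?_, h01⟩
          · linear_combination -i * hM - G 1 0 * hi
          · linear_combination -(G 1 1 - ε) * hi
      have hmem : ∀ {x : E}, residue E x = 0 → x ∈ maximalIdeal E := fun h =>
        (residue_eq_zero_iff _).1 h
      have hunit : ∀ {x : E} {c : O}, IsUnit c → residue E x = residue E (κ c) → IsUnit x := by
        intro x c hc h
        refine QPlace.isUnit_of_sub_mem (hc.map κ) ?_
        rw [← residue_eq_zero_iff, map_sub, h, sub_self]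
      rcases P.normal with ⟨hu, hb⟩ | ⟨hq, ns, hb⟩
      · refine Or.inl ⟨?_, hmem ?_⟩
        · cases τ
          · exact absurd rfl hne
          · refine hunit (c := P.w * ((P.q : O) - 1)) (P.hw_unit.mul hu) ?_
            rw [map_sub, hr, hP0]
            simp [FPlace.frame0, hb, Matrix.map_one, ε, FPlace.sgn, mul_sub]
          · refine hunit (c := 2 * P.w) (P.htwo.mul P.hw_unit) ?_
            rw [map_sub, hr, hP0]
            simp [FPlace.frame0, hb, Matrix.mul_apply, Fin.sum_univ_two, ε, FPlace.sgn, two_mul]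
        · rw [hr, hP0]
          cases τ
          · exact absurd rfl hne
          · simp [FPlace.frame0, hb, Matrix.map_one]
          · simp [FPlace.frame0, hb, Matrix.mul_apply, Fin.sum_univ_two]
      · have hτst : τ = .st := by
          cases τ
          · exact absurd rfl hne
          · rfl
          · exact absurd hτ.1 ((IsLocalRing.mem_maximalIdeal _).1 hq)
        have hns : ns = true := by
          by_contra h
          rw [Bool.not_eq_true] at h
          refine hsc ⟨hτst, hq, ?_⟩
          rw [hb, h]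
          congr 1
          ext a b
          fin_cases a <;> fin_cases b <;> simp [frobBase]
        subst hτst hns
        refine Or.inr ⟨hunit (c := P.w) P.hw_unit ?_, hmem ?_⟩
        · rw [hr, hP0]
          simp [FPlace.frame0, hb, frobBase, Matrix.map_one]
        · rw [map_sub, hr, hP0]
          simp [FPlace.frame0, hb, frobBase, Matrix.map_one, ε, FPlace.sgn]
  set F' := Loc.shearM (-r) * G * Loc.shearM r with hF'
  set X' := Loc.shearM (-r) * Y * Loc.shearM r with hX'
  have hs : Loc.shearM r * Loc.shearM (-r) = (1 : Matrix (Fin 2) (Fin 2) E) := Loc.shearM_mul_neg r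
  have hs' : Loc.shearM (-r) * Loc.shearM r = (1 : Matrix (Fin 2) (Fin 2) E) := Loc.shearM_neg_mul r
  have ds : ∀ x : E, (Loc.shearM x).det = 1 := fun x => by simp [Loc.shearM, Matrix.det_fin_two]
  obtain ⟨β, hFs, hXs⟩ := Loc.tri_shape (F := F') (X := X') (t := t) (ε := ε) (q := q)
    (by rw [hqn]; exact hq2) hε
    (by rw [hF', Matrix.trace_mul_comm, ← Matrix.mul_assoc, hs, Matrix.one_mul, htG])
    h0 h1
    (by rw [← Matrix.trace_fin_two, hX', Matrix.trace_mul_comm, ← Matrix.mul_assoc, hs,
      Matrix.one_mul, Matrix.trace_fin_two, hYtr])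
    (by
      have e : 1 + X' = Loc.shearM (-r) * (1 + Y) * Loc.shearM r := by
        rw [hX', Matrix.mul_add, Matrix.add_mul, Matrix.mul_one, hs']
      rw [e, Matrix.det_mul, Matrix.det_mul, ds, ds, hYd, one_mul, one_mul])
    (by
      rw [hF', hX']
      simp only [Matrix.mul_assoc]
      rw [← Matrix.mul_assoc (Loc.shearM r) (Loc.shearM (-r)), hs, Matrix.one_mul,
        ← Matrix.mul_assoc (Loc.shearM r) (Loc.shearM (-r)), hs, Matrix.one_mul,
        ← Matrix.mul_assoc G Y, hYrel, Matrix.smul_mul, Matrix.mul_smul, Matrix.mul_assoc Y G])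
  have back : ∀ A : Matrix (Fin 2) (Fin 2) E,
      Loc.shearM r * (Loc.shearM (-r) * A * Loc.shearM r) * Loc.shearM (-r) = A := by
    intro A
    simp only [Matrix.mul_assoc]
    rw [hs, Matrix.mul_one, ← Matrix.mul_assoc, hs, Matrix.one_mul]
  have hFeq : F = P₀ * (Loc.shearM r * F' * Loc.shearM (-r)) * P₀ := by
    rw [hF', back, hG]
    simp only [Matrix.mul_assoc]
    rw [hP, Matrix.mul_one, ← Matrix.mul_assoc, hP, Matrix.one_mul]
  have hSeq : S = P₀ * (Loc.shearM r * (1 + X') * Loc.shearM (-r)) * P₀ := by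
    rw [Matrix.mul_add, Matrix.add_mul, Matrix.mul_one, hs, hX', back, hY, Matrix.mul_add,
      Matrix.add_mul, Matrix.mul_one, hP]
    simp only [Matrix.mul_assoc]
    rw [hP, Matrix.mul_one, ← Matrix.mul_assoc, hP, Matrix.one_mul, add_sub_cancel]
  refine ⟨r, t, F' 0 1 - κ (P.upper0 τ), β, hrt, hr01, hγ, ?_, ?_, ?_⟩
  · have hb : β = X' 0 1 := by
      have h := congrFun (congrFun hXs 0) 1
      simp [Loc.lowM, Loc.unipM, Matrix.mul_apply, Fin.sum_univ_two] at h
      exact h.symm
    rw [hb, ← residue_eq_zero_iff]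
    have h : X'.map (residue E) = 0 := by
      have hY0 : Y.map (residue E) = 0 := Matrix.ext fun a b => (hbase a b).2
      rw [hX', Matrix.map_mul, Matrix.map_mul, hY0, Matrix.mul_zero, Matrix.zero_mul]
    exact congrFun (congrFun h 0) 1
  · rw [add_sub_cancel]
    conv_lhs => rw [hFeq, hFs]
    simp only [Loc.readM, Matrix.mul_assoc]
  · conv_lhs => rw [hSeq, hXs]
    simp only [Loc.readM, Matrix.mul_assoc]

end Shape

end FLTAgent.MLT
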