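import Fermat.Agent.MLT.Patch.LocPoint

/-!
Area MLT, parcel LOC: points finite over the coefficients lie on a component.
-/

set_option autoImplicit false
set_option linter.style.haveILetI false
set_option linter.unusedSectionVars false

noncomputable section

namespace FLTAgent.MLT

open IsLocalRing Matrix FLTAgent.LL

variable {O : Type} [CommRing O] [IsDomain O] [IsDiscreteValuationRing O]
  [IsAdicComplete (maximalIdeal O) O] [Finite (ResidueField O)] [CharZero O]
  {I S : Type} [Finite I] [Finite S] (P : I → FPlace O)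

/-- the condition of a component at a place, through a homomorphism -/
def FCond {C : Type} [CommRing C] (π : MvPowerSeries (PlaceVar I S) O →+* C) (i : I) : FKind → Prop
  | .unr => ∀ f ∈ fpUnr i, π f = 0
  | .st => π (fpSt P i) = 0
  | .opp => π (fpOpp P i) = 0

theorem fpSgn_eq {R : Type} [CommRing R] (π : MvPowerSeries (PlaceVar I S) O →+* R) {κ : O →+* R}
    (hC : ∀ c, π (MvPowerSeries.C c) = κ c) (i : I) :
    π (fpSt P i) = ((fpFrob P i).map π).trace - κ ((P i).sgn .st * (1 + ((P i).q : O))) ∧
      π (fpOpp P i) = ((fpFrob P i).map π).trace - κ ((P i).sgn .opp * (1 + ((P i).q : O))) := by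
  constructor
  · rw [fpSt, map_sub, hC, map_trace_two]
    rfl
  · rw [fpOpp, map_add, hC, map_trace_two, FPlace.sgn, neg_mul, map_neg, sub_neg_eq_add]

theorem q_facts {E : Type} [CommRing E] {κ : O →+* E} (hinj : Function.Injective κ) (Q : FPlace O) :
    (Q.q : E) ≠ 0 ∧ (Q.q : E) ≠ 1 ∧ (Q.q : E) * Q.q ≠ 1 ∧
      (2 : E) * κ Q.w * (1 + (Q.q : E)) ≠ 0 := by
  have h : ∀ n : ℕ, n ≠ 0 → (n : E) ≠ 0 := fun n hn e =>
    Nat.cast_ne_zero.2 hn (hinj (by rw [map_natCast, e, map_zero]) : (n : O) = 0)
  have h1 : ∀ n : ℕ, n ≠ 1 → (n : E) ≠ 1 := fun n hn e =>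
    hn (Nat.cast_eq_one.1 (hinj (by rw [map_natCast, e, map_one]) : (n : O) = 1))
  have hq := Q.one_lt
  refine ⟨h _ (by omega), h1 _ (by omega), ?_, ?_⟩
  · have := h1 (Q.q * Q.q) (by nlinarith)
    rwa [Nat.cast_mul] at this
  · intro e
    have hw : κ Q.w * κ Q.w = 1 := by rw [← map_mul, Q.hw, map_one]
    have h2 := h (2 * (1 + Q.q)) (by omega)
    push_cast at h2
    exact h2 (by linear_combination κ Q.w * e - 2 * (1 + (Q.q : E)) * hw)

theorem place_facts {E : Type} [CommRing E] [IsLocalRing E] [Finite (ResidueField E)] [Algebra O E]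
    [IsLocalHom (algebraMap O E)] (π : MvPowerSeries (PlaceVar I S) O →+* E)
    (hπC : ∀ a, π (MvPowerSeries.C a) = algebraMap O E a) (hrel : ∀ f ∈ fpRel P, π f = 0) (i : I) :
    ((fpFrob P i).map π).det = algebraMap O E ((P i).q : O) ∧
      ((fpTame (O := O) i).map π).det = 1 ∧ ((fpTame (O := O) i).map π).trace = 2 ∧
      (fpFrob P i).map π * (fpTame (O := O) i).map π =
        (fpTame (O := O) i).map π ^ (P i).q * (fpFrob P i).map π ∧
      (∀ a b, ((fpFrob P i).map π - (P i).bF.map (algebraMap O E)) a b ∈ maximalIdeal E) ∧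
      ∀ a b, ((fpTame (O := O) i).map π - 1) a b ∈ maximalIdeal E := by
  obtain ⟨hF, hS⟩ := map_fpFrob P π hπC i
  refine ⟨?_, ?_, ?_, ?_, fun a b => ?_, fun a b => ?_⟩
  · have h := hrel _ ⟨i, Or.inl rfl⟩
    rw [map_sub, hπC, sub_eq_zero, RingHom.map_det] at h
    exact h
  · have h := hrel _ ⟨i, Or.inr (Or.inl rfl)⟩
    rw [map_sub, map_one, sub_eq_zero, RingHom.map_det] at h
    exact h
  · have h := hrel _ ⟨i, Or.inr (Or.inr (Or.inl rfl))⟩
    rw [map_sub, map_ofNat, sub_eq_zero, map_trace_two] at h
    exact h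
  · have h : π.mapMatrix (fpFrob P i * fpTame i - fpTame i ^ (P i).q * fpFrob P i) = 0 :=
      Matrix.ext fun a b => hrel _ ⟨i, Or.inr (Or.inr (Or.inr ⟨a, b, rfl⟩))⟩
    rw [map_sub, map_mul, map_mul, map_pow, sub_eq_zero, RingHom.mapMatrix_apply,
      RingHom.mapMatrix_apply] at h
    exact h
  · rw [hF, add_sub_cancel_left]
    exact map_X_mem_maximalIdeal π _
  · rw [hS, add_sub_cancel_left]
    exact map_X_mem_maximalIdeal π _

variable {C : Type} [CommRing C] [IsDomain C] [Algebra O C] [Module.Finite O C]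
  (hinj : Function.Injective (algebraMap O C))
  (π : MvPowerSeries (PlaceVar I S) O →+* C)
  (hπC : ∀ a, π (MvPowerSeries.C a) = algebraMap O C a) (hrel : ∀ f ∈ fpRel P, π f = 0)

include hinj hπC hrel in
/-- points satisfying the conditions of a component kill its prime -/
theorem chartK_le_ker (τ : I → FKind) (hτ : ∀ i, (P i).Valid (τ i))
    (hc : ∀ i, FCond P π i (τ i)) : chartK P τ hτ ≤ RingHom.ker π := by
  obtain ⟨E, iE1, iE2, iE3, iE4, iE5, iE6, iE7, hinjE, e, he, -⟩ := exists_pointRing C hinj
  letI := iE1; haveI := iE2; haveI := iE3; haveI := iE4; haveI := iE5; letI := iE6; haveI := iE7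
  let πE : MvPowerSeries (PlaceVar I S) O →+* E := e.toRingHom.comp π
  have hC : ∀ a, πE (MvPowerSeries.C a) = algebraMap O E a := fun a => by simp [πE, hπC]
  have hrelE : ∀ f ∈ fpRel P, πE f = 0 := fun f hf => by simp [πE, hrel f hf]
  have hpt : ∀ i, ∃ (r t : E) (y : Fin 3 → E), (∀ j, y j ∈ maximalIdeal E) ∧
      (τ i ≠ .unr → (P i).IsScalar (τ i) ∨ r = 0 ∧ t ∈ maximalIdeal E) ∧
      (fpFrob P i).map πE = (movedPair (P i) (algebraMap O E) r t y (τ i)).1 ∧
        (fpTame (O := O) i).map πE = (movedPair (P i) (algebraMap O E) r t y (τ i)).2 := by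
    intro i
    obtain ⟨hd, hdS, htS, hr, hFm, hSm⟩ := place_facts P πE hC hrelE i
    have hci := hc i
    have hv := hτ i
    obtain ⟨k, hk⟩ : ∃ k, τ i = k := ⟨_, rfl⟩
    rw [hk] at hci hv ⊢
    have off : k ≠ .unr → ((fpFrob P i).map πE).trace =
        algebraMap O E ((P i).sgn k * (1 + ((P i).q : O))) →
        ∃ (r t : E) (y : Fin 3 → E), (∀ j, y j ∈ maximalIdeal E) ∧
          (k ≠ .unr → (P i).IsScalar k ∨ r = 0 ∧ t ∈ maximalIdeal E) ∧
          (fpFrob P i).map πE = (movedPair (P i) (algebraMap O E) r t y k).1 ∧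
            (fpTame (O := O) i).map πE = (movedPair (P i) (algebraMap O E) r t y k).2 := by
      intro hne htr
      obtain ⟨r, t, γ, β, h1, -, hγ, hβ, hF, hS⟩ := exists_shape (P i) (algebraMap O E) hne hv
        (fun c hc => algebraMap_mem_maximal hc) (q_facts hinjE (P i)).2.2.1 hd hdS htS hr hFm hSm htr
      refine ⟨r, t, ![0, γ, β], fun j => ?_, fun _ => h1, ?_, ?_⟩
      · fin_cases j
        · exact zero_mem _
        · exact hγ
        · exact hβ
      all_goals
        cases k
        · exact absurd rfl hne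
        all_goals simp only [movedPair, Matrix.cons_val_one, Matrix.cons_val_zero, Matrix.cons_val,
          Fin.isValue]
        all_goals first | exact hF | exact hS
    cases k
    · set F := (fpFrob P i).map πE
      set b := (P i).bF.map (algebraMap O E)
      refine ⟨0, 0, ![F 0 0 - b 0 0, F 0 1 - b 0 1, F 1 0 - b 1 0], fun j => ?_, fun h => absurd rfl h,
        ?_, ?_⟩
      · fin_cases j
        · exact hFm 0 0
        · exact hFm 0 1
        · exact hFm 1 0
      · have hu : IsUnit (F 0 0) := by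
          refine QPlace.isUnit_of_sub_mem ((P i).isUnit_bF00.map (algebraMap O E)) ?_
          exact hFm 0 0
        have h11 : F 1 1 = (algebraMap O E ((P i).q : O) + F 0 1 * F 1 0) * Ring.inverse (F 0 0) := by
          rw [Matrix.det_fin_two] at hd
          refine hu.mul_left_cancel ?_
          rw [mul_left_comm, Ring.mul_inverse_cancel _ hu, mul_one]
          linear_combination hd
        refine Matrix.ext fun a c => ?_
        fin_cases a <;> fin_cases c <;>
          simp only [movedPair, placeChart, b, Matrix.map_apply, Matrix.cons_val_zero,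
            Matrix.cons_val_one, Matrix.cons_val, Matrix.of_apply, Matrix.cons_val',
            Matrix.cons_val_fin_one, Fin.zero_eta, Fin.mk_one, Fin.isValue, add_sub_cancel]
        exact h11
      · simp only [movedPair, placeChart]
        rw [(map_fpFrob P πE hC i).2, add_eq_left]
        refine Matrix.ext fun a c => ?_
        have h := hci _ ⟨(a, c), rfl⟩
        simp only at h
        simp [πE, h]
    · refine off (by decide) ?_
      have h : πE (fpSt P i) = 0 := by simp [πE, show π (fpSt P i) = 0 from hci]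
      rwa [(fpSgn_eq P πE hC i).1, sub_eq_zero] at h
    · refine off (by decide) ?_
      have h : πE (fpOpp P i) = 0 := by simp [πE, show π (fpOpp P i) = 0 from hci]
      rwa [(fpSgn_eq P πE hC i).2, sub_eq_zero] at h
  choose r t y hy hrt hM using hpt
  intro f hf
  have h := chartK_le_ker_of_coords P τ hτ πE hC r t y hy hrt hM hf
  rw [RingHom.mem_ker] at h ⊢
  exact he (h.trans (map_zero e).symm)

include hinj hπC hrel in
/-- the trichotomy -/
theorem exists_fkind (i : I) : ∃ k : FKind, (P i).Valid k ∧ FCond P π i k := by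
  haveI := Attach.isLocalRing_of_module_finite O C
  haveI : IsLocalHom (algebraMap O C) :=
    RingHom.IsIntegral.isLocalHom (algebraMap_isIntegral_iff.2 inferInstance) hinj
  haveI : Finite (ResidueField C) :=
    IsLocalRing.ResidueField.finite_of_finite (R := O) inferInstance
  obtain ⟨hd, hdS, htS, hr, hFm, -⟩ := place_facts P π hπC hrel i
  set X := (devP (O := O) (S := S) i 1).map π
  obtain ⟨hF', hS'⟩ := map_fpFrob P π hπC i
  by_cases hX : X = 0
  · refine ⟨.unr, trivial, ?_⟩
    rintro f ⟨ab, rfl⟩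
    exact congrFun (congrFun hX ab.1) ab.2
  have htr : X 0 0 + X 1 1 = 0 := by
    rw [hS', Matrix.trace_add, Matrix.trace_one, Matrix.trace_fin_two] at htS
    simp at htS
    exact htS
  rw [hS'] at hdS hr
  rw [(Loc.one_add_pow_eq htr hdS).2, Matrix.mul_add, Matrix.add_mul, Matrix.mul_one,
    Matrix.one_mul, add_right_inj, Matrix.smul_mul] at hr
  obtain ⟨hq0, hq1, -, -⟩ := q_facts hinj (P i)
  rw [map_natCast] at hd
  have hsq := Loc.trace_sq_of_ne hq0 hq1 hd hr hX
  set T := ((fpFrob P i).map π).trace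
  have hw : algebraMap O C (P i).w * algebraMap O C (P i).w = 1 := by
    rw [← map_mul, (P i).hw, map_one]
  have hsplit : (T - algebraMap O C ((P i).sgn .st * (1 + ((P i).q : O)))) *
      (T - algebraMap O C ((P i).sgn .opp * (1 + ((P i).q : O)))) = 0 := by
    simp only [FPlace.sgn, map_mul, map_neg, map_add, map_one, map_natCast]
    linear_combination hsq - (1 + ((P i).q : C)) ^ 2 * hw
  rcases mul_eq_zero.1 hsplit with h | h
  · exact ⟨.st, trivial, (fpSgn_eq P π hπC i).1.trans h⟩
  · by_cases hst : T - algebraMap O C ((P i).sgn .st * (1 + ((P i).q : O))) = 0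
    · exact ⟨.st, trivial, (fpSgn_eq P π hπC i).1.trans hst⟩
    refine ⟨.opp, ?_, (fpSgn_eq P π hπC i).2.trans h⟩
    have hmem : (P i).bF.trace + (P i).w * (1 + ((P i).q : O)) ∈ maximalIdeal O := by
      intro hu
      have h1 : algebraMap O C ((P i).bF.trace + (P i).w * (1 + ((P i).q : O))) ∈ maximalIdeal C := by
        have h2 := neg_mem (add_mem (hFm 0 0) (hFm 1 1))
        have hTe : algebraMap O C ((P i).bF.trace) + algebraMap O C ((P i).w * (1 + ((P i).q : O))) =
            -(((fpFrob P i).map π - (P i).bF.map (algebraMap O C)) 0 0 +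
              ((fpFrob P i).map π - (P i).bF.map (algebraMap O C)) 1 1) := by
          simp only [FPlace.sgn, neg_mul, map_neg, T, Matrix.trace_fin_two] at h
          simp only [Matrix.trace_fin_two, map_add, Matrix.sub_apply, Matrix.map_apply] at h ⊢
          linear_combination h
        rw [map_add, hTe]
        exact h2
      exact h1 (hu.map _)
    have h2 := sub_mem hmem (P i).trace_bF
    have hqm : ((P i).q : O) + 1 ∈ maximalIdeal O := by
      refine (Ideal.unit_mul_mem_iff_mem _ ((P i).htwo.mul (P i).hw_unit)).1 ?_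
      convert h2 using 1
      ring
    refine ⟨?_, hqm⟩
    by_contra hu
    have h3 := sub_mem hqm ((IsLocalRing.mem_maximalIdeal _).2 hu)
    exact (IsLocalRing.mem_maximalIdeal _).1 h3 (by
      convert (P i).htwo using 1
      ring)

end FLTAgent.MLT
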