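import Fermat.Agent.MLT.Patch.Chain

/-!
Area MLT, LIMIT: a killer of a level supported on the Steinberg component vanishes at the curve.
-/

set_option autoImplicit false
set_option linter.style.haveILetI false
set_option linter.unusedSectionVars false
set_option maxHeartbeats 1000000

noncomputable section

namespace FLTAgent.MLT

open IsLocalRing Filter Matrix FLTAgent.LL

variable {O : Type} [CommRing O] [IsDomain O] [IsDiscreteValuationRing O]
  [IsAdicComplete (maximalIdeal O) O] [Finite (ResidueField O)]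

theorem eq_zero_of_eventually {c : O} (h : ∀ n, ∀ᶠ _i in patchFilter, c ∈ maximalIdeal O ^ n) :
    c = 0 := by
  refine IsHausdorff.haus (I := maximalIdeal O) (M := O) inferInstance _ fun n => ?_
  obtain ⟨_, hc⟩ := (h n).exists
  rwa [SModEq.zero, smul_eq_mul, Ideal.mul_top]

variable [CharZero O] {k : ℕ} {P : Fin k → FPlace O} {g : ℕ}

/-- the endgame -/
theorem eq_zero_of_pointKillers (M : CompModel P g) {d : ℕ} {lv : ℕ → ℕ} (hlv : ∀ n, n ≤ lv n)
    {ψ : ∀ n, MvPolynomial (WVar k g) O →ₐ[O] Matrix (Fin d) (Fin d) (SQ O (3 * k + g) (lv n))}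
    {ev : MvPowerSeries (WVar k g) O →+* Matrix (Fin d) (Fin d) (SR O (3 * k + g))}
    (hev : SmallHom ev)
    (hF : ∀ (F : ℕ → MvPowerSeries (WVar k g) O) f,
      (∀ n, ∀ᶠ i in patchFilter, f - F i ∈ maximalIdeal (MvPowerSeries (WVar k g) O) ^ n) →
        Near (ev f) fun i => evT (ψ i) (F i))
    (hker : RingHom.ker ev ≤ M.K (M.comp Finset.univ)) {v : O}
    (hpt : ∀ n, PointKiller P g (ψ n) v) : v = 0 := by
  classical
  obtain ⟨x, hxC, hxm, hx⟩ := exists_point_limit hlv (fun n => (hpt n).u) fun n a => (hpt n).u_mem a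
  -- values at the point
  have hzero : ∀ (F : ℕ → MvPowerSeries (WVar k g) O) f (c : O),
      (∀ n, ∀ᶠ i in patchFilter, f - F i ∈ maximalIdeal (MvPowerSeries (WVar k g) O) ^ n) →
      (∀ i, evU (lv i) (hpt i).u (F i) - c ∈ maximalIdeal O ^ (lv i + 1)) → x f = c := by
    intro F f c hFf hc
    refine sub_eq_zero.1 (eq_zero_of_eventually fun n => ?_)
    refine ((hx F f hFf n).and (eventually_ge n)).mono fun i hi => ?_
    have h2 := Ideal.pow_le_pow_right (show n ≤ lv i + 1 by have := hlv i; omega) (hc i)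
    simpa using add_mem hi.1 h2
  have hconst : ∀ f : MvPowerSeries (WVar k g) O, ∀ n, ∀ᶠ _i in patchFilter,
      f - f ∈ maximalIdeal (MvPowerSeries (WVar k g) O) ^ n := fun f n =>
    Eventually.of_forall fun i => by simp
  have hK : M.K (M.comp Finset.univ) ≤ RingHom.ker x :=
    M.point x hxC
      (fun f hf => hzero (fun _ => f) f 0 (hconst f) fun i => by simpa using (hpt i).u_rel f hf)
      (fun l => hzero (fun _ => fpSt P l) _ 0 (hconst _) fun i => by simpa using (hpt i).u_st l)
  -- parameters vanishing at the point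
  choose Gn hGn hGu using fun n i => (hpt n).u_gen i
  choose G hG using fun i => exists_ulim fun n => Gn n i
  have hxG : ∀ i, x (G i) = 0 := fun i =>
    hzero (fun n => Gn n i) _ 0 (hG i) fun n => by simpa using hGu n i
  have hG0 : ∀ i, MvPowerSeries.constantCoeff (G i) ∈ maximalIdeal O := fun i => by
    by_contra hu
    have hu' : IsUnit (G i) := by
      rw [← maximal_iff_constantCoeff] at hu
      simpa [IsLocalRing.mem_maximalIdeal, mem_nonunits_iff] using hu
    exact not_isUnit_zero (hxG i ▸ hu'.map x)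
  have hevG : ∀ i, ev (G i) = algebraMap (SR O (3 * k + g)) _ (MvPowerSeries.X i) := fun i =>
    Near.unique hlv ((hF _ _ (hG i)).congr fun n => hGn n i) (near_scalar _)
  let π := substHom G hG0
  have hπ : ∀ s, ev (π s) = algebraMap (SR O (3 * k + g)) _ s := exists_param hev hG0 hevG
  -- the killer
  choose Fn hFn hFu using fun n => (hpt n).killer
  obtain ⟨F0, hF0⟩ := exists_ulim Fn
  have hxF : x F0 = v := hzero Fn F0 v hF0 hFu
  set J : Ideal (SR O (3 * k + g)) :=
    Ideal.span (Set.range fun i : Fin (3 * k + g) => (MvPowerSeries.X i : SR O (3 * k + g)))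
  have hentry : ∀ a b, ev F0 a b ∈ J := fun a b =>
    (hF Fn F0 hF0).mem_ideal hlv J (fun n a b => hFn n a b) a b
  set φ : SR O (3 * k + g) →+* O := x.comp π
  have hφJ : J ≤ RingHom.ker φ := by
    rw [Ideal.span_le]
    rintro _ ⟨i, rfl⟩
    show x (π (MvPowerSeries.X i)) = 0
    rw [show π (MvPowerSeries.X i) = G i from substHom_X G hG0 i, hxG]
  have hχ : (ev F0).charpoly.map φ = Polynomial.X ^ d := by
    rw [← Matrix.charpoly_map]
    have : (ev F0).map φ = 0 := Matrix.ext fun a b => hφJ (hentry a b)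
    rw [this, Matrix.charpoly_zero, Fintype.card_fin]
  have hkill : Polynomial.eval₂ π F0 (ev F0).charpoly ∈ RingHom.ker ev := by
    rw [RingHom.mem_ker, Polynomial.hom_eval₂,
      show ev.comp π = algebraMap (SR O (3 * k + g)) (Matrix (Fin d) (Fin d) (SR O (3 * k + g))) from
        RingHom.ext hπ]
    exact Matrix.aeval_self_charpoly _
  have h0 : x (Polynomial.eval₂ π F0 (ev F0).charpoly) = 0 := hK (hker hkill)
  rw [Polynomial.hom_eval₂, hxF, ← Polynomial.eval_map, hχ, Polynomial.eval_pow,
    Polynomial.eval_X] at h0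
  exact eq_zero_of_pow_eq_zero h0

end FLTAgent.MLT

end
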