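import Fermat.Agent.MLT.Patch.EvalMat

/-!
Area MLT, LIMIT: the step lemma. What annihilates the kernel of the pushes, for an adjugate of
`push * pull` with determinant `h` in a prime of the support, lies in that prime.
-/

set_option autoImplicit false
set_option linter.style.haveILetI false
set_option linter.unusedSectionVars false

noncomputable section

namespace FLTAgent.MLT

open Matrix
open scoped Kronecker

variable {S : Type} [CommRing S] [IsDomain S] {R : Type} [CommRing R] {d dY : ℕ}
  (evX : R →+* Matrix (Fin d) (Fin d) S) (σ : S →+* R)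
  (hσ : ∀ s, evX (σ s) = algebraMap S (Matrix (Fin d) (Fin d) S) s)

include hσ in
/-- the determinant trick -/
theorem mem_of_eq_mul {g h : R} {Z : Matrix (Fin d) (Fin d) S} (he : evX g = evX h * Z)
    {H : Ideal R} [H.IsPrime] (hker : RingHom.ker evX ≤ H) (hh : h ∈ H) : g ∈ H := by
  classical
  let e : Fin d → (Fin d → S) := fun b => Pi.single b 1
  let M : Matrix (Fin d) (Fin d) R := fun a b => (if a = b then g else 0) - σ (Z a b) * h
  have hsm : ∀ (s : S) (v : Fin d → S), evX (σ s) *ᵥ v = s • v := fun s v => by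
    rw [hσ, Algebra.algebraMap_eq_smul_one, Matrix.smul_mulVec, Matrix.one_mulVec]
  have hcol : ∀ b, ∑ a, evX (M a b) *ᵥ e a = 0 := by
    intro b
    have h1 : ∀ a, evX (M a b) *ᵥ e a =
        (if a = b then evX g *ᵥ e a else 0) - Z a b • (evX h *ᵥ e a) := fun a => by
      rw [map_sub, Matrix.sub_mulVec, map_mul, ← Matrix.mulVec_mulVec, hsm]
      split_ifs <;> simp
    simp only [h1, Finset.sum_sub_distrib, Finset.sum_ite_eq', Finset.mem_univ, if_true]
    rw [he, ← Matrix.mulVec_mulVec, sub_eq_zero]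
    have h2 : Z *ᵥ e b = ∑ a, Z a b • e a := by
      funext c
      simp [e, Matrix.mulVec_single, Finset.sum_apply, Pi.single_apply]
    rw [h2, Matrix.mulVec_sum]
    exact Finset.sum_congr rfl fun a _ => Matrix.mulVec_smul _ _ _
  have hdet : evX M.det = 0 := by
    refine Matrix.ext_of_mulVec_single fun c => ?_
    rw [Matrix.zero_mulVec]
    have h3 : ∀ a, ∑ b, evX (M.adjugate b c) * evX (M a b) =
        if a = c then evX M.det else 0 := fun a => by
      have h4 := congrFun (congrFun (Matrix.mul_adjugate M) a) c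
      rw [Matrix.mul_apply, Matrix.smul_apply, smul_eq_mul, Matrix.one_apply, mul_ite, mul_one,
        mul_zero] at h4
      have h4' : (if a = c then evX M.det else 0) = evX (if a = c then M.det else 0) := by
        split_ifs <;> simp
      rw [h4', ← h4, map_sum]
      exact Finset.sum_congr rfl fun b _ => by rw [← map_mul, mul_comm]
    calc evX M.det *ᵥ e c = ∑ a, (if a = c then evX M.det else 0) *ᵥ e a := by
          rw [Finset.sum_eq_single c] <;> simp +contextual
      _ = ∑ a, ∑ b, evX (M.adjugate b c) *ᵥ (evX (M a b) *ᵥ e a) := by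
          simp only [← h3, Matrix.sum_mulVec, Matrix.mulVec_mulVec]
      _ = ∑ b, evX (M.adjugate b c) *ᵥ ∑ a, evX (M a b) *ᵥ e a := by
          rw [Finset.sum_comm]
          exact Finset.sum_congr rfl fun b _ => (Matrix.mulVec_sum _ _ _).symm
      _ = 0 := by simp [hcol]
  have h5 : (Ideal.Quotient.mk H) M.det = Ideal.Quotient.mk H g ^ d := by
    rw [RingHom.map_det, RingHom.mapMatrix_apply]
    have : M.map (Ideal.Quotient.mk H) = Matrix.diagonal fun _ => Ideal.Quotient.mk H g := by
      ext a b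
      rw [Matrix.map_apply, Matrix.diagonal_apply]
      simp only [M, map_sub, map_mul, Ideal.Quotient.eq_zero_iff_mem.2 hh, mul_zero, sub_zero]
      split_ifs <;> simp
    rw [this, Matrix.det_diagonal, Finset.prod_const, Finset.card_univ, Fintype.card_fin]
  rw [Ideal.Quotient.eq_zero_iff_mem.2 (hker hdet), eq_comm] at h5
  exact Ideal.Quotient.eq_zero_iff_mem.1 (pow_eq_zero_iff'.1 h5).1

variable {h : R} {e : S} (D : Degen S d dY) (hadj : D.IsAdj (evX h) e)

include hσ hadj in
/-- what maps two copies into the image of `push * pull` -/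
theorem mem_of_dbl_eq {g : R} {Z : Matrix (Fin 2 × Fin d) (Fin 2 × Fin d) S}
    (hg : dbl (evX g) = D.push * D.pull * Z) {H : Ideal R} [H.IsPrime]
    (hker : RingHom.ker evX ≤ H) (hh : h ∈ H) (heH : σ e ∉ H) : g ∈ H := by
  classical
  have h1 : D.adj * dbl (evX g) = dbl (evX h) * Z := by
    rw [hg, ← Matrix.mul_assoc, hadj.1]
  have h2 : evX (σ e * g) = evX h * (Z.submatrix (fun a => ((0 : Fin 2), a)) fun a => (0, a)) := by
    refine Matrix.ext fun a b => ?_
    have h3 := congrFun (congrFun h1 (0, a)) (0, b)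
    rw [Matrix.mul_apply, Matrix.mul_apply, Fintype.sum_prod_type, Fintype.sum_prod_type,
      Fin.sum_univ_two, Fin.sum_univ_two] at h3
    simp only [dbl, kroneckerMap_apply, Matrix.one_apply_eq, one_mul,
      Matrix.one_apply_ne (show (1 : Fin 2) ≠ 0 by decide),
      Matrix.one_apply_ne (show (0 : Fin 2) ≠ 1 by decide), zero_mul, mul_zero,
      Finset.sum_const_zero, add_zero, hadj.2.2] at h3
    rw [map_mul, hσ, Algebra.algebraMap_eq_smul_one, Matrix.smul_mul, Matrix.one_mul,
      Matrix.smul_apply, smul_eq_mul, Matrix.mul_apply]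
    simp only [Matrix.submatrix_apply]
    rw [← h3]
    simp [ite_mul]
  exact (Ideal.IsPrime.mem_or_mem ‹H.IsPrime› (mem_of_eq_mul evX σ hσ h2 hker hh)).resolve_left heH

include hσ hadj in
/-- the step lemma -/
theorem mem_of_kill {g : R} (Yg : Matrix (Fin dY) (Fin dY) S)
    (hpull : Yg * D.pull = D.pull * dbl (evX g))
    (hpush : dbl (evX g) * D.push = D.push * Yg)
    (hdet : (evX h).det ≠ 0) (hkill : Yg * (1 - D.sect * D.push) = 0)
    {H : Ideal R} [H.IsPrime] (hker : RingHom.ker evX ≤ H) (hh : h ∈ H) (heH : σ e ∉ H) :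
    g ∈ H := by
  classical
  set Z0 := Yg * D.sect with hZ0
  have hY : Yg = Z0 * D.push := by
    rw [Matrix.mul_sub, Matrix.mul_one, sub_eq_zero] at hkill
    rw [hkill, hZ0, Matrix.mul_assoc]
  set Q := (1 : Matrix (Fin dY) (Fin dY) S) - D.pull * D.retr with hQ
  have hQp : Q * D.pull = 0 := by
    rw [hQ, Matrix.sub_mul, Matrix.one_mul, Matrix.mul_assoc, D.retr_pull, Matrix.mul_one, sub_self]
  have h1 : Q * Z0 * dbl (evX h) = 0 := by
    rw [← hadj.2.1, ← Matrix.mul_assoc, ← Matrix.mul_assoc, Matrix.mul_assoc Q, ← hY,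
      Matrix.mul_assoc Q, hpull, ← Matrix.mul_assoc Q, hQp, Matrix.zero_mul, Matrix.zero_mul]
  have h2 : Q * Z0 = 0 := by
    have h3 : Q * Z0 * (dbl (evX h) * dbl (evX h).adjugate) = 0 := by
      rw [← Matrix.mul_assoc, h1, Matrix.zero_mul]
    rw [← dblHom_apply, ← dblHom_apply, ← map_mul, Matrix.mul_adjugate, dblHom_apply, dbl,
      Matrix.kronecker_smul, Matrix.one_kronecker_one, Matrix.mul_smul, Matrix.mul_one] at h3
    exact (smul_eq_zero.1 h3).resolve_left hdet
  refine mem_of_dbl_eq evX σ hσ D hadj (Z := D.retr * Z0) ?_ hker hh heH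
  calc dbl (evX g) = dbl (evX g) * (D.push * D.sect) := by rw [D.push_sect, Matrix.mul_one]
    _ = D.push * Z0 := by rw [← Matrix.mul_assoc, hpush, Matrix.mul_assoc, hZ0]
    _ = D.push * D.pull * (D.retr * Z0) := by
        rw [hQ, Matrix.sub_mul, Matrix.one_mul, sub_eq_zero] at h2
        rw [Matrix.mul_assoc, ← Matrix.mul_assoc D.pull, ← h2]

end FLTAgent.MLT

end
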