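import Fermat.Agent.LL.Eval
import Fermat.Agent.LL.PowerSeries

/-!
Area MLT, LIMIT: homomorphisms out of power series rings into complete rings.
-/

set_option autoImplicit false
set_option linter.style.haveILetI false
set_option linter.unusedSectionVars false

noncomputable section

namespace FLTAgent.MLT

open IsLocalRing MvPowerSeries FLTAgent.LL

variable {O : Type*} [CommRing O] {σ : Type*} [Finite σ] {A : Type*} [CommRing A] [Algebra O A]
  (I : Ideal A) [IsAdicComplete I A]

/-- a homomorphism is evaluation at the images of the variables -/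
theorem hom_eq_evalHom {x : σ → A} {N : ℕ} (hx : ∀ i, x i ^ N ∈ I) (φ : MvPowerSeries σ O →+* A)
    (hC : ∀ c, φ (C c) = algebraMap O A c) (hX : ∀ i, φ (X i) = x i) : φ = evalHom I x N hx := by
  classical
  have hp : ∀ p : MvPolynomial σ O, φ (p : MvPowerSeries σ O) = MvPolynomial.aeval x p := by
    intro p
    induction p using MvPolynomial.induction_on with
    | C c => rw [MvPolynomial.coe_C, hC, MvPolynomial.aeval_C]
    | add p q hp hq => rw [MvPolynomial.coe_add, map_add, hp, hq, map_add]
    | mul_X p i hp => rw [MvPolynomial.coe_mul, map_mul, hp, MvPolynomial.coe_X, hX, map_mul,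
        MvPolynomial.aeval_X]
  obtain ⟨K, hK⟩ : ∃ K, Ideal.span (Set.range x) ^ K ≤ I := by
    refine Ideal.exists_pow_le_of_le_radical_of_fg ?_ (Submodule.fg_span (Set.finite_range x))
    rw [Ideal.span_le]
    rintro _ ⟨i, rfl⟩
    exact ⟨N, hx i⟩
  refine RingHom.ext fun F => (evalHom_eq_of_forall I hx fun n => ?_).symm
  set D := max (cutDeg σ N n) (K * n)
  have h1 : F - ((truncTotal D F : MvPolynomial σ O) : MvPowerSeries σ O) ∈
      Ideal.span (Set.range (X : σ → MvPowerSeries σ O)) ^ (K * n) := by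
    refine Ideal.pow_le_pow_right (le_max_right (cutDeg σ N n) (K * n))
      (mem_span_X_pow fun v (hv : v.degree < D) => ?_)
    rw [map_sub, MvPolynomial.coeff_coe, coeff_truncTotal _ hv, sub_self]
  have h2 := Ideal.mem_map_of_mem φ h1
  rw [Ideal.map_pow, Ideal.map_span, ← Set.range_comp,
    show φ ∘ (X : σ → MvPowerSeries σ O) = x from funext hX, pow_mul, map_sub, hp] at h2
  have h3 : MvPolynomial.aeval x (truncTotal D F) - evalTrunc x N n F ∈ I ^ n :=
    aeval_sub_mem hx fun v hv => by
      rw [coeff_truncTotal _ hv, coeff_truncTotal _ (lt_of_lt_of_le hv (le_max_left _ _))]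
  simpa using add_mem (Ideal.pow_right_mono hK n h2) h3

/-- extensionality -/
theorem hom_ext_series {φ ψ : MvPowerSeries σ O →+* A} {N : ℕ}
    (hC : ∀ c, φ (C c) = algebraMap O A c) (hC' : ∀ c, ψ (C c) = algebraMap O A c)
    (hX : ∀ i, φ (X i) = ψ (X i)) (hN : ∀ i, φ (X i) ^ N ∈ I) : φ = ψ :=
  (hom_eq_evalHom I hN φ hC fun _ => rfl).trans
    (hom_eq_evalHom I hN ψ hC' fun i => (hX i).symm).symm

section Small

variable [IsLocalRing O]

/-- series in a high power of the maximal ideal take small values -/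
theorem evalHom_mem_pow {x : σ → A} {N : ℕ} (hx : ∀ i, x i ^ N ∈ I)
    (hI : ∀ c ∈ maximalIdeal O, algebraMap O A c ∈ I) {n : ℕ} {F : MvPowerSeries σ O}
    (hF : F ∈ maximalIdeal (MvPowerSeries σ O) ^ (cutDeg σ N n + n)) :
    evalHom I x N hx F ∈ I ^ n := by
  classical
  rw [maximalIdeal_pow_eq, mem_coeffIdeal_iff] at hF
  have h := evalHom_sub_mem I hx n F
  rw [← sub_add_cancel (evalHom I x N hx F) (evalTrunc x N n F)]
  refine add_mem h ?_
  rw [evalTrunc, (truncTotal (cutDeg σ N n) F).as_sum, map_sum]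
  refine sum_mem fun v hv => ?_
  have hd : v.degree < cutDeg σ N n := by
    by_contra hd
    rw [MvPolynomial.mem_support_iff, coeff_truncTotal_eq_zero _ (not_lt.1 hd)] at hv
    exact hv rfl
  rw [MvPolynomial.aeval_monomial, coeff_truncTotal _ hd]
  refine Ideal.mul_mem_right _ _ ?_
  have h1 : coeff v F ∈ maximalIdeal O ^ n := Ideal.pow_le_pow_right (by omega) (hF v)
  have h2 : (maximalIdeal O).map (algebraMap O A) ≤ I := Ideal.map_le_iff_le_comap.2 hI
  refine Ideal.pow_right_mono h2 n ?_
  rw [← Ideal.map_pow]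
  exact Ideal.mem_map_of_mem _ h1

variable {τ : Type*} [Finite τ]

variable [IsAdicComplete (maximalIdeal O) O]

theorem pow_one_series {z : σ → MvPowerSeries τ O}
    (hz : ∀ i, constantCoeff (z i) ∈ maximalIdeal O) :
    ∀ i, z i ^ 1 ∈ maximalIdeal (MvPowerSeries τ O) := fun i => by
  simpa [IsLocalRing.mem_maximalIdeal, mem_nonunits_iff, isUnit_iff_constantCoeff] using hz i

/-- substitution -/
def substHom (z : σ → MvPowerSeries τ O) (hz : ∀ i, constantCoeff (z i) ∈ maximalIdeal O) :
    MvPowerSeries σ O →+* MvPowerSeries τ O :=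
  evalHom (maximalIdeal (MvPowerSeries τ O)) z 1 (pow_one_series hz)

theorem substHom_C (z : σ → MvPowerSeries τ O) (hz : ∀ i, constantCoeff (z i) ∈ maximalIdeal O)
    (c : O) : substHom z hz (C c) = C c := by
  rw [substHom, evalHom_C, MvPowerSeries.algebraMap_apply]; rfl

theorem substHom_X (z : σ → MvPowerSeries τ O) (hz : ∀ i, constantCoeff (z i) ∈ maximalIdeal O)
    (i : σ) : substHom z hz (X i) = z i := evalHom_X _ _ i

end Small

end FLTAgent.MLT

end
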