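import Fermat.Agent.MLT.Patch.Comp
import Fermat.Agent.MLT.Patch.Step

/-!
Area MLT, LIMIT: parameters inside the ring of coordinates, supports, points.
-/

set_option autoImplicit false
set_option linter.style.haveILetI false
set_option linter.unusedSectionVars false
set_option maxHeartbeats 1000000

noncomputable section

namespace FLTAgent.MLT

open IsLocalRing Filter Matrix FLTAgent.LL

variable {O : Type} [CommRing O] [IsDomain O] [IsDiscreteValuationRing O]
  [IsAdicComplete (maximalIdeal O) O] [Finite (ResidueField O)]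
variable {σ τ : Type} [Finite σ] [Finite τ] {m d : ℕ}

theorem maximal_iff_constantCoeff {f : MvPowerSeries σ O} :
    f ∈ maximalIdeal (MvPowerSeries σ O) ↔ MvPowerSeries.constantCoeff f ∈ maximalIdeal O := by
  simp [IsLocalRing.mem_maximalIdeal, mem_nonunits_iff, MvPowerSeries.isUnit_iff_constantCoeff]

theorem C_algebraMap_mem {c : O} (hc : c ∈ maximalIdeal O) :
    algebraMap O (MvPowerSeries σ O) c ∈ maximalIdeal (MvPowerSeries σ O) := by
  rw [maximal_iff_constantCoeff]
  simpa [MvPowerSeries.algebraMap_apply] using hc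

theorem substHom_small {z : σ → MvPowerSeries τ O}
    (hz : ∀ i, MvPowerSeries.constantCoeff (z i) ∈ maximalIdeal O) (n : ℕ)
    {f : MvPowerSeries σ O} (hf : f ∈ maximalIdeal (MvPowerSeries σ O) ^ (cutDeg σ 1 n + n)) :
    substHom z hz f ∈ maximalIdeal (MvPowerSeries τ O) ^ n :=
  evalHom_mem_pow _ (pow_one_series hz) (fun _ hc => C_algebraMap_mem hc) hf

theorem SmallHom.comp_subst {ι : Type} [Fintype ι] [DecidableEq ι]
    {ev : MvPowerSeries τ O →+* Matrix ι ι (SR O m)} (h : SmallHom ev)
    {z : σ → MvPowerSeries τ O} (hz : ∀ i, MvPowerSeries.constantCoeff (z i) ∈ maximalIdeal O) :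
    SmallHom (ev.comp (substHom z hz)) where
  map_C c := by rw [RingHom.comp_apply, substHom_C, h.map_C]
  small n := by
    obtain ⟨K, hK⟩ := h.small n
    exact ⟨_, fun f hf i j => hK _ (substHom_small hz K hf) i j⟩

theorem smallHom_scalar :
    SmallHom (algebraMap (SR O m) (Matrix (Fin d) (Fin d) (SR O m))) where
  map_C c := by
    rw [IsScalarTower.algebraMap_apply O (SR O m) (Matrix (Fin d) (Fin d) (SR O m)),
      MvPowerSeries.algebraMap_apply]
    rfl
  small n := ⟨n, fun f hf i j => by
    rw [Matrix.algebraMap_matrix_apply]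
    split_ifs
    · exact hf
    · exact zero_mem _⟩

theorem near_scalar {lv : ℕ → ℕ} (s : SR O m) :
    Near (lv := lv) (algebraMap (SR O m) (Matrix (Fin d) (Fin d) (SR O m)) s)
      fun k => Matrix.scalar (Fin d) (Ideal.Quotient.mk (maximalIdeal (SR O m) ^ (lv k + 1)) s) :=
  (near_map _).congr fun k => by
    ext i j
    rw [Matrix.map_apply, Matrix.algebraMap_matrix_apply, Matrix.scalar_apply, Matrix.diagonal_apply]
    split_ifs <;> simp

/-- a preimage of a parameter in the limit -/
theorem exists_gen_limit [Nonempty (Fin d)] {lv : ℕ → ℕ} (hlv : ∀ k, k ≤ lv k)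
    {ψ : ∀ k, MvPolynomial σ O →ₐ[O] Matrix (Fin d) (Fin d) (SQ O m (lv k))}
    {ev : MvPowerSeries σ O →+* Matrix (Fin d) (Fin d) (SR O m)}
    (hnear : ∀ (F : ℕ → MvPowerSeries σ O) f,
      (∀ n, ∀ᶠ k in patchFilter, f - F k ∈ maximalIdeal (MvPowerSeries σ O) ^ n) →
        Near (ev f) fun k => evT (ψ k) (F k)) (i : Fin m)
    (hgen : ∀ k, ∃ f, evT (ψ k) f = Matrix.scalar (Fin d) (Ideal.Quotient.mk _ (MvPowerSeries.X i))) :
    ∃ G, MvPowerSeries.constantCoeff G ∈ maximalIdeal O ∧
      ev G = algebraMap (SR O m) _ (MvPowerSeries.X i) := by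
  choose F hF using hgen
  obtain ⟨G, hG⟩ := exists_ulim F
  have e : ev G = algebraMap (SR O m) _ (MvPowerSeries.X i) :=
    Near.unique hlv ((hnear F G hG).congr hF) (near_scalar _)
  refine ⟨G, ?_, e⟩
  by_contra hu
  have hu' : IsUnit G := by
    rw [← maximal_iff_constantCoeff] at hu
    simpa [IsLocalRing.mem_maximalIdeal, mem_nonunits_iff] using hu
  have h1 := Matrix.isUnit_iff_isUnit_det _ |>.1 (e ▸ hu'.map ev)
  rw [Matrix.algebraMap_eq_diagonal, Matrix.det_diagonal] at h1
  simp only [Pi.algebraMap_apply, Algebra.algebraMap_self, RingHom.id_apply, Finset.prod_const,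
    Finset.card_univ, Fintype.card_fin] at h1
  have hd : d ≠ 0 := by rintro rfl; exact IsEmpty.false (Classical.arbitrary (Fin 0))
  exact (IsLocalRing.mem_maximalIdeal _).1 (X_mem_maximalIdeal i) ((isUnit_pow_iff hd).1 h1)

/-- the parameters inside the ring of coordinates -/
theorem exists_param {ev : MvPowerSeries σ O →+* Matrix (Fin d) (Fin d) (SR O m)} (hev : SmallHom ev)
    {G : Fin m → MvPowerSeries σ O} (hG0 : ∀ i, MvPowerSeries.constantCoeff (G i) ∈ maximalIdeal O)
    (hG : ∀ i, ev (G i) = algebraMap (SR O m) _ (MvPowerSeries.X i)) (s : SR O m) :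
    ev (substHom G hG0 s) = algebraMap (SR O m) _ s := by
  have h := SmallHom.intertwine (smallHom_scalar (O := O) (m := m) (d := d)) (hev.comp_subst hG0)
    (1 : Matrix (Fin d) (Fin d) (SR O m))
    (fun l => by rw [RingHom.comp_apply, substHom_X, hG, mul_one, one_mul]) s
  simpa using h

/-- a quotient of coordinates acting faithfully on matrices is finite over the parameters -/
theorem finite_mk_of_ker_le_ring {R : Type} [CommRing R]
    {ev : R →+* Matrix (Fin d) (Fin d) (SR O m)} (π : SR O m →+* R)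
    (hπ : ∀ s, ev (π s) = algebraMap (SR O m) _ s) (I : Ideal R) (hI : RingHom.ker ev ≤ I) :
    ((Ideal.Quotient.mk I).comp π).Finite := by
  have h1 : ((Ideal.Quotient.mk (RingHom.ker ev)).comp π).Finite := by
    letI := ((Ideal.Quotient.mk (RingHom.ker ev)).comp π).toAlgebra
    let L : R ⧸ RingHom.ker ev →ₗ[SR O m]
        Matrix (Fin d) (Fin d) (SR O m) :=
      { toFun := RingHom.kerLift ev
        map_add' := map_add _
        map_smul' := fun s x => by
          rw [Algebra.smul_def, map_mul, RingHom.id_apply, Algebra.smul_def]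
          show ev (π s) * _ = _
          rw [hπ] }
    exact Module.Finite.of_injective L (RingHom.kerLift_injective ev)
  have h2 := (RingHom.Finite.of_surjective (Ideal.Quotient.factor hI)
    (Ideal.Quotient.factor_surjective hI)).comp h1
  convert h2 using 1
  exact RingHom.ext fun x => rfl

section Comp

variable {k g : ℕ} {P : Fin k → FPlace O} (M : CompModel P g)
  {ev : MvPowerSeries (WVar k g) O →+* Matrix (Fin d) (Fin d) (SR O (3 * k + g))}
  (π : SR O (3 * k + g) →+* MvPowerSeries (WVar k g) O)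
  (hπC : ∀ a, π (MvPowerSeries.C a) = MvPowerSeries.C a)
  (hπ : ∀ s, ev (π s) = algebraMap (SR O (3 * k + g)) _ s)
  (hrel : ∀ f ∈ fpRel P, ev f = 0)

include hπ in
theorem finite_mk_of_ker_le (I : Ideal (MvPowerSeries (WVar k g) O)) (hI : RingHom.ker ev ≤ I) :
    ((Ideal.Quotient.mk I).comp π).Finite :=
  finite_mk_of_ker_le_ring π hπ I hI

include hπC hπ hrel in
/-- components below a prime containing the kernel -/
theorem exists_comp_ker {H : Ideal (MvPowerSeries (WVar k g) O)} [H.IsPrime]
    (hH : RingHom.ker ev ≤ H) : ∃ j, RingHom.ker ev ≤ M.K j ∧ M.K j ≤ H := by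
  refine M.exists_comp π hπC _ (fun f hf => hrel f hf) (finite_mk_of_ker_le π hπ _ le_rfl)
    (fun s r h => ?_) H hH
  rw [RingHom.mem_ker, map_mul, hπ, ← Algebra.smul_def] at h
  exact smul_eq_zero.1 h

include hπC hπ hrel in
/-- what avoids every component of the support is injective -/
theorem det_ne_zero_of_notMem {f : MvPowerSeries (WVar k g) O}
    (h : ∀ j, RingHom.ker ev ≤ M.K j → f ∉ M.K j) : (ev f).det ≠ 0 := by
  intro hdet
  obtain ⟨v, hv0, hv⟩ := Matrix.exists_mulVec_eq_zero_iff.2 hdet
  let J : Ideal (MvPowerSeries (WVar k g) O) :=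
    { carrier := {r | ev r *ᵥ v = 0}
      add_mem' := fun {a b} ha hb => by
        show ev (a + b) *ᵥ v = 0
        rw [map_add, Matrix.add_mulVec, show ev a *ᵥ v = 0 from ha, show ev b *ᵥ v = 0 from hb,
          add_zero]
      zero_mem' := by
        show ev 0 *ᵥ v = 0
        rw [map_zero, Matrix.zero_mulVec]
      smul_mem' := fun c a ha => by
        show ev (c * a) *ᵥ v = 0
        rw [map_mul, ← Matrix.mulVec_mulVec, show ev a *ᵥ v = 0 from ha, Matrix.mulVec_zero] }
  have hker : RingHom.ker ev ≤ J := fun r hr => by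
    show ev r *ᵥ v = 0
    rw [RingHom.mem_ker.1 hr, Matrix.zero_mulVec]
  have hJ : J ≤ maximalIdeal (MvPowerSeries (WVar k g) O) := IsLocalRing.le_maximalIdeal fun h1 => hv0 (by
    have h2 : ev 1 *ᵥ v = 0 := (Ideal.eq_top_iff_one J).1 h1
    rwa [map_one, Matrix.one_mulVec] at h2)
  obtain ⟨j, hj, -⟩ := M.exists_comp π hπC J (fun r hr => hker (hrel r hr))
    (finite_mk_of_ker_le π hπ J hker)
    (fun s r hs => by
      have hs' : ev (π s * r) *ᵥ v = 0 := hs
      rw [map_mul, hπ, ← Algebra.smul_def, Matrix.smul_mulVec] at hs'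
      exact smul_eq_zero.1 hs') _ hJ
  exact h j (hker.trans hj) (hj hv)

end Comp

/-- a point of the coordinates along the ultrafilter -/
theorem exists_point_limit {lv : ℕ → ℕ} (hlv : ∀ k, k ≤ lv k) (u : ℕ → σ → O)
    (hu : ∀ k a, u k a ∈ maximalIdeal O) :
    ∃ x : MvPowerSeries σ O →+* O, (∀ a, x (MvPowerSeries.C a) = a) ∧
      (∀ f, f ∈ maximalIdeal (MvPowerSeries σ O) → x f ∈ maximalIdeal O) ∧
      ∀ (F : ℕ → MvPowerSeries σ O) f,
        (∀ n, ∀ᶠ k in patchFilter, f - F k ∈ maximalIdeal (MvPowerSeries σ O) ^ n) →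
        ∀ n, ∀ᶠ k in patchFilter, x f - evU (lv k) (u k) (F k) ∈ maximalIdeal O ^ n := by
  classical
  choose y hy using fun a => exists_ulim fun k => u k a
  have hym : ∀ a, y a ∈ maximalIdeal O := fun a => by
    obtain ⟨k, hk⟩ := (hy a 1).exists
    rw [pow_one] at hk
    simpa using add_mem hk (hu k a)
  have hy1 : ∀ a, y a ^ 1 ∈ maximalIdeal O := fun a => by rw [pow_one]; exact hym a
  let x : MvPowerSeries σ O →+* O := evalHom (maximalIdeal O) y 1 hy1
  have hxI : ∀ c ∈ maximalIdeal O, algebraMap O O c ∈ maximalIdeal O := fun c hc => hc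
  refine ⟨x, fun a => evalHom_C _ _ a, fun f hf => ?_, fun F f hF n => ?_⟩
  · rw [maximal_iff_constantCoeff] at hf
    have h1 := evalHom_sub_mem (maximalIdeal O) hy1 1 f
    rw [pow_one] at h1
    have h2 : evalTrunc y 1 1 f ∈ maximalIdeal O := by
      rw [evalTrunc, (MvPowerSeries.truncTotal (cutDeg σ 1 1) f).as_sum, map_sum]
      refine sum_mem fun v _ => ?_
      rw [MvPolynomial.aeval_monomial]
      by_cases hv : v = 0
      · subst hv
        rw [MvPowerSeries.coeff_truncTotal _ (by simp [cutDeg])]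
        simpa using hf
      · obtain ⟨a, ha⟩ := Finsupp.ne_iff.1 hv
        refine Ideal.mul_mem_left _ _ ?_
        rw [Finsupp.prod, ← Finset.mul_prod_erase _ _ (Finsupp.mem_support_iff.2 (by simpa using ha))]
        exact Ideal.mul_mem_right _ _ (Ideal.pow_mem_of_mem _ (hym a) _
          (Nat.pos_of_ne_zero (by simpa using ha)))
    simpa [x] using add_mem h1 h2
  · have hva : ∀ᶠ k in patchFilter, ∀ a, y a - u k a ∈ maximalIdeal O ^ n :=
      eventually_all.2 fun a => hy a n
    refine ((hva.and (hF (cutDeg σ 1 n + n))).and (eventually_ge n)).mono ?_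
    rintro k ⟨⟨hk, hFk⟩, hnk⟩
    set q := MvPowerSeries.truncTotal (cutDeg σ 1 (lv k + 1)) (F k)
    have h1 : x f - x (F k) ∈ maximalIdeal O ^ n := by
      rw [← map_sub]
      exact evalHom_mem_pow _ hy1 hxI hFk
    have h2 : x (F k) - MvPolynomial.aeval y q ∈ maximalIdeal O ^ n :=
      Ideal.pow_le_pow_right (by have := hlv k; omega)
        (evalHom_sub_mem (maximalIdeal O) hy1 (lv k + 1) (F k))
    have h3 : MvPolynomial.aeval y q - MvPolynomial.eval (u k) q ∈ maximalIdeal O ^ n := by
      rw [← Ideal.Quotient.eq]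
      induction q using MvPolynomial.induction_on with
      | C c => simp
      | add a b ha hb => simp only [map_add, ha, hb]
      | mul_X a l ha =>
        simp only [map_mul, ha, MvPolynomial.aeval_X, MvPolynomial.eval_X,
          Ideal.Quotient.eq.2 (hk l)]
    have := add_mem (add_mem h1 h2) h3
    simpa [evU] using this

end FLTAgent.MLT

end
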