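import Fermat.Agent.MLT.Patch.Defs
import Fermat.Agent.MLT.Patch.Subst

/-!
Area MLT, LIMIT: limits along an ultrafilter of matrices over truncated parameter rings.
-/

set_option autoImplicit false
set_option linter.style.haveILetI false
set_option linter.unusedSectionVars false

noncomputable section

namespace FLTAgent.MLT

open IsLocalRing Filter FLTAgent.LL

/-- the ultrafilter of the compactness argument -/
abbrev patchFilter : Filter ℕ := (Filter.hyperfilter ℕ : Ultrafilter ℕ)

theorem eventually_ge (n : ℕ) : ∀ᶠ k in patchFilter, n ≤ k :=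
  Nat.hyperfilter_le_atTop (eventually_ge_atTop n)

/-- every sequence converges along the ultrafilter -/
theorem exists_ulim {S : Type*} [CommRing S] [IsLocalRing S] [IsNoetherianRing S]
    [IsAdicComplete (maximalIdeal S) S] [Finite (ResidueField S)] (z : ℕ → S) :
    ∃ y : S, ∀ n, ∀ᶠ k in patchFilter, y - z k ∈ maximalIdeal S ^ n := by
  classical
  haveI : ∀ n : ℕ, Finite (S ⧸ maximalIdeal S ^ n) := fun n => by
    haveI : Finite (S ⧸ maximalIdeal S) := inferInstanceAs (Finite (ResidueField S))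
    exact Ideal.finite_quotient_pow (IsNoetherian.noetherian (maximalIdeal S)) n
  have h : ∀ n, ∃ c : S, ∀ᶠ k in patchFilter, c - z k ∈ maximalIdeal S ^ n := by
    intro n
    obtain ⟨a, ha⟩ := ((Filter.hyperfilter ℕ).map
      fun k => Ideal.Quotient.mk (maximalIdeal S ^ n) (z k)).eq_pure_of_finite
    obtain ⟨c, rfl⟩ := Ideal.Quotient.mk_surjective a
    have hm : {Ideal.Quotient.mk (maximalIdeal S ^ n) c} ∈
        (Filter.hyperfilter ℕ).map fun k => Ideal.Quotient.mk (maximalIdeal S ^ n) (z k) := by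
      rw [ha, Ultrafilter.mem_pure]
      exact rfl
    refine ⟨c, Filter.mem_of_superset (Ultrafilter.mem_map.1 hm) fun k hk => ?_⟩
    exact Ideal.Quotient.eq.1 (Eq.symm hk)
  choose c hc using h
  obtain ⟨y, hy⟩ := IsPrecomplete.prec (I := maximalIdeal S) inferInstance (f := c)
    (fun {m n} hmn => by
      obtain ⟨k, h1, h2⟩ := ((hc m).and (hc n)).exists
      rw [SModEq.sub_mem, smul_eq_mul, Ideal.mul_top]
      have := sub_mem h1 (Ideal.pow_le_pow_right hmn h2)
      simpa using this)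
  refine ⟨y, fun n => (hc n).mono fun k hk => ?_⟩
  have h1 := hy n
  rw [SModEq.sub_mem, smul_eq_mul, Ideal.mul_top] at h1
  have := sub_mem hk h1
  simpa using this

variable {O : Type} [CommRing O] [IsDomain O] [IsDiscreteValuationRing O]
  [IsAdicComplete (maximalIdeal O) O] [Finite (ResidueField O)]
variable {m : ℕ} {lv : ℕ → ℕ} {a b c : Type*}

/-- `A` is the limit of the matrices `z k` -/
def Near (A : Matrix a b (SR O m)) (z : ∀ k, Matrix a b (SQ O m (lv k))) : Prop :=
  ∀ n, ∀ i j, ∀ᶠ k in patchFilter, ∃ s : SR O m,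
    Ideal.Quotient.mk _ s = z k i j ∧ A i j - s ∈ maximalIdeal (SR O m) ^ n

theorem exists_near (z : ∀ k, Matrix a b (SQ O m (lv k))) :
    ∃ A : Matrix a b (SR O m), Near A z := by
  choose s hs using fun k i j => Ideal.Quotient.mk_surjective (z k i j)
  choose y hy using fun i j => exists_ulim (fun k => s k i j)
  exact ⟨Matrix.of y, fun n i j => (hy i j n).mono fun k hk => ⟨s k i j, hs k i j, hk⟩⟩

theorem near_map (A : Matrix a b (SR O m)) :
    Near (lv := lv) A fun k => A.map (Ideal.Quotient.mk (maximalIdeal (SR O m) ^ (lv k + 1))) :=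
  fun n i j => Eventually.of_forall fun k => ⟨A i j, rfl, by simp⟩

theorem Near.congr {A : Matrix a b (SR O m)} {z w : ∀ k, Matrix a b (SQ O m (lv k))}
    (h : Near A z) (e : ∀ k, z k = w k) : Near A w := by
  rwa [← funext e]

theorem Near.add {A B : Matrix a b (SR O m)} {z w : ∀ k, Matrix a b (SQ O m (lv k))}
    (h : Near A z) (h' : Near B w) : Near (A + B) fun k => z k + w k := fun n i j =>
  ((h n i j).and (h' n i j)).mono fun k ⟨⟨s, hs, hA⟩, ⟨t, ht, hB⟩⟩ => by
    refine ⟨s + t, by rw [map_add, hs, ht]; rfl, ?_⟩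
    show A i j + B i j - (s + t) ∈ _
    rw [add_sub_add_comm]
    exact add_mem hA hB

theorem Near.sub {A B : Matrix a b (SR O m)} {z w : ∀ k, Matrix a b (SQ O m (lv k))}
    (h : Near A z) (h' : Near B w) : Near (A - B) fun k => z k - w k := fun n i j =>
  ((h n i j).and (h' n i j)).mono fun k ⟨⟨s, hs, hA⟩, ⟨t, ht, hB⟩⟩ => by
    refine ⟨s - t, by rw [map_sub, hs, ht]; rfl, ?_⟩
    show A i j - B i j - (s - t) ∈ _
    rw [sub_sub_sub_comm]
    exact sub_mem hA hB

theorem Near.mul [Fintype b] {A : Matrix a b (SR O m)} {B : Matrix b c (SR O m)}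
    {z : ∀ k, Matrix a b (SQ O m (lv k))} {w : ∀ k, Matrix b c (SQ O m (lv k))}
    (h : Near A z) (h' : Near B w) : Near (A * B) fun k => z k * w k := fun n i j => by
  classical
  have he : ∀ᶠ k in patchFilter, ∀ l : b, (∃ s : SR O m, Ideal.Quotient.mk _ s = z k i l ∧
      A i l - s ∈ maximalIdeal (SR O m) ^ n) ∧ ∃ t : SR O m, Ideal.Quotient.mk _ t = w k l j ∧
      B l j - t ∈ maximalIdeal (SR O m) ^ n :=
    eventually_all.2 fun l => (h n i l).and (h' n l j)
  refine he.mono fun k hk => ?_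
  choose s hs hA using fun l => (hk l).1
  choose t ht hB using fun l => (hk l).2
  refine ⟨∑ l, s l * t l, by simp [map_sum, Matrix.mul_apply, hs, ht], ?_⟩
  rw [Matrix.mul_apply, ← Finset.sum_sub_distrib]
  refine sum_mem fun l _ => ?_
  rw [show A i l * B l j - s l * t l = (A i l - s l) * B l j + s l * (B l j - t l) by ring]
  exact add_mem (Ideal.mul_mem_right _ _ (hA l)) (Ideal.mul_mem_left _ _ (hB l))

theorem near_one [DecidableEq a] :
    Near (lv := lv) (1 : Matrix a a (SR O m)) fun _ => 1 :=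
  (near_map 1).congr fun k => Matrix.map_one _ (map_zero _) (map_one _)

theorem near_zero : Near (lv := lv) (0 : Matrix a b (SR O m)) fun _ => 0 :=
  (near_map 0).congr fun k => Matrix.map_zero _ (map_zero _)

theorem Near.submatrix {a' b' : Type*} {A : Matrix a b (SR O m)}
    {z : ∀ k, Matrix a b (SQ O m (lv k))} (h : Near A z) (f : a' → a) (g : b' → b) :
    Near (A.submatrix f g) fun k => (z k).submatrix f g := fun n i j => h n (f i) (g j)

theorem Near.dbl {d : ℕ} {A : Matrix (Fin d) (Fin d) (SR O m)}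
    {z : ∀ k, Matrix (Fin d) (Fin d) (SQ O m (lv k))} (h : Near A z) :
    Near (MLT.dbl A) fun k => MLT.dbl (z k) := fun n i j =>
  (h n i.2 j.2).mono fun k ⟨s, hs, hA⟩ => by
    refine ⟨(1 : Matrix (Fin 2) (Fin 2) (SR O m)) i.1 j.1 * s, ?_, ?_⟩
    · show _ = (1 : Matrix (Fin 2) (Fin 2) (SQ O m (lv k))) i.1 j.1 * z k i.2 j.2
      rw [map_mul, hs]
      congr 1
      by_cases e : i.1 = j.1 <;> simp [Matrix.one_apply, e]
    · show (1 : Matrix (Fin 2) (Fin 2) (SR O m)) i.1 j.1 * A i.2 j.2 - _ ∈ _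
      rw [← mul_sub]
      exact Ideal.mul_mem_left _ _ hA

/-- limits are unique -/
theorem Near.unique (hlv : ∀ k, k ≤ lv k) {A B : Matrix a b (SR O m)}
    {z : ∀ k, Matrix a b (SQ O m (lv k))} (h : Near A z) (h' : Near B z) : A = B := by
  refine Matrix.ext fun i j => sub_eq_zero.1 ?_
  refine IsHausdorff.haus (I := maximalIdeal (SR O m)) (M := SR O m) inferInstance _ fun n => ?_
  obtain ⟨k, ⟨⟨s, hs, hA⟩, ⟨t, ht, hB⟩⟩, hk⟩ :=
    (((h n i j).and (h' n i j)).and (eventually_ge n)).exists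
  rw [SModEq.zero, smul_eq_mul, Ideal.mul_top]
  have h2 : s - t ∈ maximalIdeal (SR O m) ^ n :=
    Ideal.pow_le_pow_right (by have := hlv k; omega) (Ideal.Quotient.eq.1 (hs.trans ht.symm))
  have := add_mem (sub_mem hA hB) h2
  simpa [show A i j - s - (B i j - t) + (s - t) = A i j - B i j by ring] using this

/-- entries of a limit in a closed ideal -/
theorem Near.mem_ideal (hlv : ∀ k, k ≤ lv k) {A : Matrix a b (SR O m)}
    {z : ∀ k, Matrix a b (SQ O m (lv k))} (h : Near A z) (J : Ideal (SR O m))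
    (hz : ∀ k i j, z k i j ∈ J.map (Ideal.Quotient.mk (maximalIdeal (SR O m) ^ (lv k + 1))))
    (i : a) (j : b) : A i j ∈ J := by
  rw [← Ideal.Quotient.eq_zero_iff_mem]
  have hb := Ideal.iInf_pow_smul_eq_bot_of_le_jacobson (maximalIdeal (SR O m))
    (M := SR O m ⧸ J) (maximalIdeal_le_jacobson _)
  rw [← Submodule.mem_bot (SR O m), ← hb, Submodule.mem_iInf]
  intro n
  obtain ⟨k, ⟨s, hs, hA⟩, hk⟩ := ((h n i j).and (eventually_ge n)).exists
  obtain ⟨t, htJ, ht⟩ := (Ideal.mem_map_iff_of_surjective _ Ideal.Quotient.mk_surjective).1 (hz k i j)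
  have h2 : s - t ∈ maximalIdeal (SR O m) ^ n :=
    Ideal.pow_le_pow_right (by have := hlv k; omega) (Ideal.Quotient.eq.1 (hs.trans ht.symm))
  have h3 : A i j - t ∈ maximalIdeal (SR O m) ^ n := by simpa using add_mem hA h2
  rw [show Ideal.Quotient.mk J (A i j) = (A i j - t) • (1 : SR O m ⧸ J) by
    rw [← Algebra.algebraMap_eq_smul_one, Ideal.Quotient.algebraMap_eq, map_sub,
      Ideal.Quotient.eq_zero_iff_mem.2 htJ, sub_zero]]
  exact Submodule.smul_mem_smul h3 Submodule.mem_top

end FLTAgent.MLT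

end
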